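import Mathlib
import Fermat.Prelude.Def_GaloisRep_Residual

set_option autoImplicit false

namespace Fermat.Agent.S53

open scoped TensorProduct

section AbstractBurnside

variable {K : Type*} [Field K] [IsAlgClosed K]
variable {V : Type*} [AddCommGroup V] [Module K V] [FiniteDimensional K V]

/-- Burnside's theorem over an algebraically closed field: a subalgebra of `End_K V` acting
irreducibly on a nonzero finite dimensional space is everything. -/
theorem subalgebra_eq_top_of_irreducible [Nontrivial V]
    (A : Subalgebra K (Module.End K V))
    (hirr : ∀ W : Submodule K V, (∀ a ∈ A, ∀ x ∈ W, a x ∈ W) → W = ⊥ ∨ W = ⊤) :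
    A = ⊤ := by
  -- `V` is a simple `A`-module
  have hst : IsScalarTower K A V := ⟨fun c a v => by
    show ((c • a : A) : Module.End K V) v = c • ((a : Module.End K V) v)
    simp⟩
  have hsimple : IsSimpleModule A V := by
    rw [isSimpleModule_iff]
    refine ⟨fun W => ?_⟩
    let W' : Submodule K V :=
      { carrier := W
        add_mem' := W.add_mem
        zero_mem' := W.zero_mem
        smul_mem' := fun c x hx => by
          have : c • x = (algebraMap K A c) • x := by
            show c • x = ((algebraMap K A c : A) : Module.End K V) x
            simp [Algebra.algebraMap_eq_smul_one]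
          rw [this]
          exact W.smul_mem _ hx }
    have hW' : ∀ a ∈ A, ∀ x ∈ W', a x ∈ W' := fun a ha x hx =>
      W.smul_mem (⟨a, ha⟩ : A) hx
    rcases hirr W' hW' with h | h
    · left
      ext x
      have : x ∈ W' ↔ x ∈ (⊥ : Submodule K V) := by rw [h]
      simpa [W'] using this
    · right
      ext x
      have : x ∈ W' ↔ x ∈ (⊤ : Submodule K V) := by rw [h]
      simpa [W'] using this
  have hschur := IsSimpleModule.algebraMap_end_bijective_of_isAlgClosed (A := A) (V := V) K
  have : Module.Finite (Module.End A V) V := by
    have : IsScalarTower K (Module.End A V) V := ⟨fun c φ v => by simp⟩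
    exact Module.Finite.of_restrictScalars_finite K (Module.End A V) V
  have hdens := Module.Finite.toModuleEnd_moduleEnd_surjective (R := A) (M := V)
  rw [eq_top_iff]
  intro f _
  -- `f` commutes with `End_A V = K`
  let f' : Module.End (Module.End A V) V :=
    { toFun := f
      map_add' := f.map_add
      map_smul' := fun φ v => by
        obtain ⟨c, rfl⟩ := hschur.2 φ
        simp [Algebra.algebraMap_eq_smul_one] }
  obtain ⟨a, ha⟩ := hdens f'
  have : f = (a : Module.End K V) := by
    ext v
    have h1 := congrArg (fun g => g v) ha
    exact h1.symm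
  rw [this]
  exact a.2

/-- Burnside for a submonoid of endomorphisms: if the only stable subspaces are trivial, the
`K`-span of the submonoid is everything. -/
theorem span_eq_top_of_irreducible [Nontrivial V]
    (S : Submonoid (Module.End K V))
    (hirr : ∀ W : Submodule K V, (∀ a ∈ S, ∀ x ∈ W, a x ∈ W) → W = ⊥ ∨ W = ⊤) :
    Submodule.span K (S : Set (Module.End K V)) = ⊤ := by
  have h := subalgebra_eq_top_of_irreducible (Algebra.adjoin K (S : Set (Module.End K V)))
    (fun W hW => hirr W fun a ha x hx => hW a (Algebra.subset_adjoin ha) x hx)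
  have h2 := Algebra.adjoin_eq_span (R := K) (S : Set (Module.End K V))
  rw [h, Submonoid.closure_eq] at h2
  rw [← h2]
  rfl

end AbstractBurnside

section Descent

variable {k : Type*} [Field k] (K : Type*) [Field K] [Algebra k K]
variable {V : Type*} [AddCommGroup V] [Module k V] [FiniteDimensional k V]

/-- Descent of spanning for endomorphisms along a field extension. -/
theorem span_eq_top_of_span_baseChange_eq_top (S : Set (Module.End k V))
    (h : Submodule.span K ((fun f : Module.End k V => f.baseChange K) '' S) = ⊤) :
    Submodule.span k S = ⊤ := by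
  classical
  set B := Submodule.span k S with hB
  -- a finite basis of `B`
  let b := Module.finBasis k B
  let β : Module.End k V →ₗ[k] Module.End K (K ⊗[k] V) := LinearMap.baseChangeHom k K V V
  have hβ : ∀ f, β f = f.baseChange K := fun f => rfl
  -- the `K`-span of the images of the basis vectors contains the image of `S`
  have hsub : (fun f : Module.End k V => f.baseChange K) '' S ⊆
      (Submodule.span K (Set.range fun i => β (b i : Module.End k V)) :
        Set (Module.End K (K ⊗[k] V))) := by
    rintro _ ⟨f, hf, rfl⟩
    have hfB : f ∈ B := Submodule.subset_span hf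
    have hrep := b.sum_repr ⟨f, hfB⟩
    have hf' : f = ∑ i, b.repr ⟨f, hfB⟩ i • (b i : Module.End k V) := by
      have h3 := congrArg (Submodule.subtype B) hrep
      rw [map_sum] at h3
      simpa only [map_smul, Submodule.subtype_apply] using h3.symm
    show f.baseChange K ∈ _
    rw [← hβ, hf', map_sum]
    refine Submodule.sum_mem _ fun i _ => ?_
    rw [map_smul, ← algebraMap_smul K (b.repr ⟨f, hfB⟩ i) (β (b i : Module.End k V))]
    exact Submodule.smul_mem _ _ (Submodule.subset_span ⟨i, rfl⟩)
  have htop : Submodule.span K (Set.range fun i => β (b i : Module.End k V)) = ⊤ := by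
    rw [eq_top_iff, ← h]
    exact Submodule.span_le.mpr hsub
  have hcard : Module.finrank K (Module.End K (K ⊗[k] V)) ≤ Module.finrank k B := by
    have h1 := finrank_range_le_card (R := K) (fun i => β (b i : Module.End k V))
    rw [Set.finrank, htop, finrank_top, Fintype.card_fin] at h1
    exact h1
  have hdim : Module.finrank K (Module.End K (K ⊗[k] V)) = Module.finrank k (Module.End k V) := by
    rw [Module.finrank_linearMap, Module.finrank_linearMap, Module.finrank_baseChange]
  apply Submodule.eq_top_of_finrank_eq
  apply le_antisymm (Submodule.finrank_le _)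
  rw [← hdim]
  exact hcard

end Descent



section Residual

local notation "Γℚ" => (AlgebraicClosure ℚ ≃ₐ[ℚ] AlgebraicClosure ℚ)

variable {k : Type} [Field k]

/-- **Burnside** for an absolutely irreducible residual Galois representation: the `k`-span of
the image of the Galois group is the full endomorphism algebra. -/
theorem span_range_eq_top_of_isAbsolutelyIrreducible (rb : ResidualGaloisRep k)
    (habs : rb.IsAbsolutelyIrreducible) :
    Submodule.span k (Set.range rb.ρ) = ⊤ := by
  classical
  apply span_eq_top_of_span_baseChange_eq_top (AlgebraicClosure k)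
  set V' := AlgebraicClosure k ⊗[k] rb.V
  have hfr : Module.finrank (AlgebraicClosure k) V' = 2 := by
    rw [Module.finrank_baseChange, rb.finrank_eq]
  have : Nontrivial V' := Module.nontrivial_of_finrank_pos (R := AlgebraicClosure k) (by omega)
  -- the image of the Galois group in `End (k̄ ⊗ V)` as a submonoid
  let ρ' : Γℚ →* Module.End (AlgebraicClosure k) V' := (rb.baseChange (AlgebraicClosure k)).ρ
  have hρ' : ∀ σ, ρ' σ = (rb.ρ σ).baseChange (AlgebraicClosure k) := fun σ => rfl
  have key := span_eq_top_of_irreducible (K := AlgebraicClosure k) (V := V') (MonoidHom.mrange ρ')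
    (fun W hW => habs W fun σ x hx => hW _ ⟨σ, rfl⟩ x hx)
  rw [eq_top_iff, ← key]
  apply Submodule.span_mono
  rintro _ ⟨σ, rfl⟩
  exact ⟨rb.ρ σ, ⟨σ, rfl⟩, (hρ' σ).symm⟩

/-- Every endomorphism of an absolutely irreducible residual representation is a finite
`k`-linear combination of Galois elements. -/
theorem exists_finsupp_sum_eq_of_isAbsolutelyIrreducible (rb : ResidualGaloisRep k)
    (habs : rb.IsAbsolutelyIrreducible) (f : Module.End k rb.V) :
    ∃ c : Γℚ →₀ k, (c.sum fun σ a => a • rb.ρ σ) = f := by
  have hf : f ∈ Submodule.span k (Set.range rb.ρ) := by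
    rw [span_range_eq_top_of_isAbsolutelyIrreducible rb habs]
    exact Submodule.mem_top
  exact (Finsupp.mem_span_range_iff_exists_finsupp).mp hf

/-- Same statement under the name announced on the team board. -/
theorem exists_finsupp_sum_eq (rb : ResidualGaloisRep k)
    (habs : rb.IsAbsolutelyIrreducible) (T : Module.End k rb.V) :
    ∃ c : Γℚ →₀ k, (c.sum fun g a => a • rb.ρ g) = T :=
  exists_finsupp_sum_eq_of_isAbsolutelyIrreducible rb habs T

/-- The image of an absolutely irreducible residual representation is not commutative. -/
theorem exists_not_commute_of_isAbsolutelyIrreducible (rb : ResidualGaloisRep k)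
    (habs : rb.IsAbsolutelyIrreducible) :
    ∃ g₀ g₁ : Γℚ, rb.ρ g₀ * rb.ρ g₁ ≠ rb.ρ g₁ * rb.ρ g₀ := by
  classical
  by_contra hcon
  push Not at hcon
  have hspan := span_range_eq_top_of_isAbsolutelyIrreducible rb habs
  -- then all endomorphisms commute
  have hcomm : ∀ f g : Module.End k rb.V, f * g = g * f := by
    intro f g
    have hf : f ∈ Submodule.span k (Set.range rb.ρ) := hspan ▸ Submodule.mem_top
    have hg : g ∈ Submodule.span k (Set.range rb.ρ) := hspan ▸ Submodule.mem_top
    induction hf using Submodule.span_induction with
    | mem x hx =>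
      obtain ⟨σ, rfl⟩ := hx
      induction hg using Submodule.span_induction with
      | mem y hy =>
        obtain ⟨τ, rfl⟩ := hy
        exact hcon σ τ
      | zero => simp
      | add y z _ _ hy hz => rw [mul_add, add_mul, hy, hz]
      | smul c y _ hy => rw [mul_smul_comm, smul_mul_assoc, hy]
    | zero => simp
    | add x y _ _ hx hy => rw [add_mul, mul_add, hx, hy]
    | smul c x _ hx => rw [smul_mul_assoc, mul_smul_comm, hx]
  -- but a two-dimensional space has non-commuting endomorphisms
  have hfin : Module.finrank k rb.V = 2 := rb.finrank_eq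
  let b := Module.finBasisOfFinrankEq k rb.V hfin
  let e := algEquivMatrix (R := k) (M := rb.V) b
  have h1 := hcomm (e.symm (Matrix.single 0 1 1)) (e.symm (Matrix.single 1 0 1))
  rw [← map_mul, ← map_mul] at h1
  have h2 := e.symm.injective h1
  have h3 := congrFun (congrFun h2 0) 0
  simp [Matrix.mul_apply, Matrix.single] at h3

end Residual

section Lifted

local notation "Γℚ" => (AlgebraicClosure ℚ ≃ₐ[ℚ] AlgebraicClosure ℚ)

variable {𝒪 : Type} [CommRing 𝒪] [IsLocalRing 𝒪]

/-- Lifted form of Burnside: every endomorphism of an absolutely irreducible residual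
representation over the residue field of `𝒪` is the reduction of a finite `𝒪`-linear
combination of Galois elements. -/
theorem exists_finsupp_residue_sum_eq (rb : ResidualGaloisRep (IsLocalRing.ResidueField 𝒪))
    (habs : rb.IsAbsolutelyIrreducible) (f : Module.End (IsLocalRing.ResidueField 𝒪) rb.V) :
    ∃ c : Γℚ →₀ 𝒪, (c.sum fun σ a => IsLocalRing.residue 𝒪 a • rb.ρ σ) = f := by
  classical
  obtain ⟨c, hc⟩ := exists_finsupp_sum_eq_of_isAbsolutelyIrreducible rb habs f
  -- a zero-preserving section of the residue map
  let s : IsLocalRing.ResidueField 𝒪 → 𝒪 := fun x =>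
    if x = 0 then 0 else (IsLocalRing.residue_surjective x).choose
  have hs0 : s 0 = 0 := if_pos rfl
  have hs : ∀ x, IsLocalRing.residue 𝒪 (s x) = x := by
    intro x
    by_cases hx : x = 0
    · simp [s, hx]
    · simp only [s, if_neg hx]
      exact (IsLocalRing.residue_surjective x).choose_spec
  refine ⟨c.mapRange s hs0, ?_⟩
  rw [← hc, Finsupp.sum_mapRange_index (by intro σ; simp)]
  simp only [hs]

end Lifted

end Fermat.Agent.S53
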