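import Mathlib
import Fermat.Prelude.Def_GaloisRep_DeformationRingData
import Fermat.Prelude.Def_GaloisRep_DeformationCondition

set_option autoImplicit false

open scoped TensorProduct

namespace Fermat.Agent.S53

/-- The absolute Galois group of `ℚ`. -/
abbrev GQ : Type := AlgebraicClosure ℚ ≃ₐ[ℚ] AlgebraicClosure ℚ

section Defs

variable {A : Type} [CommRing A] [IsLocalRing A]

/-- Adic continuity of a matrix valued representation. -/
def MatCont (M : GQ →* Matrix (Fin 2) (Fin 2) A) : Prop :=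
  ∀ n : ℕ, ∃ L : IntermediateField ℚ (AlgebraicClosure ℚ), FiniteDimensional ℚ L ∧
    ∀ σ : GQ, (∀ x ∈ L, σ x = x) →
      ∀ i j, (M σ - 1) i j ∈ IsLocalRing.maximalIdeal A ^ n

/-- Push a matrix valued representation forward along a ring hom. -/
noncomputable def mapMat {A B : Type} [CommRing A] [CommRing B] (φ : A →+* B)
    (M : GQ →* Matrix (Fin 2) (Fin 2) A) :
    GQ →* Matrix (Fin 2) (Fin 2) B :=
  (φ.mapMatrix (m := Fin 2)).toMonoidHom.comp M

@[simp] lemma mapMat_apply {A B : Type} [CommRing A] [CommRing B] (φ : A →+* B)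
    (M : GQ →* Matrix (Fin 2) (Fin 2) A) (σ : GQ) (i j : Fin 2) :
    mapMat φ M σ i j = φ (M σ i j) := rfl

lemma mapMat_apply' {A B : Type} [CommRing A] [CommRing B] (φ : A →+* B)
    (M : GQ →* Matrix (Fin 2) (Fin 2) A) (σ : GQ) :
    mapMat φ M σ = (M σ).map φ := rfl

omit [IsLocalRing A] in
lemma mem_smul_top_pi_iff (I : Ideal A) (v : Fin 2 → A) :
    v ∈ I • (⊤ : Submodule A (Fin 2 → A)) ↔ ∀ i, v i ∈ I := by
  constructor
  · intro hv
    refine Submodule.smul_induction_on hv ?_ ?_
    · intro a ha w _ i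
      simpa using I.mul_mem_right (w i) ha
    · intro x y hx hy i
      simpa using I.add_mem (hx i) (hy i)
  · intro hv
    have : v = ∑ i, v i • (Pi.single i (1 : A) : Fin 2 → A) := by
      ext j
      simp [Finset.sum_apply, Pi.single_apply]
    rw [this]
    exact Submodule.sum_mem _ fun i _ => Submodule.smul_mem_smul (hv i) Submodule.mem_top

/-- The `GaloisRepAdic` attached to a continuous matrix valued representation. -/
noncomputable def ofMatrix (M : GQ →* Matrix (Fin 2) (Fin 2) A) (hM : MatCont M) :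
    GaloisRepAdic A where
  V := Fin 2 → A
  finrank_eq := by simp
  ρ := (Matrix.toLinAlgEquiv' (R := A) (n := Fin 2)).toAlgHom.toRingHom.toMonoidHom.comp M
  isAdicContinuous := by
    intro n
    obtain ⟨L, hL, h⟩ := hM n
    refine ⟨L, hL, fun σ hσ v => ?_⟩
    rw [mem_smul_top_pi_iff]
    intro i
    have h1 := h σ hσ
    have : ((Matrix.toLinAlgEquiv' (R := A) (n := Fin 2)).toAlgHom.toRingHom.toMonoidHom.comp M) σ v
        - v = (M σ - 1).mulVec v := by
      simp [Matrix.sub_mulVec]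
    rw [this]
    simp only [Matrix.mulVec, dotProduct]
    exact Ideal.sum_mem _ fun j _ => Ideal.mul_mem_right _ _ (h1 i j)

@[simp] lemma ofMatrix_ρ_apply (M : GQ →* Matrix (Fin 2) (Fin 2) A) (hM : MatCont M)
    (σ : GQ) (v : Fin 2 → A) :
    (ofMatrix M hM).ρ σ v = (M σ).mulVec v := rfl

end Defs

end Fermat.Agent.S53

namespace Fermat.Agent.S53

section Dictionary

variable {A : Type} [CommRing A] [IsLocalRing A]

lemma map_maximalIdeal_pow_le {B : Type} [CommRing B] [IsLocalRing B] (φ : A →+* B)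
    (hφ : IsLocalHom φ) (n : ℕ) {a : A} (ha : a ∈ IsLocalRing.maximalIdeal A ^ n) :
    φ a ∈ IsLocalRing.maximalIdeal B ^ n := by
  have hmap : (IsLocalRing.maximalIdeal A ^ n).map φ ≤ IsLocalRing.maximalIdeal B ^ n := by
    rw [Ideal.map_pow]
    exact Ideal.pow_right_mono (Ideal.map_le_iff_le_comap.mpr fun a ha =>
      Ideal.mem_comap.mpr (haveI := hφ; map_nonunit φ a ha)) n
  exact hmap (Ideal.mem_map_of_mem φ ha)

/-- (D1) Continuity is preserved by push-forward along local homomorphisms. -/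
lemma MatCont.map {B : Type} [CommRing B] [IsLocalRing B] (φ : A →+* B)
    (hφ : IsLocalHom φ) {M : GQ →* Matrix (Fin 2) (Fin 2) A} (hM : MatCont M) :
    MatCont (mapMat φ M) := by
  intro n
  obtain ⟨L, hL, h⟩ := hM n
  refine ⟨L, hL, fun σ hσ i j => ?_⟩
  have h1 := map_maximalIdeal_pow_le φ hφ n (h σ hσ i j)
  have : (mapMat φ M σ - 1) i j = φ ((M σ - 1) i j) := by
    simp only [Matrix.sub_apply, mapMat_apply, map_sub, Matrix.one_apply]
    split_ifs <;> simp
  rw [this]; exact h1

omit [IsLocalRing A] in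
lemma piScalarRight_baseChange_toLin' {B : Type} [CommRing B] [Algebra A B]
    (N : Matrix (Fin 2) (Fin 2) A) (x : B ⊗[A] (Fin 2 → A)) :
    TensorProduct.piScalarRight A B B (Fin 2) ((Matrix.toLin' N).baseChange B x) =
      (N.map (algebraMap A B)).mulVec (TensorProduct.piScalarRight A B B (Fin 2) x) := by
  induction x using TensorProduct.induction_on with
  | zero => simp
  | tmul b v =>
    rw [LinearMap.baseChange_tmul, TensorProduct.piScalarRight_apply,
      TensorProduct.piScalarRight_apply, TensorProduct.piScalarRightHom_tmul,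
      TensorProduct.piScalarRightHom_tmul]
    ext i
    simp only [Matrix.toLin'_apply, Matrix.mulVec, dotProduct, Matrix.map_apply, Algebra.smul_def,
      map_sum, map_mul, Finset.sum_mul]
    exact Finset.sum_congr rfl fun j _ => by ring
  | add x y hx hy =>
    rw [map_add, map_add, map_add, hx, hy, Matrix.mulVec_add]

/-- (D2) Tensor base change of `ofMatrix M` is the entrywise push-forward. -/
noncomputable def ofMatrixBaseChangeEquiv {B : Type} [CommRing B] [IsLocalRing B] (φ : A →+* B)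
    (hφ : IsLocalHom φ) (M : GQ →* Matrix (Fin 2) (Fin 2) A) (hM : MatCont M) :
    GaloisRepAdic.Equiv ((ofMatrix M hM).baseChangeAlong φ hφ)
      (ofMatrix (mapMat φ M) (hM.map φ hφ)) :=
  letI : Algebra A B := φ.toAlgebra
  { toLinearEquiv := TensorProduct.piScalarRight A B B (Fin 2)
    map_apply := fun σ x => piScalarRight_baseChange_toLin' (M σ) x }

lemma ofMatrix_baseChangeAlong_isEquiv {B : Type} [CommRing B] [IsLocalRing B] (φ : A →+* B)
    (hφ : IsLocalHom φ) (M : GQ →* Matrix (Fin 2) (Fin 2) A) (hM : MatCont M) :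
    ((ofMatrix M hM).baseChangeAlong φ hφ).IsEquiv (ofMatrix (mapMat φ M) (hM.map φ hφ)) :=
  ⟨ofMatrixBaseChangeEquiv φ hφ M hM⟩

/-- The matrix valued representation attached to a `GaloisRepAdic` and a basis. -/
noncomputable def toMatrixHom (ρ : GaloisRepAdic A) (b : Module.Basis (Fin 2) A ρ.V) :
    GQ →* Matrix (Fin 2) (Fin 2) A :=
  (LinearMap.toMatrixAlgEquiv b).toAlgHom.toRingHom.toMonoidHom.comp ρ.ρ

lemma toMatrixHom_apply (ρ : GaloisRepAdic A) (b : Module.Basis (Fin 2) A ρ.V) (σ : GQ) :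
    toMatrixHom ρ b σ = LinearMap.toMatrix b b (ρ.ρ σ) := rfl

lemma toMatrixHom_apply_apply (ρ : GaloisRepAdic A) (b : Module.Basis (Fin 2) A ρ.V) (σ : GQ)
    (i j : Fin 2) : toMatrixHom ρ b σ i j = b.repr (ρ.ρ σ (b j)) i := by
  rw [toMatrixHom_apply, LinearMap.toMatrix_apply]

omit [IsLocalRing A] in
lemma repr_mem_of_mem_smul_top {V : Type} [AddCommGroup V] [Module A V]
    (b : Module.Basis (Fin 2) A V) (I : Ideal A) {x : V}
    (hx : x ∈ I • (⊤ : Submodule A V)) (i : Fin 2) : b.repr x i ∈ I := by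
  refine Submodule.smul_induction_on hx ?_ ?_
  · intro a ha w _
    simpa using I.mul_mem_right _ ha
  · intro x y hx hy
    simpa using I.add_mem hx hy

lemma matCont_toMatrixHom (ρ : GaloisRepAdic A) (b : Module.Basis (Fin 2) A ρ.V) :
    MatCont (toMatrixHom ρ b) := by
  intro n
  obtain ⟨L, hL, h⟩ := ρ.isAdicContinuous n
  refine ⟨L, hL, fun σ hσ i j => ?_⟩
  have h1 := repr_mem_of_mem_smul_top b _ (h σ hσ (b j)) i
  have : (toMatrixHom ρ b σ - 1) i j = b.repr (ρ.ρ σ (b j) - b j) i := by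
    rw [Matrix.sub_apply, toMatrixHom_apply_apply, map_sub, Finsupp.sub_apply,
      Module.Basis.repr_self, Matrix.one_apply, Finsupp.single_apply]
    congr 1
    split_ifs with h1 h2 h2
    · rfl
    · exact absurd h1.symm h2
    · exact absurd h2.symm h1
    · rfl
  rw [this]; exact h1

/-- (D3) Every `GaloisRepAdic` is equivalent to the one attached to its matrix in a basis. -/
noncomputable def equivOfMatrix (ρ : GaloisRepAdic A) (b : Module.Basis (Fin 2) A ρ.V) :
    GaloisRepAdic.Equiv ρ (ofMatrix (toMatrixHom ρ b) (matCont_toMatrixHom ρ b)) where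
  toLinearEquiv := b.equivFun
  map_apply := fun σ x => by
    show b.equivFun (ρ.ρ σ x) = (LinearMap.toMatrix b b (ρ.ρ σ)).mulVec (b.equivFun x)
    have := LinearMap.toMatrix_mulVec_repr b b (ρ.ρ σ) x
    ext i
    simpa using (congrFun this i).symm

/-- A basis of the underlying module of a `GaloisRepAdic`. -/
noncomputable def someBasis (ρ : GaloisRepAdic A) : Module.Basis (Fin 2) A ρ.V :=
  Module.finBasisOfFinrankEq A ρ.V ρ.finrank_eq

lemma exists_isEquiv_ofMatrix (ρ : GaloisRepAdic A) :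
    ∃ (M : GQ →* Matrix (Fin 2) (Fin 2) A) (hM : MatCont M), ρ.IsEquiv (ofMatrix M hM) :=
  ⟨_, _, ⟨equivOfMatrix ρ (someBasis ρ)⟩⟩

/-- (D4), easy direction: conjugate matrix representations give equivalent `GaloisRepAdic`s. -/
noncomputable def equivOfConj {M M' : GQ →* Matrix (Fin 2) (Fin 2) A} (hM : MatCont M)
    (hM' : MatCont M') (g : (Matrix (Fin 2) (Fin 2) A)ˣ)
    (h : ∀ σ, (g : Matrix (Fin 2) (Fin 2) A) * M σ = M' σ * g) :
    GaloisRepAdic.Equiv (ofMatrix M hM) (ofMatrix M' hM') where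
  toLinearEquiv := Matrix.toLin'OfInv (M := (↑g⁻¹ : Matrix (Fin 2) (Fin 2) A))
    (M' := (g : Matrix (Fin 2) (Fin 2) A)) (by simp) (by simp)
  map_apply := fun σ x => by
    have key : ∀ y : Fin 2 → A, (g : Matrix (Fin 2) (Fin 2) A).mulVec ((M σ).mulVec y) =
        (M' σ).mulVec ((g : Matrix (Fin 2) (Fin 2) A).mulVec y) := fun y => by
      rw [Matrix.mulVec_mulVec, Matrix.mulVec_mulVec, h σ]
    exact key x

/-- (D4) Two matrix representations give equivalent `GaloisRepAdic`s iff they are conjugate. -/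
lemma ofMatrix_isEquiv_iff {M M' : GQ →* Matrix (Fin 2) (Fin 2) A} (hM : MatCont M)
    (hM' : MatCont M') :
    (ofMatrix M hM).IsEquiv (ofMatrix M' hM') ↔
      ∃ g : (Matrix (Fin 2) (Fin 2) A)ˣ,
        ∀ σ, (g : Matrix (Fin 2) (Fin 2) A) * M σ = M' σ * g := by
  constructor
  · rintro ⟨e⟩
    let f : (Fin 2 → A) ≃ₗ[A] (Fin 2 → A) := e.toLinearEquiv
    have hf : ∀ σ x, f ((M σ).mulVec x) = (M' σ).mulVec (f x) := fun σ x => e.map_apply σ x
    refine ⟨⟨LinearMap.toMatrix' f.toLinearMap, LinearMap.toMatrix' f.symm.toLinearMap, ?_, ?_⟩,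
      fun σ => ?_⟩
    · rw [← LinearMap.toMatrix'_comp]; simp
    · rw [← LinearMap.toMatrix'_comp]; simp
    · show LinearMap.toMatrix' f.toLinearMap * M σ = M' σ * LinearMap.toMatrix' f.toLinearMap
      apply Matrix.toLin'.injective
      apply LinearMap.ext
      intro x
      simp only [Matrix.toLin'_mul, Matrix.toLin'_toMatrix', LinearMap.comp_apply,
        Matrix.toLin'_apply, LinearEquiv.coe_coe]
      exact hf σ x
  · rintro ⟨g, hg⟩
    exact ⟨equivOfConj hM hM' g hg⟩

end Dictionary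

end Fermat.Agent.S53
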