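import Mathlib
import Fermat.Prelude.Def_GaloisRep_DeformationCondition

/-!
# Artinian test algebras (package T1-T6 for S53)

Everything here is about local `𝒪`-algebras `A` satisfying `GaloisRep.IsArtinianTestAlgebra 𝒪 A`
(abbreviated ATA), for a local ring `𝒪` with finite residue field `k`.
-/

set_option linter.unusedSectionVars false
set_option linter.style.haveILetI false

namespace Fermat.Agent.S53

open IsLocalRing GaloisRep

/-- A module of finite length over a local ring with finite residue field is finite. -/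
theorem finite_of_isFiniteLength {A : Type*} [CommRing A] [IsLocalRing A]
    [Finite (ResidueField A)] {M : Type*} [AddCommGroup M] [Module A M]
    (h : IsFiniteLength A M) : Finite M := by
  induction h with
  | of_subsingleton => infer_instance
  | @of_simple_quotient M _ _ N _ hN ih =>
    obtain ⟨I, hI, ⟨e⟩⟩ := (isSimpleModule_iff_quot_maximal (R := A) (M := M ⧸ N)).1 inferInstance
    have hIm : I = maximalIdeal A := IsLocalRing.eq_maximalIdeal hI
    subst hIm
    have : Finite (A ⧸ maximalIdeal A) := ‹Finite (ResidueField A)›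
    have hq : Finite (M ⧸ N) := Finite.of_equiv _ e.symm.toEquiv
    have hq' : Finite (M ⧸ N.toAddSubgroup) := hq
    have hN' : Finite N.toAddSubgroup := ih
    exact Finite.of_addSubgroup_quotient N.toAddSubgroup

/-- An Artinian local ring with finite residue field is finite. -/
theorem finite_of_isArtinianRing_of_finite_residueField (A : Type*) [CommRing A] [IsLocalRing A]
    [IsArtinianRing A] [Finite (ResidueField A)] : Finite A :=
  finite_of_isFiniteLength ((isArtinianRing_iff_isFiniteLength (R := A)).1 inferInstance)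

section ATA

variable {𝒪 : Type} [CommRing 𝒪] [IsLocalRing 𝒪]
variable {A : Type} [CommRing A] [IsLocalRing A] [Algebra 𝒪 A]
variable {B : Type} [CommRing B] [IsLocalRing B] [Algebra 𝒪 B]

/-- The residue field of a local `𝒪`-algebra with surjective residue map is finite if that of
`𝒪` is. -/
theorem residueField_finite_of_surjective [Finite (ResidueField 𝒪)] [IsLocalHom (algebraMap 𝒪 A)]
    (h : Function.Surjective (IsLocalRing.residue A ∘ algebraMap 𝒪 A)) :
    Finite (ResidueField A) := by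
  have hsurj : Function.Surjective (ResidueField.map (algebraMap 𝒪 A)) := by
    intro x
    obtain ⟨o, rfl⟩ := h x
    exact ⟨IsLocalRing.residue 𝒪 o, by simp [ResidueField.map_residue]⟩
  exact Finite.of_surjective _ hsurj

theorem ATA_residueField_finite [Finite (ResidueField 𝒪)] (hA : IsArtinianTestAlgebra 𝒪 A) :
    Finite (ResidueField A) :=
  haveI := hA.isLocalHom
  residueField_finite_of_surjective hA.residue_surjective

/-- (T1) An Artinian test algebra over `𝒪` (finite residue field) is a finite ring. -/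
theorem ATA_finite [Finite (ResidueField 𝒪)] (hA : IsArtinianTestAlgebra 𝒪 A) : Finite A :=
  haveI := ATA_residueField_finite hA
  haveI := hA.isArtinian
  finite_of_isArtinianRing_of_finite_residueField A

/-- Constructor: a finite local `𝒪`-algebra with local structure map and surjective residue map
is an Artinian test algebra. -/
theorem ATA_of_finite [Finite A] (h1 : IsLocalHom (algebraMap 𝒪 A))
    (h2 : Function.Surjective (IsLocalRing.residue A ∘ algebraMap 𝒪 A)) :
    IsArtinianTestAlgebra 𝒪 A :=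
  ⟨h1, h2, inferInstance⟩

/-- In an Artinian local ring the maximal ideal is nilpotent. -/
theorem ATA_maximalIdeal_nilpotent (hA : IsArtinianTestAlgebra 𝒪 A) :
    ∃ n : ℕ, maximalIdeal A ^ n = ⊥ := by
  haveI := hA.isArtinian
  have h := IsArtinianRing.isNilpotent_jacobson_bot (R := A)
  rw [IsLocalRing.jacobson_eq_maximalIdeal ⊥ bot_ne_top] at h
  obtain ⟨n, hn⟩ := h
  exact ⟨n, by simpa using hn⟩

/-! ### (T2) the residue field and the dual numbers as test algebras -/

/-- The residue field of `𝒪` is an Artinian test algebra. -/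
theorem residueField_ATA : IsArtinianTestAlgebra 𝒪 (ResidueField 𝒪) where
  isLocalHom := by
    rw [ResidueField.algebraMap_eq]; infer_instance
  residue_surjective := by
    intro x
    obtain ⟨y, rfl⟩ := IsLocalRing.residue_surjective x
    obtain ⟨o, rfl⟩ := IsLocalRing.residue_surjective y
    exact ⟨o, rfl⟩
  isArtinian := inferInstance

/-- The `𝒪`-algebra structure on the dual numbers over the residue field used in
`GaloisRep.TangentFinite` (syntactically the same expression). -/
@[reducible] noncomputable def dualNumberAlgebra (𝒪 : Type) [CommRing 𝒪] [IsLocalRing 𝒪] :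
    Algebra 𝒪 (DualNumber (ResidueField 𝒪)) :=
  ((algebraMap (ResidueField 𝒪) (DualNumber (ResidueField 𝒪))).comp
    (algebraMap 𝒪 (ResidueField 𝒪))).toAlgebra

theorem dualNumberAlgebra_algebraMap_apply (o : 𝒪) :
    (letI := dualNumberAlgebra 𝒪; algebraMap 𝒪 (DualNumber (ResidueField 𝒪)) o) =
      TrivSqZeroExt.inl (IsLocalRing.residue 𝒪 o) := rfl

theorem dualNumber_moduleFinite (K : Type*) [Field K] : Module.Finite K (DualNumber K) :=
  inferInstanceAs (Module.Finite K (K × K))

theorem dualNumber_isArtinianRing (K : Type*) [Field K] : IsArtinianRing (DualNumber K) :=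
  haveI := dualNumber_moduleFinite K
  IsArtinianRing.of_finite K _

theorem isUnit_dualNumber_iff {K : Type*} [Field K] (x : DualNumber K) :
    IsUnit x ↔ TrivSqZeroExt.fst x ≠ 0 := by
  rw [TrivSqZeroExt.isUnit_iff_isUnit_fst, isUnit_iff_ne_zero]

/-- The dual numbers over the residue field form an Artinian test algebra. -/
theorem dualNumber_ATA :
    @IsArtinianTestAlgebra 𝒪 _ (DualNumber (ResidueField 𝒪)) _ _ (dualNumberAlgebra 𝒪) := by
  letI := dualNumberAlgebra 𝒪
  refine ⟨⟨fun o ho => ?_⟩, ?_, ?_⟩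
  · rw [dualNumberAlgebra_algebraMap_apply, isUnit_dualNumber_iff, TrivSqZeroExt.fst_inl] at ho
    exact (IsLocalRing.residue_ne_zero_iff_isUnit o).1 ho
  · intro x
    obtain ⟨y, rfl⟩ := IsLocalRing.residue_surjective x
    obtain ⟨o, ho⟩ := IsLocalRing.residue_surjective (TrivSqZeroExt.fst y)
    refine ⟨o, ?_⟩
    rw [Function.comp_apply, dualNumberAlgebra_algebraMap_apply, ← sub_eq_zero, ← map_sub,
      IsLocalRing.residue_eq_zero_iff, IsLocalRing.mem_maximalIdeal, mem_nonunits_iff,
      isUnit_dualNumber_iff]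
    simp [ho]
  · exact dualNumber_isArtinianRing _

/-! ### (T3) subalgebras of test algebras -/

/-- The inclusion of a subalgebra of a finite algebra is a local homomorphism. -/
theorem subalgebra_val_isLocalHom [Finite A] (S : Subalgebra 𝒪 A) :
    IsLocalHom (S.val : S →+* A) := by
  have hint : (S.val : S →+* A).IsIntegral := by
    intro a
    exact (IsIntegral.of_finite S a)
  exact RingHom.IsIntegral.isLocalHom hint Subtype.val_injective

/-- A subalgebra of a finite local algebra is a local ring. -/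
theorem subalgebra_isLocalRing [Finite A] (S : Subalgebra 𝒪 A) : IsLocalRing S :=
  haveI := subalgebra_val_isLocalHom S
  RingHom.domain_isLocalRing (S.val : S →+* A)

theorem subalgebra_mem_maximalIdeal_iff [Finite A] (S : Subalgebra 𝒪 A) (s : S) :
    (letI := subalgebra_isLocalRing S; s ∈ maximalIdeal S) ↔ (s : A) ∈ maximalIdeal A := by
  letI := subalgebra_isLocalRing S
  haveI := subalgebra_val_isLocalHom S
  rw [IsLocalRing.mem_maximalIdeal, IsLocalRing.mem_maximalIdeal, mem_nonunits_iff,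
    mem_nonunits_iff]
  exact not_congr (isUnit_map_iff (S.val : S →+* A) s).symm

/-- (T3) A subalgebra of an Artinian test algebra is an Artinian test algebra. -/
theorem subalgebra_ATA [Finite (ResidueField 𝒪)] (hA : IsArtinianTestAlgebra 𝒪 A)
    (S : Subalgebra 𝒪 A) :
    haveI := ATA_finite hA
    @IsArtinianTestAlgebra 𝒪 _ S _ (subalgebra_isLocalRing S) _ := by
  haveI := ATA_finite hA
  letI := subalgebra_isLocalRing S
  haveI := subalgebra_val_isLocalHom S
  haveI := hA.isLocalHom
  refine ⟨⟨fun o ho => ?_⟩, ?_, inferInstance⟩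
  · have h1 : IsUnit ((S.val : S →+* A) (algebraMap 𝒪 S o)) := ho.map _
    exact isUnit_of_map_unit (algebraMap 𝒪 A) o h1
  · intro x
    obtain ⟨s, rfl⟩ := IsLocalRing.residue_surjective x
    obtain ⟨o, ho⟩ := hA.residue_surjective (IsLocalRing.residue A (s : A))
    refine ⟨o, ?_⟩
    rw [Function.comp_apply, ← sub_eq_zero, ← map_sub, IsLocalRing.residue_eq_zero_iff,
      subalgebra_mem_maximalIdeal_iff]
    rw [Function.comp_apply, ← sub_eq_zero, ← map_sub, IsLocalRing.residue_eq_zero_iff] at ho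
    exact ho

/-! ### the canonical map to the residue field of `𝒪` -/

theorem residueFieldMap_bijective [IsLocalHom (algebraMap 𝒪 A)]
    (h : Function.Surjective (IsLocalRing.residue A ∘ algebraMap 𝒪 A)) :
    Function.Bijective (ResidueField.map (algebraMap 𝒪 A)) := by
  refine ⟨(ResidueField.map (algebraMap 𝒪 A)).injective, fun x => ?_⟩
  obtain ⟨o, rfl⟩ := h x
  exact ⟨IsLocalRing.residue 𝒪 o, by simp [ResidueField.map_residue]⟩

/-- The identification of the residue field of `𝒪` with that of a local `𝒪`-algebra with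
surjective residue map. -/
noncomputable def resEquiv [IsLocalHom (algebraMap 𝒪 A)]
    (h : Function.Surjective (IsLocalRing.residue A ∘ algebraMap 𝒪 A)) :
    ResidueField 𝒪 ≃+* ResidueField A :=
  RingEquiv.ofBijective (ResidueField.map (algebraMap 𝒪 A)) (residueFieldMap_bijective h)

/-- The canonical `𝒪`-algebra map from a local `𝒪`-algebra with surjective residue map
to the residue field of `𝒪`. -/
noncomputable def toK [IsLocalHom (algebraMap 𝒪 A)]
    (h : Function.Surjective (IsLocalRing.residue A ∘ algebraMap 𝒪 A)) :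
    A →ₐ[𝒪] ResidueField 𝒪 :=
  { ((resEquiv h).symm : ResidueField A →+* ResidueField 𝒪).comp (IsLocalRing.residue A) with
    commutes' := fun o => by
      simp only [RingHom.toMonoidHom_eq_coe, OneHom.toFun_eq_coe, MonoidHom.toOneHom_coe,
        MonoidHom.coe_coe, RingHom.coe_comp, RingHom.coe_coe, Function.comp_apply]
      rw [RingEquiv.symm_apply_eq]
      simp [resEquiv, ResidueField.map_residue, ResidueField.algebraMap_eq] }

theorem toK_apply [IsLocalHom (algebraMap 𝒪 A)]
    (h : Function.Surjective (IsLocalRing.residue A ∘ algebraMap 𝒪 A)) (a : A) :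
    toK h a = (resEquiv h).symm (IsLocalRing.residue A a) := rfl

theorem resEquiv_toK [IsLocalHom (algebraMap 𝒪 A)]
    (h : Function.Surjective (IsLocalRing.residue A ∘ algebraMap 𝒪 A)) (a : A) :
    ResidueField.map (algebraMap 𝒪 A) (toK h a) = IsLocalRing.residue A a := by
  rw [toK_apply]
  exact (resEquiv h).apply_symm_apply _

theorem toK_eq_zero_iff [IsLocalHom (algebraMap 𝒪 A)]
    (h : Function.Surjective (IsLocalRing.residue A ∘ algebraMap 𝒪 A)) (a : A) :
    toK h a = 0 ↔ a ∈ maximalIdeal A := by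
  rw [toK_apply, map_eq_zero_iff _ (resEquiv h).symm.injective, IsLocalRing.residue_eq_zero_iff]

theorem toK_surjective [IsLocalHom (algebraMap 𝒪 A)]
    (h : Function.Surjective (IsLocalRing.residue A ∘ algebraMap 𝒪 A)) :
    Function.Surjective (toK h) := fun x =>
  ⟨algebraMap 𝒪 A (Function.surjInv IsLocalRing.residue_surjective x), by
    rw [AlgHom.commutes, ResidueField.algebraMap_eq]
    exact Function.surjInv_eq IsLocalRing.residue_surjective x⟩

theorem toK_isLocalHom [IsLocalHom (algebraMap 𝒪 A)]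
    (h : Function.Surjective (IsLocalRing.residue A ∘ algebraMap 𝒪 A)) :
    IsLocalHom (toK h : A →+* ResidueField 𝒪) :=
  ⟨fun a ha => by
    by_contra hna
    have : a ∈ maximalIdeal A := (IsLocalRing.mem_maximalIdeal a).2 hna
    rw [← toK_eq_zero_iff h] at this
    rw [RingHom.coe_coe, this] at ha
    exact not_isUnit_zero ha⟩

/-- Every element of a local `𝒪`-algebra with surjective residue map is the sum of an element
of `𝒪` and an element of the maximal ideal. -/
theorem exists_algebraMap_add_mem [IsLocalHom (algebraMap 𝒪 A)]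
    (h : Function.Surjective (IsLocalRing.residue A ∘ algebraMap 𝒪 A)) (a : A) :
    ∃ o : 𝒪, a - algebraMap 𝒪 A o ∈ maximalIdeal A := by
  obtain ⟨o, ho⟩ := h (IsLocalRing.residue A a)
  refine ⟨o, ?_⟩
  rw [← IsLocalRing.residue_eq_zero_iff, map_sub, ← ho]
  simp

/-! ### (T4) fibre products over the residue field -/

/-- The map to the residue field of `𝒪` attached to an Artinian test algebra. -/
noncomputable def ATA_toK (hA : IsArtinianTestAlgebra 𝒪 A) : A →ₐ[𝒪] ResidueField 𝒪 :=
  haveI := hA.isLocalHom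
  toK hA.residue_surjective

theorem ATA_toK_eq_zero_iff (hA : IsArtinianTestAlgebra 𝒪 A) (a : A) :
    ATA_toK hA a = 0 ↔ a ∈ maximalIdeal A :=
  haveI := hA.isLocalHom
  toK_eq_zero_iff hA.residue_surjective a

theorem ATA_toK_surjective (hA : IsArtinianTestAlgebra 𝒪 A) :
    Function.Surjective (ATA_toK hA) :=
  haveI := hA.isLocalHom
  toK_surjective hA.residue_surjective

theorem ATA_toK_isLocalHom (hA : IsArtinianTestAlgebra 𝒪 A) :
    IsLocalHom (ATA_toK hA : A →+* ResidueField 𝒪) :=
  haveI := hA.isLocalHom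
  toK_isLocalHom hA.residue_surjective

/-- The fibre product `A ×_k B` of two Artinian test algebras over the residue field `k` of `𝒪`,
as a subalgebra of `A × B`. -/
noncomputable abbrev fibreProd (hA : IsArtinianTestAlgebra 𝒪 A) (hB : IsArtinianTestAlgebra 𝒪 B) :
    Subalgebra 𝒪 (A × B) :=
  AlgHom.pullback (ATA_toK hA) (ATA_toK hB)

theorem mem_fibreProd_iff (hA : IsArtinianTestAlgebra 𝒪 A) (hB : IsArtinianTestAlgebra 𝒪 B)
    (x : A × B) : x ∈ fibreProd hA hB ↔ ATA_toK hA x.1 = ATA_toK hB x.2 := Iff.rfl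

/-- First projection of the fibre product. -/
noncomputable abbrev fibreProdFst (hA : IsArtinianTestAlgebra 𝒪 A)
    (hB : IsArtinianTestAlgebra 𝒪 B) : fibreProd hA hB →ₐ[𝒪] A :=
  AlgHom.pullbackFst (ATA_toK hA) (ATA_toK hB)

/-- Second projection of the fibre product. -/
noncomputable abbrev fibreProdSnd (hA : IsArtinianTestAlgebra 𝒪 A)
    (hB : IsArtinianTestAlgebra 𝒪 B) : fibreProd hA hB →ₐ[𝒪] B :=
  AlgHom.pullbackSnd (ATA_toK hA) (ATA_toK hB)

theorem ATA_toK_isLocalHom' (hA : IsArtinianTestAlgebra 𝒪 A) :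
    IsLocalHom (ATA_toK hA) :=
  ⟨fun a ha => (ATA_toK_isLocalHom hA).map_nonunit a ha⟩

theorem fibreProd_isLocalRing (hA : IsArtinianTestAlgebra 𝒪 A) (hB : IsArtinianTestAlgebra 𝒪 B) :
    IsLocalRing (fibreProd hA hB) :=
  haveI := ATA_toK_isLocalHom' hB
  AlgHom.isLocalRing_pullback (ATA_toK hA) (ATA_toK hB)

theorem fibreProdFst_isLocalHom (hA : IsArtinianTestAlgebra 𝒪 A)
    (hB : IsArtinianTestAlgebra 𝒪 B) :
    IsLocalHom (fibreProdFst hA hB : fibreProd hA hB →+* A) :=
  haveI := ATA_toK_isLocalHom hB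
  RingHom.isLocalHom_pullbackFst (ATA_toK hA : A →+* ResidueField 𝒪)
    (ATA_toK hB : B →+* ResidueField 𝒪)

theorem fibreProdSnd_isLocalHom (hA : IsArtinianTestAlgebra 𝒪 A)
    (hB : IsArtinianTestAlgebra 𝒪 B) :
    IsLocalHom (fibreProdSnd hA hB : fibreProd hA hB →+* B) :=
  haveI := ATA_toK_isLocalHom hA
  RingHom.isLocalHom_pullbackSnd (ATA_toK hA : A →+* ResidueField 𝒪)
    (ATA_toK hB : B →+* ResidueField 𝒪)

theorem fibreProd_comm_sq (hA : IsArtinianTestAlgebra 𝒪 A) (hB : IsArtinianTestAlgebra 𝒪 B) :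
    (ATA_toK hA).comp (fibreProdFst hA hB) = (ATA_toK hB).comp (fibreProdSnd hA hB) :=
  AlgHom.pullback_comm_sq _ _

theorem fibreProd_injective (hA : IsArtinianTestAlgebra 𝒪 A) (hB : IsArtinianTestAlgebra 𝒪 B) :
    Function.Injective (fun x : fibreProd hA hB => (fibreProdFst hA hB x, fibreProdSnd hA hB x)) :=
  fun x y h => Subtype.ext (by simpa using h)

theorem fibreProd_exists (hA : IsArtinianTestAlgebra 𝒪 A) (hB : IsArtinianTestAlgebra 𝒪 B)
    (a : A) (b : B) (h : ATA_toK hA a = ATA_toK hB b) :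
    ∃ x : fibreProd hA hB, fibreProdFst hA hB x = a ∧ fibreProdSnd hA hB x = b :=
  ⟨⟨(a, b), h⟩, rfl, rfl⟩

/-- (T4) The fibre product of two Artinian test algebras is an Artinian test algebra. -/
theorem fibreProd_ATA [Finite (ResidueField 𝒪)] (hA : IsArtinianTestAlgebra 𝒪 A)
    (hB : IsArtinianTestAlgebra 𝒪 B) :
    @IsArtinianTestAlgebra 𝒪 _ (fibreProd hA hB) _ (fibreProd_isLocalRing hA hB) _ := by
  letI := fibreProd_isLocalRing hA hB
  haveI := fibreProdFst_isLocalHom hA hB
  haveI := hA.isLocalHom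
  haveI : Finite A := ATA_finite hA
  haveI : Finite B := ATA_finite hB
  haveI : Finite (fibreProd hA hB) := Finite.of_injective _ Subtype.val_injective
  refine ⟨⟨fun o ho => ?_⟩, ?_, inferInstance⟩
  · have h1 : IsUnit ((fibreProdFst hA hB : fibreProd hA hB →+* A)
        (algebraMap 𝒪 (fibreProd hA hB) o)) := ho.map _
    exact isUnit_of_map_unit (algebraMap 𝒪 A) o h1
  · intro x
    obtain ⟨s, rfl⟩ := IsLocalRing.residue_surjective x
    obtain ⟨o, ho⟩ := hA.residue_surjective (IsLocalRing.residue A (fibreProdFst hA hB s))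
    refine ⟨o, ?_⟩
    rw [Function.comp_apply, ← sub_eq_zero, ← map_sub, IsLocalRing.residue_eq_zero_iff]
    rw [Function.comp_apply, ← sub_eq_zero, ← map_sub, IsLocalRing.residue_eq_zero_iff] at ho
    rw [IsLocalRing.mem_maximalIdeal, mem_nonunits_iff] at ho ⊢
    intro hu
    apply ho
    have := hu.map (fibreProdFst hA hB : fibreProd hA hB →+* A)
    simpa using this

/-! ### (T5) the derivation lemma -/

/-- Nakayama-type statement: if a subalgebra `S` of a finite local `𝒪`-algebra `A` with residue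
field that of `𝒪` has `𝔪_A ≤ 𝔪_S A + 𝔪_A²`, then `S = A`. -/
theorem subalgebra_eq_top_of_maximalIdeal_le [Finite A] [IsLocalHom (algebraMap 𝒪 A)]
    (hres : Function.Surjective (IsLocalRing.residue A ∘ algebraMap 𝒪 A))
    (S : Subalgebra 𝒪 A)
    (hle : maximalIdeal A ≤
      Ideal.span (Subtype.val '' {s : S | (s : A) ∈ maximalIdeal A}) ⊔ maximalIdeal A ^ 2) :
    S = ⊤ := by
  letI := subalgebra_isLocalRing S
  set J : Ideal A := Ideal.span (Subtype.val '' {s : S | (s : A) ∈ maximalIdeal A}) with hJ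
  have hJle : maximalIdeal A ≤ J := by
    refine Submodule.le_of_le_smul_of_le_jacobson_bot (I := maximalIdeal A) (N := J)
      (N' := maximalIdeal A) (IsNoetherian.noetherian _) ?_ ?_
    · rw [IsLocalRing.jacobson_eq_maximalIdeal ⊥ bot_ne_top]
    · rw [smul_eq_mul, ← pow_two]; exact hle
  -- every element of `J` lies in `𝔪_S • ⊤`
  have hJsub : ∀ x ∈ J, x ∈ (maximalIdeal S) • (⊤ : Submodule S A) := by
    intro x hx
    refine Submodule.span_induction (p := fun x _ => x ∈ (maximalIdeal S) • (⊤ : Submodule S A))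
      ?_ ?_ ?_ ?_ hx
    · rintro _ ⟨s, hs, rfl⟩
      have hs' : s ∈ maximalIdeal S := (subalgebra_mem_maximalIdeal_iff S s).2 hs
      have : (s : A) = s • (1 : A) := by rw [Subalgebra.smul_def, smul_eq_mul, mul_one]
      rw [this]
      exact Submodule.smul_mem_smul hs' Submodule.mem_top
    · exact Submodule.zero_mem _
    · intro x y _ _ hx hy
      exact Submodule.add_mem _ hx hy
    · intro a x _ hx
      refine Submodule.smul_induction_on (p := fun x => a • x ∈
        (maximalIdeal S) • (⊤ : Submodule S A)) hx ?_ ?_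
      · intro s hs y _
        have : a • s • y = s • (a * y) := by
          rw [smul_eq_mul, Subalgebra.smul_def, Subalgebra.smul_def, smul_eq_mul, smul_eq_mul]; ring
        rw [this]
        exact Submodule.smul_mem_smul hs Submodule.mem_top
      · intro x y hx hy
        rw [smul_add]
        exact Submodule.add_mem _ hx hy
  have htop : (⊤ : Submodule S A) ≤ (1 : Submodule S A) := by
    refine Submodule.le_of_le_smul_of_le_jacobson_bot (I := maximalIdeal S)
      (N := (1 : Submodule S A)) (N' := ⊤) ?_ ?_ ?_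
    · exact Module.Finite.fg_top
    · rw [IsLocalRing.jacobson_eq_maximalIdeal ⊥ bot_ne_top]
    · intro a _
      obtain ⟨o, ho⟩ := exists_algebraMap_add_mem hres a
      have h1 : algebraMap 𝒪 A o ∈ (1 : Submodule S A) := by
        rw [Submodule.one_eq_range]
        exact ⟨algebraMap 𝒪 S o, rfl⟩
      have h2 : a - algebraMap 𝒪 A o ∈ (maximalIdeal S) • (⊤ : Submodule S A) :=
        hJsub _ (hJle ho)
      have : a = algebraMap 𝒪 A o + (a - algebraMap 𝒪 A o) := by ring
      rw [this]
      exact Submodule.add_mem_sup h1 h2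
  rw [eq_top_iff]
  intro a _
  have := htop (Submodule.mem_top (x := a))
  rw [Submodule.one_eq_range] at this
  obtain ⟨s, rfl⟩ := this
  exact s.2

/-- The reduction map `𝒪[ε] → k[ε]`. -/
noncomputable def dualNumberRed (𝒪 : Type) [CommRing 𝒪] [IsLocalRing 𝒪] :
    letI := dualNumberAlgebra 𝒪
    DualNumber 𝒪 →ₐ[𝒪] DualNumber (ResidueField 𝒪) :=
  letI := dualNumberAlgebra 𝒪
  DualNumber.lift ⟨(Algebra.ofId 𝒪 _, DualNumber.eps), by
    refine ⟨?_, fun a => mul_comm _ _⟩
    simp⟩

theorem dualNumberRed_apply (x : DualNumber 𝒪) :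
    dualNumberRed 𝒪 x =
      TrivSqZeroExt.inl (IsLocalRing.residue 𝒪 (TrivSqZeroExt.fst x)) +
        TrivSqZeroExt.inr (IsLocalRing.residue 𝒪 (TrivSqZeroExt.snd x)) := by
  letI := dualNumberAlgebra 𝒪
  rw [dualNumberRed, DualNumber.lift_apply_apply]
  simp only [Algebra.ofId_apply]
  rw [dualNumberAlgebra_algebraMap_apply, dualNumberAlgebra_algebraMap_apply]
  congr 1
  ext <;> simp

theorem dualNumberRed_surjective : Function.Surjective (dualNumberRed 𝒪) := by
  intro y
  obtain ⟨a, ha⟩ := IsLocalRing.residue_surjective (TrivSqZeroExt.fst y)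
  obtain ⟨b, hb⟩ := IsLocalRing.residue_surjective (TrivSqZeroExt.snd y)
  refine ⟨TrivSqZeroExt.inl a + TrivSqZeroExt.inr b, ?_⟩
  rw [dualNumberRed_apply]
  ext <;> simp [ha, hb]

/-- (T5) **Derivation lemma.** If `S` is a proper subalgebra of an Artinian test algebra `A`, there
is a surjective `𝒪`-algebra map `A → k[ε]` which maps `S` into `k`. -/
theorem exists_algHom_dualNumber_of_ne_top [Finite (ResidueField 𝒪)]
    (hA : IsArtinianTestAlgebra 𝒪 A) (S : Subalgebra 𝒪 A) (hS : S ≠ ⊤) :
    letI := dualNumberAlgebra 𝒪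
    ∃ π : A →ₐ[𝒪] DualNumber (ResidueField 𝒪), Function.Surjective π ∧
      IsLocalHom (π : A →+* DualNumber (ResidueField 𝒪)) ∧
      ∀ s ∈ S, TrivSqZeroExt.snd (π s) = 0 := by
  letI := dualNumberAlgebra 𝒪
  haveI := ATA_finite hA
  haveI := hA.isLocalHom
  have hres := hA.residue_surjective
  set J : Ideal A := Ideal.span (Subtype.val '' {s : S | (s : A) ∈ maximalIdeal A}) with hJ
  have hJm : J ≤ maximalIdeal A := by
    rw [hJ, Ideal.span_le]
    rintro _ ⟨s, hs, rfl⟩
    exact hs
  have hK₀ : J ⊔ maximalIdeal A ^ 2 ≤ maximalIdeal A :=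
    sup_le hJm (Ideal.pow_le_self two_ne_zero)
  have hlt : J ⊔ maximalIdeal A ^ 2 < maximalIdeal A := by
    refine lt_of_le_of_ne hK₀ fun heq => hS ?_
    exact subalgebra_eq_top_of_maximalIdeal_le hres S heq.ge
  -- choose `K` maximal with `J ⊔ 𝔪² ≤ K < 𝔪`
  obtain ⟨K, ⟨hK₁, hK₂⟩, hKmax⟩ := wellFounded_gt.has_min
    {K : Ideal A | J ⊔ maximalIdeal A ^ 2 ≤ K ∧ K < maximalIdeal A} ⟨_, le_refl _, hlt⟩
  obtain ⟨t, htm, htK⟩ := SetLike.exists_of_lt hK₂
  have hKt : K ⊔ Ideal.span {t} = maximalIdeal A := by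
    have h1 : K ⊔ Ideal.span {t} ≤ maximalIdeal A :=
      sup_le hK₂.le ((Ideal.span_singleton_le_iff_mem _).2 htm)
    by_contra hne
    have h2 : K < K ⊔ Ideal.span {t} := by
      refine lt_of_le_of_ne le_sup_left fun h => htK ?_
      rw [h]
      exact Ideal.mem_sup_right (Ideal.mem_span_singleton_self t)
    exact hKmax (K ⊔ Ideal.span {t}) ⟨le_trans hK₁ le_sup_left, lt_of_le_of_ne h1 hne⟩ h2
  have hJK : J ≤ K := le_trans le_sup_left hK₁
  have hmK : ∀ x ∈ maximalIdeal A, ∀ y ∈ maximalIdeal A, x * y ∈ K := by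
    intro x hx y hy
    apply hK₁
    apply Ideal.mem_sup_right
    rw [pow_two]
    exact Ideal.mul_mem_mul hx hy
  have hOK : ∀ o : 𝒪, o ∈ maximalIdeal 𝒪 → algebraMap 𝒪 A o ∈ K := by
    intro o ho
    apply hJK
    apply Ideal.subset_span
    refine ⟨algebraMap 𝒪 S o, ?_, rfl⟩
    show algebraMap 𝒪 A o ∈ maximalIdeal A
    rw [IsLocalRing.mem_maximalIdeal, mem_nonunits_iff] at ho ⊢
    exact fun h => ho (isUnit_of_map_unit (algebraMap 𝒪 A) o h)
  -- the map `𝒪[ε] → A ⧸ K`
  let tbar : A ⧸ K := Ideal.Quotient.mk K t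
  have htbar : tbar * tbar = 0 := by
    rw [← map_mul, Ideal.Quotient.eq_zero_iff_mem]
    exact hmK t htm t htm
  let φ : DualNumber 𝒪 →ₐ[𝒪] A ⧸ K :=
    DualNumber.lift ⟨(Algebra.ofId 𝒪 _, tbar), htbar, fun a => mul_comm _ _⟩
  have hφ_apply : ∀ x : DualNumber 𝒪, φ x =
      Ideal.Quotient.mk K (algebraMap 𝒪 A (TrivSqZeroExt.fst x) +
        algebraMap 𝒪 A (TrivSqZeroExt.snd x) * t) := by
    intro x
    rw [DualNumber.lift_apply_apply]
    simp only [Algebra.ofId_apply, map_add, map_mul]
    rfl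
  have hφsurj : Function.Surjective φ := by
    intro q
    obtain ⟨a, rfl⟩ := Ideal.Quotient.mk_surjective q
    obtain ⟨o₁, ho₁⟩ := exists_algebraMap_add_mem hres a
    rw [← hKt] at ho₁
    obtain ⟨κ, hκ, y, hy, hxy⟩ := Submodule.mem_sup.1 ho₁
    obtain ⟨c, rfl⟩ := Ideal.mem_span_singleton'.1 hy
    obtain ⟨o₂, ho₂⟩ := exists_algebraMap_add_mem hres c
    refine ⟨TrivSqZeroExt.inl o₁ + TrivSqZeroExt.inr o₂, ?_⟩
    rw [hφ_apply]
    simp only [TrivSqZeroExt.fst_add, TrivSqZeroExt.fst_inl, TrivSqZeroExt.fst_inr, add_zero,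
      TrivSqZeroExt.snd_add, TrivSqZeroExt.snd_inl, TrivSqZeroExt.snd_inr, zero_add]
    rw [Ideal.Quotient.eq]
    have : algebraMap 𝒪 A o₁ + algebraMap 𝒪 A o₂ * t - a =
        -(κ + (c - algebraMap 𝒪 A o₂) * t) := by
      have : a = algebraMap 𝒪 A o₁ + (κ + c * t) := by rw [hxy]; ring
      rw [this]; ring
    rw [this]
    exact K.neg_mem (K.add_mem hκ (hmK _ ho₂ _ htm))
  have hker : RingHom.ker φ.toRingHom ≤ RingHom.ker (dualNumberRed 𝒪).toRingHom := by
    intro x hx
    rw [RingHom.mem_ker] at hx ⊢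
    have hx' : algebraMap 𝒪 A (TrivSqZeroExt.fst x) +
        algebraMap 𝒪 A (TrivSqZeroExt.snd x) * t ∈ K := by
      rw [← Ideal.Quotient.eq_zero_iff_mem, ← hφ_apply]
      exact hx
    have h1 : TrivSqZeroExt.fst x ∈ maximalIdeal 𝒪 := by
      rw [IsLocalRing.mem_maximalIdeal, mem_nonunits_iff]
      intro hu
      have hu' : IsUnit (algebraMap 𝒪 A (TrivSqZeroExt.fst x)) := hu.map _
      have hm : algebraMap 𝒪 A (TrivSqZeroExt.fst x) ∈ maximalIdeal A := by
        have h3 : algebraMap 𝒪 A (TrivSqZeroExt.fst x) +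
            algebraMap 𝒪 A (TrivSqZeroExt.snd x) * t ∈ maximalIdeal A := hK₂.le hx'
        have h4 : algebraMap 𝒪 A (TrivSqZeroExt.snd x) * t ∈ maximalIdeal A :=
          Ideal.mul_mem_left _ _ htm
        simpa using (maximalIdeal A).sub_mem h3 h4
      exact (IsLocalRing.mem_maximalIdeal _).1 hm hu'
    have h2 : TrivSqZeroExt.snd x ∈ maximalIdeal 𝒪 := by
      rw [IsLocalRing.mem_maximalIdeal, mem_nonunits_iff]
      intro hu
      have hu' : IsUnit (algebraMap 𝒪 A (TrivSqZeroExt.snd x)) := hu.map _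
      have h3 : algebraMap 𝒪 A (TrivSqZeroExt.snd x) * t ∈ K := by
        simpa using K.sub_mem hx' (hOK _ h1)
      exact htK ((Ideal.unit_mul_mem_iff_mem K hu').1 h3)
    show dualNumberRed 𝒪 x = 0
    rw [dualNumberRed_apply, (IsLocalRing.residue_eq_zero_iff _).2 h1,
      (IsLocalRing.residue_eq_zero_iff _).2 h2]
    simp
  let π' : A ⧸ K →ₐ[𝒪] DualNumber (ResidueField 𝒪) :=
    AlgHom.liftOfSurjective φ hφsurj (dualNumberRed 𝒪) hker
  have hπ'surj : Function.Surjective π' :=
    AlgHom.liftOfSurjective_surjective φ hφsurj (dualNumberRed 𝒪) hker dualNumberRed_surjective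
  refine ⟨π'.comp (Ideal.Quotient.mkₐ 𝒪 K), ?_, ?_, ?_⟩
  · exact hπ'surj.comp (Ideal.Quotient.mkₐ_surjective 𝒪 K)
  · exact IsLocalHom.of_surjective _ (hπ'surj.comp (Ideal.Quotient.mkₐ_surjective 𝒪 K))
  · intro s hs
    obtain ⟨o, ho⟩ := exists_algebraMap_add_mem hres s
    have hsK : s - algebraMap 𝒪 A o ∈ K := by
      apply hJK
      apply Ideal.subset_span
      exact ⟨⟨s, hs⟩ - algebraMap 𝒪 S o, ho, rfl⟩
    have h1 : Ideal.Quotient.mkₐ 𝒪 K s = φ (TrivSqZeroExt.inl o) := by
      rw [hφ_apply]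
      simp only [TrivSqZeroExt.fst_inl, TrivSqZeroExt.snd_inl, map_zero, zero_mul, add_zero]
      rw [Ideal.Quotient.mkₐ_eq_mk, Ideal.Quotient.eq]
      exact hsK
    rw [AlgHom.comp_apply, h1, AlgHom.liftOfSurjective_apply, dualNumberRed_apply]
    simp


/-! ### (T6) quotients of complete noetherian local algebras -/

theorem quotient_isLocalRing (I : Ideal A) (hI : I ≠ ⊤) : IsLocalRing (A ⧸ I) :=
  haveI : Nontrivial (A ⧸ I) := Ideal.Quotient.nontrivial_iff.mpr hI
  IsLocalRing.of_surjective' (Ideal.Quotient.mk I) Ideal.Quotient.mk_surjective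

theorem quotient_mk_isLocalHom (I : Ideal A) (hI : I ≠ ⊤) :
    IsLocalHom (Ideal.Quotient.mkₐ 𝒪 I : A →+* A ⧸ I) :=
  haveI : Nontrivial (A ⧸ I) := Ideal.Quotient.nontrivial_iff.mpr hI
  IsLocalHom.of_surjective _ (Ideal.Quotient.mkₐ_surjective 𝒪 I)

/-- (T6) A quotient of a noetherian local `𝒪`-algebra (local structure map, surjective residue
map) by a proper ideal containing a power of the maximal ideal is an Artinian test algebra. -/
theorem quotient_ATA [Finite (ResidueField 𝒪)] [IsNoetherianRing A]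
    [IsLocalHom (algebraMap 𝒪 A)]
    (hres : Function.Surjective (IsLocalRing.residue A ∘ algebraMap 𝒪 A))
    (I : Ideal A) (hI : I ≠ ⊤) (hn : ∃ n, maximalIdeal A ^ n ≤ I) :
    @IsArtinianTestAlgebra 𝒪 _ (A ⧸ I) _ (quotient_isLocalRing I hI) _ := by
  letI := quotient_isLocalRing I hI
  haveI := quotient_mk_isLocalHom (𝒪 := 𝒪) I hI
  haveI : Finite (ResidueField A) := residueField_finite_of_surjective hres
  haveI : Finite (A ⧸ I) := IsLocalRing.finite_quotient_iff.2 hn
  refine ⟨⟨fun o ho => ?_⟩, ?_, inferInstance⟩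
  · have h1 : IsUnit (algebraMap 𝒪 A o) := by
      apply isUnit_of_map_unit (Ideal.Quotient.mkₐ 𝒪 I : A →+* A ⧸ I)
      exact ho
    exact isUnit_of_map_unit (algebraMap 𝒪 A) o h1
  · intro x
    obtain ⟨y, rfl⟩ := IsLocalRing.residue_surjective x
    obtain ⟨a, rfl⟩ := Ideal.Quotient.mk_surjective y
    obtain ⟨o, ho⟩ := exists_algebraMap_add_mem hres a
    refine ⟨o, ?_⟩
    rw [Function.comp_apply, ← sub_eq_zero, ← map_sub, IsLocalRing.residue_eq_zero_iff,
      IsLocalRing.mem_maximalIdeal, mem_nonunits_iff]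
    intro hu
    have h2 : IsUnit (algebraMap 𝒪 A o - a) := by
      apply isUnit_of_map_unit (Ideal.Quotient.mkₐ 𝒪 I : A →+* A ⧸ I)
      simpa using hu
    have h3 : IsUnit (a - algebraMap 𝒪 A o) := by
      have : a - algebraMap 𝒪 A o = -(algebraMap 𝒪 A o - a) := by ring
      rw [this]; exact h2.neg
    exact (IsLocalRing.mem_maximalIdeal _).1 ho h3

theorem maximalIdeal_pow_succ_ne_top (A : Type*) [CommRing A] [IsLocalRing A] (n : ℕ) :
    maximalIdeal A ^ (n + 1) ≠ ⊤ :=
  ((Ideal.pow_le_self (Nat.succ_ne_zero n)).trans_lt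
    (lt_top_iff_ne_top.2 (maximalIdeal.isMaximal A).ne_top)).ne

theorem quotient_pow_ATA [Finite (ResidueField 𝒪)] [IsNoetherianRing A]
    [IsLocalHom (algebraMap 𝒪 A)]
    (hres : Function.Surjective (IsLocalRing.residue A ∘ algebraMap 𝒪 A)) (n : ℕ) :
    @IsArtinianTestAlgebra 𝒪 _ (A ⧸ maximalIdeal A ^ (n + 1)) _
      (quotient_isLocalRing _ (maximalIdeal_pow_succ_ne_top A n)) _ :=
  quotient_ATA hres _ (maximalIdeal_pow_succ_ne_top A n) ⟨n + 1, le_refl _⟩

end ATA

end Fermat.Agent.S53
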