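import Mathlib
import Fermat.Prelude.Def_GaloisRep_DeformationRingData
import Fermat.Prelude.Def_GaloisRep_DeformationCondition
import Fermat.Agent.S53.MatrixModel
import Fermat.Agent.S53.TestAlg

/-!
# S53: core definitions of the blueprint

* `Frame 𝒪 ρbar`: rigidification data (companion normal form).
* `IsStrict F M`, `IsRigid F M`: strict / rigid matrix lifts of `ρbar`.
* `RigidLift F 𝒟 A`: rigid strict lifts of type `𝒟` over a local `𝒪`-algebra `A`.
* `dualNumberAlgebra 𝒪` (the `𝒪`-algebra structure on the dual numbers) is in `TestAlg.lean`.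
* `Separates F 𝒟 c`: the finitely many matrix coordinates `c` separate rigid lifts over the
  dual numbers.
-/

set_option autoImplicit false
set_option linter.unusedSectionVars false

noncomputable section

namespace Fermat.Agent.S53

open IsLocalRing

/-- `2 × 2` matrices. -/
abbrev M2 (A : Type) : Type := Matrix (Fin 2) (Fin 2) A

/-- A matrix coordinate: a group element and a matrix position. -/
abbrev Coord : Type := GQ × Fin 2 × Fin 2

section Frame

variable (𝒪 : Type) [CommRing 𝒪] [IsLocalRing 𝒪]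

/-- A *frame* for `ρbar`: a basis, set-theoretic lifts `lift σ` to `𝒪` of the matrices of
`ρbar` in that basis, and two group elements `g₁, g₂` used for rigidification:
`lift g₁` has first column `(0, 1)` and the commutator `[lift g₁, lift g₂]` has a unit
`(i₀, j₀)` entry. -/
structure Frame (ρbar : ResidualGaloisRep (ResidueField 𝒪)) where
  b : Module.Basis (Fin 2) (ResidueField 𝒪) ρbar.V
  lift : GQ → M2 𝒪
  residue_lift : ∀ σ i j, residue 𝒪 (lift σ i j) = LinearMap.toMatrix b b (ρbar.ρ σ) i j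
  g₁ : GQ
  g₂ : GQ
  i₀ : Fin 2
  j₀ : Fin 2
  lift_g₁_00 : lift g₁ 0 0 = 0
  lift_g₁_10 : lift g₁ 1 0 = 1
  comm_unit : IsUnit ((lift g₁ * lift g₂ - lift g₂ * lift g₁) i₀ j₀)

variable {𝒪} {ρbar : ResidualGaloisRep (ResidueField 𝒪)}

/-- The value in `𝒪` of the chosen lift at a coordinate. -/
def Frame.liftAt (F : Frame 𝒪 ρbar) (c : Coord) : 𝒪 := F.lift c.1 c.2.1 c.2.2

section Lifts

variable {A : Type} [CommRing A] [IsLocalRing A] [Algebra 𝒪 A]

/-- The entry of a matrix representation at a coordinate. -/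
def entryAt (M : GQ →* M2 A) (c : Coord) : A := M c.1 c.2.1 c.2.2

/-- `M` is a strict lift: entrywise congruent to the chosen lift of `ρbar` modulo the
maximal ideal. -/
def IsStrict (F : Frame 𝒪 ρbar) (M : GQ →* M2 A) : Prop :=
  ∀ σ i j, M σ i j - algebraMap 𝒪 A (F.lift σ i j) ∈ maximalIdeal A

/-- `M` is in rigid normal form with respect to the frame. -/
structure IsRigid (F : Frame 𝒪 ρbar) (M : GQ →* M2 A) : Prop where
  n00 : M F.g₁ 0 0 = 0
  n10 : M F.g₁ 1 0 = 1
  n2 : M F.g₂ F.i₀ F.j₀ = algebraMap 𝒪 A (F.lift F.g₂ F.i₀ F.j₀)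

variable (A) in
/-- A rigid strict lift of `ρbar` of type `𝒟` to the local `𝒪`-algebra `A`. -/
structure RigidLift (F : Frame 𝒪 ρbar)
    (𝒟 : ∀ ⦃A : Type⦄ [CommRing A] [IsLocalRing A] [Algebra 𝒪 A], GaloisRepAdic A → Prop) where
  M : GQ →* M2 A
  cont : MatCont M
  strict : IsStrict F M
  rigid : IsRigid F M
  isType : 𝒟 (ofMatrix M cont)

variable {F : Frame 𝒪 ρbar}
  {𝒟 : ∀ ⦃A : Type⦄ [CommRing A] [IsLocalRing A] [Algebra 𝒪 A], GaloisRepAdic A → Prop}

theorem RigidLift.ext' {r r' : RigidLift A F 𝒟} (h : r.M = r'.M) : r = r' := by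
  cases r; cases r'; cases h; rfl

/-- The `GaloisRepAdic` of a rigid lift. -/
noncomputable def RigidLift.rep (r : RigidLift A F 𝒟) : GaloisRepAdic A := ofMatrix r.M r.cont

/-- The normalised coordinate `M(c) - lift(c)` of a rigid lift; it lies in the maximal ideal. -/
def RigidLift.coord (r : RigidLift A F 𝒟) (c : Coord) : A :=
  entryAt r.M c - algebraMap 𝒪 A (F.liftAt c)

theorem RigidLift.coord_mem (r : RigidLift A F 𝒟) (c : Coord) :
    r.coord c ∈ maximalIdeal A :=
  r.strict c.1 c.2.1 c.2.2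

theorem IsStrict.map {B : Type} [CommRing B] [IsLocalRing B] [Algebra 𝒪 B] {M : GQ →* M2 A}
    (hM : IsStrict F M) (φ : A →ₐ[𝒪] B) (hφ : IsLocalHom (φ : A →+* B)) :
    IsStrict F (mapMat (φ : A →+* B) M) := by
  intro σ i j
  have h := hM σ i j
  have h1 : mapMat (φ : A →+* B) M σ i j - algebraMap 𝒪 B (F.lift σ i j) =
      φ (M σ i j - algebraMap 𝒪 A (F.lift σ i j)) := by
    rw [map_sub, AlgHom.commutes]
    rfl
  rw [h1]
  have := hφ
  exact map_nonunit (φ : A →+* B) _ h

theorem IsRigid.map {B : Type} [CommRing B] [IsLocalRing B] [Algebra 𝒪 B] {M : GQ →* M2 A}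
    (hM : IsRigid F M) (φ : A →ₐ[𝒪] B) : IsRigid F (mapMat (φ : A →+* B) M) where
  n00 := by rw [mapMat_apply, hM.n00, map_zero]
  n10 := by rw [mapMat_apply, hM.n10, map_one]
  n2 := by
    rw [mapMat_apply, hM.n2]
    exact AlgHom.commutes φ _

/-- Rigidity descends along injective algebra homomorphisms. -/
theorem IsRigid.of_map_injective {B : Type} [CommRing B] [IsLocalRing B] [Algebra 𝒪 B]
    {M : GQ →* M2 A} (φ : A →ₐ[𝒪] B) (hinj : Function.Injective φ)
    (hM : IsRigid F (mapMat (φ : A →+* B) M)) : IsRigid F M where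
  n00 := hinj (by have := hM.n00; rw [mapMat_apply] at this; rw [map_zero]; exact this)
  n10 := hinj (by have := hM.n10; rw [mapMat_apply] at this; rw [map_one]; exact this)
  n2 := hinj (by
    have := hM.n2
    rw [mapMat_apply] at this
    rw [AlgHom.commutes]
    exact this)

end Lifts

end Frame

section Separates

variable {𝒪 : Type} [CommRing 𝒪] [IsLocalRing 𝒪] {ρbar : ResidualGaloisRep (ResidueField 𝒪)}

/-- The coordinates `c` separate rigid lifts of type `𝒟` over the dual numbers. -/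
def Separates (F : Frame 𝒪 ρbar)
    (𝒟 : ∀ ⦃A : Type⦄ [CommRing A] [IsLocalRing A] [Algebra 𝒪 A], GaloisRepAdic A → Prop)
    {d : ℕ} (c : Fin d → Coord) : Prop :=
  letI := dualNumberAlgebra 𝒪
  ∀ r r' : RigidLift (DualNumber (ResidueField 𝒪)) F 𝒟,
    (∀ l, entryAt r.M (c l) = entryAt r'.M (c l)) → r.M = r'.M

end Separates

end Fermat.Agent.S53

end
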