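import Mathlib
import Fermat.Agent.S53.MatrixModel

set_option autoImplicit false

open scoped TensorProduct

namespace Fermat.Agent.S53

section ResidualDictionary

variable {k : Type} [Field k]

/-- The matrix valued representation attached to a `ResidualGaloisRep` and a basis. -/
noncomputable def resMatrixHom (ρbar : ResidualGaloisRep k)
    (bbar : Module.Basis (Fin 2) k ρbar.V) : GQ →* Matrix (Fin 2) (Fin 2) k :=
  (LinearMap.toMatrixAlgEquiv bbar).toAlgHom.toRingHom.toMonoidHom.comp ρbar.ρ

lemma resMatrixHom_apply (ρbar : ResidualGaloisRep k) (bbar : Module.Basis (Fin 2) k ρbar.V)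
    (σ : GQ) : resMatrixHom ρbar bbar σ = LinearMap.toMatrix bbar bbar (ρbar.ρ σ) := rfl

/-- A basis of the underlying space of a `ResidualGaloisRep`. -/
noncomputable def someResBasis (ρbar : ResidualGaloisRep k) : Module.Basis (Fin 2) k ρbar.V :=
  Module.finBasisOfFinrankEq k ρbar.V ρbar.finrank_eq

variable {A : Type} [CommRing A] [IsLocalRing A]

/-- Lifting a basis of `k ⊗ V` to a basis of the free module `V` over a local ring. -/
lemma exists_basis_tmul_eq {V : Type} [AddCommGroup V] [Module A V] [Module.Free A V]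
    [Module.Finite A V]
    (bk : Module.Basis (Fin 2) (IsLocalRing.ResidueField A) (IsLocalRing.ResidueField A ⊗[A] V)) :
    ∃ b : Module.Basis (Fin 2) A V, ∀ i, (1 : IsLocalRing.ResidueField A) ⊗ₜ[A] b i = bk i := by
  have hsurj := TensorProduct.mk_surjective A V (IsLocalRing.ResidueField A)
    (IsLocalRing.residue_surjective (R := A))
  choose f hf using fun i => hsurj (bk i)
  have hf' : ∀ i, (1 : IsLocalRing.ResidueField A) ⊗ₜ[A] f i = bk i := hf
  have hli : LinearIndependent A f := by
    apply Module.IsLocalRing.linearIndependent_of_flat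
    have : (TensorProduct.mk A (IsLocalRing.ResidueField A) V 1 ∘ f) = bk := by
      funext i; exact hf' i
    rw [this]
    exact bk.linearIndependent
  have hsp : Submodule.span A (Set.range f) = ⊤ :=
    IsLocalRing.span_eq_top_of_tmul_eq_basis f bk hf'
  refine ⟨Module.Basis.mk hli (by rw [hsp]), fun i => ?_⟩
  rw [Module.Basis.mk_apply]; exact hf' i

omit [IsLocalRing A] in
/-- The matrix of a base-changed endomorphism in a basis compatible with a basis downstairs. -/
lemma toMatrix_baseChange_of_tmul_eq {V : Type} [AddCommGroup V] [Module A V]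
    {K : Type} [CommRing K] [Algebra A K]
    (b : Module.Basis (Fin 2) A V) (bk : Module.Basis (Fin 2) K (K ⊗[A] V))
    (h : ∀ i, (1 : K) ⊗ₜ[A] b i = bk i) (f : V →ₗ[A] V) :
    LinearMap.toMatrix bk bk (f.baseChange K) = (LinearMap.toMatrix b b f).map (algebraMap A K) := by
  have hbk : bk = Algebra.TensorProduct.basis K b := by
    apply Module.Basis.eq_of_apply_eq
    intro i
    rw [Algebra.TensorProduct.basis_apply, h i]
  rw [hbk, LinearMap.toMatrix_baseChange]

omit [IsLocalRing A] in
/-- Transport of matrices along an intertwining linear equivalence. -/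
lemma toMatrix_map_symm_of_intertwine {K : Type} [CommRing K] {W W' : Type} [AddCommGroup W]
    [Module K W] [AddCommGroup W'] [Module K W'] (e : W ≃ₗ[K] W')
    (bk' : Module.Basis (Fin 2) K W') (F : W →ₗ[K] W) (F' : W' →ₗ[K] W')
    (h : ∀ x, e (F x) = F' (e x)) :
    LinearMap.toMatrix (bk'.map e.symm) (bk'.map e.symm) F = LinearMap.toMatrix bk' bk' F' := by
  rw [LinearMap.toMatrix_map_left, LinearMap.toMatrix_map_right]
  congr 1
  apply LinearMap.ext
  intro x
  simp only [LinearMap.comp_apply, LinearEquiv.coe_coe, LinearEquiv.symm_symm, h,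
    LinearEquiv.apply_symm_apply]

/-- (D5)(i) If the residual representation of `ρ` is equivalent to the base change of `ρbar`,
then `ρ` has a basis in which its matrices lift those of `ρbar` entrywise. -/
theorem exists_basis_of_residual_isEquiv (ρbar : ResidualGaloisRep k)
    (bbar : Module.Basis (Fin 2) k ρbar.V) (ι : k →+* IsLocalRing.ResidueField A)
    (ρ : GaloisRepAdic A) (h : ρ.residual.IsEquiv (ρbar.baseChangeAlong ι)) :
    ∃ b : Module.Basis (Fin 2) A ρ.V, ∀ σ i j,
      IsLocalRing.residue A (toMatrixHom ρ b σ i j) = ι (resMatrixHom ρbar bbar σ i j) := by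
  obtain ⟨e⟩ := h
  let _ : Algebra k (IsLocalRing.ResidueField A) := ι.toAlgebra
  let bk' : Module.Basis (Fin 2) (IsLocalRing.ResidueField A)
      (IsLocalRing.ResidueField A ⊗[k] ρbar.V) :=
    Algebra.TensorProduct.basis (IsLocalRing.ResidueField A) bbar
  let e' : (IsLocalRing.ResidueField A ⊗[A] ρ.V) ≃ₗ[IsLocalRing.ResidueField A]
      (IsLocalRing.ResidueField A ⊗[k] ρbar.V) := e.toLinearEquiv
  have he' : ∀ σ (x : IsLocalRing.ResidueField A ⊗[A] ρ.V),
      e' ((ρ.ρ σ).baseChange (IsLocalRing.ResidueField A) x) =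
        (ρbar.ρ σ).baseChange (IsLocalRing.ResidueField A) (e' x) := fun σ x => e.map_apply σ x
  obtain ⟨b, hb⟩ := exists_basis_tmul_eq (bk'.map e'.symm)
  refine ⟨b, fun σ i j => ?_⟩
  have h1 := toMatrix_baseChange_of_tmul_eq b (bk'.map e'.symm) hb (ρ.ρ σ)
  have h2 := toMatrix_map_symm_of_intertwine e' bk'
    ((ρ.ρ σ).baseChange (IsLocalRing.ResidueField A))
    ((ρbar.ρ σ).baseChange (IsLocalRing.ResidueField A)) (he' σ)
  have h3 : LinearMap.toMatrix bk' bk' ((ρbar.ρ σ).baseChange (IsLocalRing.ResidueField A)) =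
      (LinearMap.toMatrix bbar bbar (ρbar.ρ σ)).map ι :=
    LinearMap.toMatrix_baseChange (IsLocalRing.ResidueField A) (ρbar.ρ σ) bbar bbar
  have h4 := congrFun (congrFun (h1.symm.trans (h2.trans h3)) i) j
  simpa [toMatrixHom_apply, resMatrixHom_apply] using h4

omit [IsLocalRing A] in
lemma intertwine_of_toMatrix_eq {K : Type} [CommRing K] {W W' : Type} [AddCommGroup W]
    [Module K W] [AddCommGroup W'] [Module K W']
    (bk : Module.Basis (Fin 2) K W) (bk' : Module.Basis (Fin 2) K W')
    (F : W →ₗ[K] W) (F' : W' →ₗ[K] W')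
    (h : LinearMap.toMatrix bk bk F = LinearMap.toMatrix bk' bk' F') (x : W) :
    bk.equiv bk' (Equiv.refl _) (F x) = F' (bk.equiv bk' (Equiv.refl _) x) := by
  have hE : LinearMap.toMatrix bk bk' (bk.equiv bk' (Equiv.refl _)).toLinearMap = 1 := by
    ext i j
    simp [LinearMap.toMatrix_apply, Matrix.one_apply, Finsupp.single_apply, eq_comm]
  have h1 : LinearMap.toMatrix bk bk' ((bk.equiv bk' (Equiv.refl _)).toLinearMap ∘ₗ F) =
      LinearMap.toMatrix bk bk' (F' ∘ₗ (bk.equiv bk' (Equiv.refl _)).toLinearMap) := by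
    rw [LinearMap.toMatrix_comp bk bk bk', LinearMap.toMatrix_comp bk bk' bk', hE, h]
    simp
  have h2 := (LinearMap.toMatrix bk bk').injective h1
  exact congrArg (fun f => f x) h2

/-- (D5)(ii) If the matrices of `ρ` in some basis lift those of `ρbar` entrywise, then the
residual representation of `ρ` is equivalent to the base change of `ρbar`. -/
theorem residual_isEquiv_of_lift (ρbar : ResidualGaloisRep k)
    (bbar : Module.Basis (Fin 2) k ρbar.V) (ι : k →+* IsLocalRing.ResidueField A)
    (ρ : GaloisRepAdic A) (b : Module.Basis (Fin 2) A ρ.V)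
    (h : ∀ σ i j,
      IsLocalRing.residue A (toMatrixHom ρ b σ i j) = ι (resMatrixHom ρbar bbar σ i j)) :
    ρ.residual.IsEquiv (ρbar.baseChangeAlong ι) := by
  let _ : Algebra k (IsLocalRing.ResidueField A) := ι.toAlgebra
  let bk : Module.Basis (Fin 2) (IsLocalRing.ResidueField A)
      (IsLocalRing.ResidueField A ⊗[A] ρ.V) :=
    Algebra.TensorProduct.basis (IsLocalRing.ResidueField A) b
  let bk' : Module.Basis (Fin 2) (IsLocalRing.ResidueField A)
      (IsLocalRing.ResidueField A ⊗[k] ρbar.V) :=
    Algebra.TensorProduct.basis (IsLocalRing.ResidueField A) bbar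
  have hmat : ∀ σ, LinearMap.toMatrix bk bk ((ρ.ρ σ).baseChange (IsLocalRing.ResidueField A)) =
      LinearMap.toMatrix bk' bk' ((ρbar.ρ σ).baseChange (IsLocalRing.ResidueField A)) := by
    intro σ
    rw [LinearMap.toMatrix_baseChange, LinearMap.toMatrix_baseChange]
    ext i j
    have := h σ i j
    simpa [toMatrixHom_apply, resMatrixHom_apply, RingHom.algebraMap_toAlgebra] using this
  exact ⟨{ toLinearEquiv := bk.equiv bk' (Equiv.refl _)
           map_apply := fun σ x => intertwine_of_toMatrix_eq bk bk' _ _ (hmat σ) x }⟩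

/-- The standard basis of the underlying module of `ofMatrix M hM`. -/
noncomputable def stdBasis (M : GQ →* Matrix (Fin 2) (Fin 2) A) (hM : MatCont M) :
    Module.Basis (Fin 2) A (ofMatrix M hM).V :=
  Pi.basisFun A (Fin 2)

lemma toMatrixHom_ofMatrix (M : GQ →* Matrix (Fin 2) (Fin 2) A) (hM : MatCont M) (σ : GQ) :
    toMatrixHom (ofMatrix M hM) (stdBasis M hM) σ = M σ := by
  show LinearMap.toMatrix (Pi.basisFun A (Fin 2)) (Pi.basisFun A (Fin 2))
    (Matrix.toLin' (M σ)) = M σ
  rw [LinearMap.toMatrix_eq_toMatrix', LinearMap.toMatrix'_toLin']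

/-- (D5)(ii) for `ofMatrix`. -/
theorem ofMatrix_residual_isEquiv (ρbar : ResidualGaloisRep k)
    (bbar : Module.Basis (Fin 2) k ρbar.V) (ι : k →+* IsLocalRing.ResidueField A)
    (M : GQ →* Matrix (Fin 2) (Fin 2) A) (hM : MatCont M)
    (h : ∀ σ i j, IsLocalRing.residue A (M σ i j) = ι (resMatrixHom ρbar bbar σ i j)) :
    (ofMatrix M hM).residual.IsEquiv (ρbar.baseChangeAlong ι) := by
  refine residual_isEquiv_of_lift ρbar bbar ι (ofMatrix M hM) (stdBasis M hM) ?_
  intro σ i j
  rw [toMatrixHom_ofMatrix]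
  exact h σ i j

end ResidualDictionary

end Fermat.Agent.S53
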