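import Mathlib
import Fermat.Prelude.Def_GaloisRep_Residual

set_option autoImplicit false

/-!
# S53: from absolute irreducibility to rigidification data

For an absolutely irreducible two-dimensional residual representation `ρbar` we produce a basis
and two group elements `g₁ g₂` such that the matrix of `ρbar g₁` has first column `e₂`
(companion form) and the commutator of the matrices of `ρbar g₁` and `ρbar g₂` has a nonzero
entry.
-/

noncomputable section

namespace Fermat.Agent.S53

open scoped TensorProduct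

variable {k : Type} [Field k]

/-- In an absolutely irreducible representation the image is not commutative. -/
theorem exists_not_commute (ρbar : ResidualGaloisRep k) (habs : ρbar.IsAbsolutelyIrreducible) :
    ∃ g₁ g₂ : AlgebraicClosure ℚ ≃ₐ[ℚ] AlgebraicClosure ℚ,
      ρbar.ρ g₁ * ρbar.ρ g₂ ≠ ρbar.ρ g₂ * ρbar.ρ g₁ := by
  by_contra hcon
  simp only [not_exists, ne_eq, not_not] at hcon
  set K := AlgebraicClosure k with hK
  -- the base-changed representation
  have hirr : ∀ W : Submodule K (K ⊗[k] ρbar.V),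
      (∀ σ : AlgebraicClosure ℚ ≃ₐ[ℚ] AlgebraicClosure ℚ, ∀ x ∈ W,
        (ρbar.ρ σ).baseChange K x ∈ W) → W = ⊥ ∨ W = ⊤ := habs
  have hfr : Module.finrank K (K ⊗[k] ρbar.V) = 2 := by
    rw [Module.finrank_baseChange, ρbar.finrank_eq]
  have : Module.Finite K (K ⊗[k] ρbar.V) := Module.finite_of_finrank_eq_succ hfr
  have : Nontrivial (K ⊗[k] ρbar.V) := Module.nontrivial_of_finrank_eq_succ hfr
  have hcomm : ∀ σ τ : AlgebraicClosure ℚ ≃ₐ[ℚ] AlgebraicClosure ℚ,
      (ρbar.ρ σ).baseChange K * (ρbar.ρ τ).baseChange K =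
        (ρbar.ρ τ).baseChange K * (ρbar.ρ σ).baseChange K := by
    intro σ τ
    rw [← LinearMap.baseChange_mul, ← LinearMap.baseChange_mul, hcon σ τ]
  -- a line which is not everything
  have hline : ∀ W : Submodule K (K ⊗[k] ρbar.V), W ≠ ⊥ → W ≠ ⊤ →
      (∀ σ : AlgebraicClosure ℚ ≃ₐ[ℚ] AlgebraicClosure ℚ, ∀ x ∈ W,
        (ρbar.ρ σ).baseChange K x ∈ W) → False := by
    intro W h1 h2 h3
    rcases hirr W h3 with h | h
    · exact h1 h
    · exact h2 h
  by_cases hsc : ∀ σ : AlgebraicClosure ℚ ≃ₐ[ℚ] AlgebraicClosure ℚ,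
      ∃ c : K, (ρbar.ρ σ).baseChange K = c • (1 : Module.End K (K ⊗[k] ρbar.V))
  · -- all scalar: any line is invariant
    obtain ⟨v, hv⟩ := exists_ne (0 : K ⊗[k] ρbar.V)
    refine hline (K ∙ v) ?_ ?_ ?_
    · rw [Ne, Submodule.span_singleton_eq_bot]; exact hv
    · intro htop
      have h1 : Module.finrank K (K ∙ v) = 1 := finrank_span_singleton hv
      rw [htop, finrank_top, hfr] at h1
      omega
    · intro σ x hx
      obtain ⟨c, hc⟩ := hsc σ
      rw [hc]
      simpa using Submodule.smul_mem _ c hx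
  · simp only [not_forall, not_exists] at hsc
    obtain ⟨g, hg⟩ := hsc
    obtain ⟨μ, hμ⟩ := Module.End.exists_eigenvalue ((ρbar.ρ g).baseChange K)
    refine hline (Module.End.eigenspace ((ρbar.ρ g).baseChange K) μ) hμ ?_ ?_
    · intro htop
      apply hg μ
      refine LinearMap.ext fun x => ?_
      have hx : x ∈ Module.End.eigenspace ((ρbar.ρ g).baseChange K) μ := by
        rw [htop]; exact Submodule.mem_top
      rw [Module.End.mem_eigenspace_iff] at hx
      simpa using hx
    · intro σ x hx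
      rw [Module.End.mem_eigenspace_iff] at hx ⊢
      have h1 : (ρbar.ρ g).baseChange K ((ρbar.ρ σ).baseChange K x) =
          (ρbar.ρ σ).baseChange K ((ρbar.ρ g).baseChange K x) := by
        have := congrArg (fun f => f x) (hcomm g σ)
        simpa using this
      rw [h1, hx, map_smul]

/-- A non-scalar endomorphism of a two-dimensional space has a cyclic vector. -/
theorem exists_cyclic_vector {V : Type*} [AddCommGroup V] [Module k V]
    (hV : Module.finrank k V = 2) (T : Module.End k V) (hT : ∀ c : k, T ≠ c • 1) :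
    ∃ v : V, LinearIndependent k ![v, T v] := by
  by_contra hcon
  simp only [not_exists] at hcon
  have key : ∀ v : V, v ≠ 0 → ∃ c : k, T v = c • v := by
    intro v hv
    have h := hcon v
    rw [LinearIndependent.pair_iff] at h
    simp only [not_forall] at h
    obtain ⟨s, t, hst, hne⟩ := h
    have ht : t ≠ 0 := by
      intro ht0
      apply hne
      rw [ht0, zero_smul, add_zero] at hst
      exact ⟨(smul_eq_zero.mp hst).resolve_right hv, ht0⟩
    refine ⟨-(t⁻¹ * s), ?_⟩
    have h2 : t • T v = -(s • v) := eq_neg_of_add_eq_zero_right hst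
    calc T v = t⁻¹ • (t • T v) := by rw [smul_smul, inv_mul_cancel₀ ht, one_smul]
      _ = -(t⁻¹ * s) • v := by rw [h2, smul_neg, smul_smul, neg_smul]
  have hfin : Module.Finite k V := Module.finite_of_finrank_eq_succ hV
  let e : Module.Basis (Fin 2) k V := Module.finBasisOfFinrankEq k V hV
  have he0 : e 0 ≠ 0 := e.ne_zero 0
  have he1 : e 1 ≠ 0 := e.ne_zero 1
  have hli := e.linearIndependent
  have hpair : LinearIndependent k ![e 0, e 1] := by
    have : (![e 0, e 1] : Fin 2 → V) = e := by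
      ext i; fin_cases i <;> rfl
    rw [this]; exact hli
  have he01 : e 0 + e 1 ≠ 0 := by
    intro h
    have := (LinearIndependent.pair_iff.mp hpair) (1 : k) (1 : k) (by simpa using h)
    exact one_ne_zero this.1
  obtain ⟨a, ha⟩ := key _ he0
  obtain ⟨b, hb⟩ := key _ he1
  obtain ⟨c, hc⟩ := key _ he01
  have hrel : (a - c) • e 0 + (b - c) • e 1 = 0 := by
    have h1 : T (e 0 + e 1) = a • e 0 + b • e 1 := by rw [map_add, ha, hb]
    rw [hc, smul_add] at h1
    rw [sub_smul, sub_smul]
    have : a • e 0 + b • e 1 - (c • e 0 + c • e 1) = 0 := by rw [← h1, sub_self]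
    rw [← this]; abel
  obtain ⟨hac, hbc⟩ := LinearIndependent.pair_iff.mp hpair _ _ hrel
  have hac' : a = c := sub_eq_zero.mp hac
  have hbc' : b = c := sub_eq_zero.mp hbc
  apply hT c
  apply e.ext
  intro i
  fin_cases i
  · simpa [hac'] using ha
  · simpa [hbc'] using hb

/-- Rigidification data for an absolutely irreducible residual representation: a basis in which
`ρbar g₁` is in companion form, together with a nonzero entry of the commutator of `ρbar g₁` and
`ρbar g₂`. -/
theorem exists_frameData (ρbar : ResidualGaloisRep k) (habs : ρbar.IsAbsolutelyIrreducible) :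
    ∃ (b : Module.Basis (Fin 2) k ρbar.V)
      (g₁ g₂ : AlgebraicClosure ℚ ≃ₐ[ℚ] AlgebraicClosure ℚ) (i₀ j₀ : Fin 2),
      LinearMap.toMatrix b b (ρbar.ρ g₁) 0 0 = 0 ∧
      LinearMap.toMatrix b b (ρbar.ρ g₁) 1 0 = 1 ∧
      (LinearMap.toMatrix b b (ρbar.ρ g₁) * LinearMap.toMatrix b b (ρbar.ρ g₂) -
        LinearMap.toMatrix b b (ρbar.ρ g₂) * LinearMap.toMatrix b b (ρbar.ρ g₁)) i₀ j₀ ≠ 0 := by
  obtain ⟨g₁, g₂, hne⟩ := exists_not_commute ρbar habs
  have hT : ∀ c : k, ρbar.ρ g₁ ≠ c • 1 := by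
    intro c hc
    apply hne
    rw [hc]
    simp
  obtain ⟨v, hv⟩ := exists_cyclic_vector ρbar.finrank_eq (ρbar.ρ g₁) hT
  let b : Module.Basis (Fin 2) k ρbar.V :=
    basisOfLinearIndependentOfCardEqFinrank hv (by simp [ρbar.finrank_eq])
  have hb : (b : Fin 2 → ρbar.V) = ![v, ρbar.ρ g₁ v] :=
    coe_basisOfLinearIndependentOfCardEqFinrank hv _
  have hb0 : b 0 = v := by rw [hb]; rfl
  have hb1 : b 1 = ρbar.ρ g₁ v := by rw [hb]; rfl
  have hcol : ρbar.ρ g₁ (b 0) = b 1 := by rw [hb0, hb1]
  have hmat : LinearMap.toMatrix b b (ρbar.ρ g₁ * ρbar.ρ g₂ - ρbar.ρ g₂ * ρbar.ρ g₁) ≠ 0 := by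
    intro h
    apply hne
    have := (LinearMap.toMatrix b b).injective (h.trans (map_zero _).symm)
    exact sub_eq_zero.mp this
  have hex : ∃ i j, LinearMap.toMatrix b b (ρbar.ρ g₁ * ρbar.ρ g₂ - ρbar.ρ g₂ * ρbar.ρ g₁) i j
      ≠ 0 := by
    by_contra hcon
    simp only [not_exists, not_not] at hcon
    apply hmat
    ext i j
    exact hcon i j
  obtain ⟨i₀, j₀, hij⟩ := hex
  refine ⟨b, g₁, g₂, i₀, j₀, ?_, ?_, ?_⟩
  · rw [LinearMap.toMatrix_apply, hcol]
    simp
  · rw [LinearMap.toMatrix_apply, hcol]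
    simp
  · rw [map_sub, LinearMap.toMatrix_mul, LinearMap.toMatrix_mul] at hij
    exact hij

end Fermat.Agent.S53

end
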