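import Mathlib.RingTheory.Henselian
import Mathlib.RingTheory.AdicCompletion.Basic
import Mathlib.RingTheory.LocalRing.MaximalIdeal.Basic

/-!
# A quadratic Hensel lemma with unit linear coefficient

For a local ring `A` that is complete with respect to its maximal ideal, the (possibly non-monic)
quadratic `F0 + F1 * b + F2 * b ^ 2` with `F0` in the maximal ideal and `F1` a unit has a root
in the maximal ideal.
-/

namespace Fermat.Agent.S53

open Polynomial IsLocalRing

/-- Henselian property of an adically complete local ring, stated for the maximal ideal. -/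
theorem henselian_of_adicComplete {A : Type*} [CommRing A] [IsLocalRing A]
    [IsAdicComplete (IsLocalRing.maximalIdeal A) A]
    (f : A[X]) (hf : f.Monic) (a₀ : A) (h₁ : f.eval a₀ ∈ IsLocalRing.maximalIdeal A)
    (h₂ : IsUnit (f.derivative.eval a₀)) :
    ∃ a : A, f.IsRoot a ∧ a - a₀ ∈ IsLocalRing.maximalIdeal A :=
  HenselianRing.is_henselian (I := IsLocalRing.maximalIdeal A) f hf a₀ h₁ (h₂.map _)

theorem exists_root_quadratic {A : Type} [CommRing A] [IsLocalRing A]
    [IsAdicComplete (IsLocalRing.maximalIdeal A) A] (F0 F1 F2 : A)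
    (h0 : F0 ∈ IsLocalRing.maximalIdeal A) (h1 : IsUnit F1) :
    ∃ b ∈ IsLocalRing.maximalIdeal A, F0 + F1 * b + F2 * b ^ 2 = 0 := by
  -- the monic polynomial `H = X^2 + F1 X + F2 F0` has the approximate simple root `-F1`
  set H : A[X] := X ^ 2 + C F1 * X + C (F2 * F0) with hH
  have hmonic : H.Monic := by
    rw [hH, add_assoc]
    refine Polynomial.monic_X_pow_add ?_
    refine lt_of_le_of_lt (Polynomial.degree_add_le _ _) ?_
    refine max_lt ?_ ?_
    · refine lt_of_le_of_lt (Polynomial.degree_C_mul_X_le _) ?_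
      norm_num
    · refine lt_of_le_of_lt Polynomial.degree_C_le ?_
      norm_num
  have heval : H.eval (-F1) = F2 * F0 := by
    simp only [hH, eval_add, eval_pow, eval_X, eval_mul, eval_C]
    ring
  have hder : H.derivative.eval (-F1) = -F1 := by
    simp only [hH, derivative_add, derivative_X_pow, derivative_mul, derivative_C, derivative_X,
      eval_add, eval_mul, eval_C, eval_X, Nat.cast_ofNat, zero_mul, mul_one,
      Nat.add_one_sub_one, pow_one, add_zero, zero_add]
    simp
    ring
  obtain ⟨w, hw, hwF⟩ := henselian_of_adicComplete H hmonic (-F1)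
    (by rw [heval]; exact Ideal.mul_mem_left _ _ h0)
    (by rw [hder]; exact h1.neg)
  -- `w` is a unit since it is congruent to the unit `-F1`
  have hwunit : IsUnit w := by
    by_contra hw'
    have hwm : w ∈ IsLocalRing.maximalIdeal A := (IsLocalRing.mem_maximalIdeal w).mpr hw'
    have : -F1 ∈ IsLocalRing.maximalIdeal A := by
      have := Ideal.sub_mem _ hwm hwF
      simpa using this
    exact (IsLocalRing.mem_maximalIdeal _).mp this h1.neg
  obtain ⟨u, rfl⟩ := hwunit
  refine ⟨F0 * ((u⁻¹ : Aˣ) : A), Ideal.mul_mem_right _ _ h0, ?_⟩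
  have hroot : (u : A) ^ 2 + F1 * u + F2 * F0 = 0 := by
    have := hw
    simp only [hH, IsRoot.def, eval_add, eval_pow, eval_X, eval_mul, eval_C] at this
    exact this
  have hu : (u : A) * ((u⁻¹ : Aˣ) : A) = 1 := Units.mul_inv u
  have key : F0 + F1 * (F0 * ((u⁻¹ : Aˣ) : A)) + F2 * (F0 * ((u⁻¹ : Aˣ) : A)) ^ 2
      = F0 * ((u⁻¹ : Aˣ) : A) ^ 2 * ((u : A) ^ 2 + F1 * u + F2 * F0)
        + F0 * (1 - ((u : A) * ((u⁻¹ : Aˣ) : A)) ^ 2)
        + F1 * F0 * ((u⁻¹ : Aˣ) : A) * (1 - (u : A) * ((u⁻¹ : Aˣ) : A)) := by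
    ring
  rw [key, hroot, hu]
  ring

end Fermat.Agent.S53
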