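import Mathlib

set_option autoImplicit false

namespace Fermat.Agent.S53

section Uniq

variable {A : Type*} [CommRing A]

/-- Entry `(i, j)` of a product of `2 × 2` matrices. -/
lemma mul_apply_two (X Y : Matrix (Fin 2) (Fin 2) A) (i j : Fin 2) :
    (X * Y) i j = X i 0 * Y 0 j + X i 1 * Y 1 j := by
  rw [Matrix.mul_apply, Fin.sum_univ_two]

/-- If `g` intertwines two matrices whose first column is `e₂`, then `g` is a polynomial in the
second one: `g = g₀₀ + g₁₀ N₀'`. -/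
theorem conj_eq_of_companion (g N₀ N₀' : Matrix (Fin 2) (Fin 2) A)
    (h0 : N₀ 0 0 = 0) (h1 : N₀ 1 0 = 1) (h0' : N₀' 0 0 = 0) (h1' : N₀' 1 0 = 1)
    (hg : g * N₀ = N₀' * g) :
    g = (g 0 0) • (1 : Matrix (Fin 2) (Fin 2) A) + (g 1 0) • N₀' := by
  have e00 := congrFun (congrFun hg 0) 0
  have e10 := congrFun (congrFun hg 1) 0
  simp only [mul_apply_two, h0, h1, h0', h1'] at e00 e10
  ext i j
  fin_cases i <;> fin_cases j
  · simp [Matrix.add_apply, Matrix.smul_apply, h0']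
  · simp [Matrix.add_apply, Matrix.smul_apply]
    linear_combination e00
  · simp [Matrix.add_apply, Matrix.smul_apply, h1']
  · simp [Matrix.add_apply, Matrix.smul_apply]
    linear_combination e10

/-- Uniqueness of rigid representatives: an invertible intertwiner between two rigid pairs is a
scalar matrix. -/
theorem scalar_of_rigid (g g' N₀ N₁ N₀' N₁' : Matrix (Fin 2) (Fin 2) A)
    (hgg' : g * g' = 1)
    (h0 : N₀ 0 0 = 0) (h1 : N₀ 1 0 = 1) (h0' : N₀' 0 0 = 0) (h1' : N₀' 1 0 = 1)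
    (hg0 : g * N₀ = N₀' * g) (hg1 : g * N₁ = N₁' * g)
    (i₀ j₀ : Fin 2) (he : N₁ i₀ j₀ = N₁' i₀ j₀)
    (hu : IsUnit ((N₀' * N₁ - N₁' * N₀') i₀ j₀)) :
    ∃ a : A, IsUnit a ∧ g = a • (1 : Matrix (Fin 2) (Fin 2) A) := by
  have hgeq := conj_eq_of_companion g N₀ N₀' h0 h1 h0' h1' hg0
  set a := g 0 0 with ha
  set b := g 1 0 with hb
  -- `b * unit = 0`
  have key : b • (N₀' * N₁ - N₁' * N₀') = a • (N₁' - N₁) := by
    have h := hg1
    rw [hgeq] at h
    simp only [add_mul, mul_add, Matrix.smul_mul, Matrix.mul_smul, Matrix.one_mul,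
      Matrix.mul_one] at h
    rw [smul_sub, smul_sub, sub_eq_sub_iff_add_eq_add, add_comm]
    exact h
  have hb0 : b = 0 := by
    have h := congrFun (congrFun key i₀) j₀
    simp only [Matrix.smul_apply, Matrix.sub_apply, smul_eq_mul] at h
    rw [he, sub_self, mul_zero] at h
    have h' : b * (N₀' * N₁ - N₁' * N₀') i₀ j₀ = 0 := by
      simpa [Matrix.sub_apply] using h
    exact (hu.mul_left_eq_zero).mp h'
  have hga : g = a • (1 : Matrix (Fin 2) (Fin 2) A) := by
    rw [hgeq, hb0, zero_smul, add_zero]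
  refine ⟨a, ?_, hga⟩
  have h := congrFun (congrFun hgg' 0) 0
  rw [hga] at h
  simp only [Matrix.smul_mul, Matrix.one_mul, Matrix.smul_apply, Matrix.one_apply_eq,
    smul_eq_mul] at h
  exact IsUnit.of_mul_eq_one _ h

/-- If `a • N = a • N'` entrywise with `a` a unit then `N = N'`; packaged for intertwiners. -/
theorem eq_of_scalar_conj {a : A} (ha : IsUnit a) (N N' : Matrix (Fin 2) (Fin 2) A)
    (h : (a • (1 : Matrix (Fin 2) (Fin 2) A)) * N = N' * (a • (1 : Matrix (Fin 2) (Fin 2) A))) :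
    N = N' := by
  simp only [Matrix.smul_mul, Matrix.one_mul, Matrix.mul_smul, Matrix.mul_one] at h
  ext i j
  have := congrFun (congrFun h i) j
  simp only [Matrix.smul_apply, smul_eq_mul] at this
  exact ha.mul_left_cancel this

end Uniq

section Entries

variable {A : Type*}

lemma of_two_00 (a b c d : A) : (!![a, b; c, d] : Matrix (Fin 2) (Fin 2) A) 0 0 = a := rfl
lemma of_two_01 (a b c d : A) : (!![a, b; c, d] : Matrix (Fin 2) (Fin 2) A) 0 1 = b := rfl
lemma of_two_10 (a b c d : A) : (!![a, b; c, d] : Matrix (Fin 2) (Fin 2) A) 1 0 = c := rfl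
lemma of_two_11 (a b c d : A) : (!![a, b; c, d] : Matrix (Fin 2) (Fin 2) A) 1 1 = d := rfl

end Entries

section Congr

variable {A : Type*} [CommRing A]

/-- Conjugating by matrices congruent to `1` modulo an ideal does not change entries modulo that
ideal. -/
theorem conj_sub_mem (I : Ideal A) (g g' X : Matrix (Fin 2) (Fin 2) A)
    (hg : ∀ i j, (g - 1) i j ∈ I) (hg' : ∀ i j, (g' - 1) i j ∈ I) (i j : Fin 2) :
    (g * X * g') i j - X i j ∈ I := by
  have h : g * X * g' - X = (g - 1) * X * g' + X * (g' - 1) := by noncomm_ring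
  have h2 : (g * X * g') i j - X i j = ((g - 1) * X * g' + X * (g' - 1)) i j := by
    rw [← h, Matrix.sub_apply]
  rw [h2, Matrix.add_apply, mul_apply_two, mul_apply_two, mul_apply_two, mul_apply_two]
  refine I.add_mem (I.add_mem (I.mul_mem_right _ (I.add_mem ?_ ?_))
    (I.mul_mem_right _ (I.add_mem ?_ ?_))) (I.add_mem ?_ ?_)
  · exact I.mul_mem_right _ (hg _ _)
  · exact I.mul_mem_right _ (hg _ _)
  · exact I.mul_mem_right _ (hg _ _)
  · exact I.mul_mem_right _ (hg _ _)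
  · exact I.mul_mem_left _ (hg' _ _)
  · exact I.mul_mem_left _ (hg' _ _)

/-- Products of matrices congruent to `1` are congruent to `1`. -/
theorem mul_sub_one_mem (I : Ideal A) (g h : Matrix (Fin 2) (Fin 2) A)
    (hg : ∀ i j, (g - 1) i j ∈ I) (hh : ∀ i j, (h - 1) i j ∈ I) (i j : Fin 2) :
    (g * h - 1) i j ∈ I := by
  have e : g * h - 1 = (g - 1) * h + (h - 1) := by noncomm_ring
  rw [e, Matrix.add_apply, mul_apply_two]
  exact I.add_mem (I.add_mem (I.mul_mem_right _ (hg _ _)) (I.mul_mem_right _ (hg _ _))) (hh _ _)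

end Congr

section Exist

open IsLocalRing

variable {A : Type*} [CommRing A] [IsLocalRing A]

lemma isUnit_add_of_mem_maximalIdeal {u m : A} (hu : IsUnit u) (hm : m ∈ maximalIdeal A) :
    IsUnit (u + m) := by
  by_contra h
  have h1 : u + m ∈ maximalIdeal A := (mem_maximalIdeal _).mpr h
  have h2 : u ∈ maximalIdeal A := by
    have := (maximalIdeal A).sub_mem h1 hm
    simpa using this
  exact (mem_maximalIdeal _).mp h2 hu

/-- Hensel's lemma for quadratics over a finite local ring, by counting. -/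
theorem exists_root_quadratic_of_finite [Finite A] (F0 F1 F2 : A) (h0 : F0 ∈ maximalIdeal A)
    (h1 : IsUnit F1) : ∃ b ∈ maximalIdeal A, F0 + F1 * b + F2 * b ^ 2 = 0 := by
  let G : maximalIdeal A → maximalIdeal A := fun b =>
    ⟨F1 * b + F2 * (b : A) ^ 2, (maximalIdeal A).add_mem ((maximalIdeal A).mul_mem_left _ b.2)
      ((maximalIdeal A).mul_mem_left _ ((maximalIdeal A).pow_mem_of_mem b.2 2 (by norm_num)))⟩
  have hinj : Function.Injective G := by
    intro b b' h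
    have h' : F1 * (b : A) + F2 * (b : A) ^ 2 = F1 * (b' : A) + F2 * (b' : A) ^ 2 :=
      congrArg Subtype.val h
    have hunit : IsUnit (F1 + F2 * ((b : A) + b')) :=
      isUnit_add_of_mem_maximalIdeal h1
        ((maximalIdeal A).mul_mem_left _ ((maximalIdeal A).add_mem b.2 b'.2))
    have hz : ((b : A) - b') * (F1 + F2 * ((b : A) + b')) = 0 := by
      linear_combination h'
    have : (b : A) - b' = 0 := (hunit.mul_left_eq_zero).mp hz
    exact Subtype.ext (sub_eq_zero.mp this)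
  obtain ⟨b, hb⟩ := (Finite.injective_iff_surjective.mp hinj)
    ⟨-F0, (maximalIdeal A).neg_mem h0⟩
  refine ⟨b, b.2, ?_⟩
  have h' : F1 * (b : A) + F2 * (b : A) ^ 2 = -F0 := congrArg Subtype.val hb
  linear_combination h'

/-- Step 1 of rigidification: conjugate so that the first column of `N₀` becomes `e₂`. -/
theorem exists_conj_companion (N₀ : Matrix (Fin 2) (Fin 2) A)
    (h0 : N₀ 0 0 ∈ maximalIdeal A) (h1 : N₀ 1 0 - 1 ∈ maximalIdeal A) :
    ∃ h h' : Matrix (Fin 2) (Fin 2) A, h * h' = 1 ∧ h' * h = 1 ∧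
      (∀ i j, (h - 1) i j ∈ maximalIdeal A) ∧ (∀ i j, (h' - 1) i j ∈ maximalIdeal A) ∧
      (h' * N₀ * h) 0 0 = 0 ∧ (h' * N₀ * h) 1 0 = 1 := by
  have hu : IsUnit (N₀ 1 0) := by
    have := isUnit_add_of_mem_maximalIdeal (isUnit_one (M := A)) h1
    simpa using this
  obtain ⟨u, hu'⟩ := hu
  have huinv : N₀ 1 0 * (↑u⁻¹ : A) = 1 := by rw [← hu']; exact u.mul_inv
  generalize (↑u⁻¹ : A) = v at huinv
  have hvmem : v - 1 ∈ maximalIdeal A := by
    have e : v - 1 = -v * (N₀ 1 0 - 1) := by linear_combination huinv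
    rw [e]
    exact (maximalIdeal A).mul_mem_left _ h1
  refine ⟨!![1, N₀ 0 0; 0, N₀ 1 0], !![1, -(N₀ 0 0) * v; 0, v], ?_, ?_, ?_, ?_, ?_, ?_⟩
  · ext i j
    fin_cases i <;> fin_cases j
    · simp [mul_apply_two]
    · simp [mul_apply_two]
    · simp [mul_apply_two]
    · simp [mul_apply_two]
      linear_combination huinv
  · ext i j
    fin_cases i <;> fin_cases j
    · simp [mul_apply_two]
    · simp [mul_apply_two]
      linear_combination (-(N₀ 0 0)) * huinv
    · simp [mul_apply_two]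
    · simp [mul_apply_two]
      linear_combination huinv
  · intro i j
    fin_cases i <;> fin_cases j
    · simp only [Matrix.sub_apply]; simp
    · simp only [Matrix.sub_apply]; simpa using h0
    · simp only [Matrix.sub_apply]; simp
    · simp only [Matrix.sub_apply]; simpa using h1
  · intro i j
    fin_cases i <;> fin_cases j
    · simp only [Matrix.sub_apply]; simp
    · simp only [Matrix.sub_apply]
      have : -(N₀ 0 0) * v ∈ maximalIdeal A :=
        (maximalIdeal A).mul_mem_right _ ((maximalIdeal A).neg_mem h0)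
      simpa using this
    · simp only [Matrix.sub_apply]; simp
    · simp only [Matrix.sub_apply]; simpa using hvmem
  · simp only [mul_apply_two, of_two_00, of_two_01, of_two_10]
    linear_combination (-(N₀ 0 0)) * huinv
  · simp only [mul_apply_two, of_two_00, of_two_10, of_two_11]
    linear_combination huinv

omit [IsLocalRing A] in
/-- The polynomial identity behind step 2. -/
lemma conj_entry_identity (N₀ N₁ : Matrix (Fin 2) (Fin 2) A)
    (h0 : N₀ 0 0 = 0) (h1 : N₀ 1 0 = 1) (b t : A) (i₀ j₀ : Fin 2) :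
    (!![1, b * N₀ 0 1; b, 1 + b * N₀ 1 1] * N₁ * !![1 + b * N₀ 1 1, -(b * N₀ 0 1); -b, 1]) i₀ j₀
      - t * (1 + b * N₀ 1 1 - b ^ 2 * N₀ 0 1) =
    (N₁ i₀ j₀ - t) + ((N₀ * N₁ - N₁ * N₀) i₀ j₀ + N₀ 1 1 * (N₁ i₀ j₀ - t)) * b
      + ((N₀ * N₁ * !![N₀ 1 1, -(N₀ 0 1); -1, 0]) i₀ j₀ + t * N₀ 0 1) * b ^ 2 := by
  fin_cases i₀ <;> fin_cases j₀ <;>
    simp only [Fin.zero_eta, Fin.mk_one, Fin.isValue, mul_apply_two, Matrix.sub_apply, of_two_00,
      of_two_01, of_two_10, of_two_11, h0, h1] <;>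
    ring

/-- Step 2 of rigidification: keeping `N₀` (in companion form) fixed, conjugate `N₁` so that a
prescribed entry takes a prescribed value. -/
theorem exists_conj_entry_of_root
    (hq : ∀ F0 F1 F2 : A, F0 ∈ maximalIdeal A → IsUnit F1 →
      ∃ b ∈ maximalIdeal A, F0 + F1 * b + F2 * b ^ 2 = 0)
    (N₀ N₁ : Matrix (Fin 2) (Fin 2) A)
    (h0 : N₀ 0 0 = 0) (h1 : N₀ 1 0 = 1) (i₀ j₀ : Fin 2)
    (hu : IsUnit ((N₀ * N₁ - N₁ * N₀) i₀ j₀)) (t : A) (ht : t - N₁ i₀ j₀ ∈ maximalIdeal A) :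
    ∃ c c' : Matrix (Fin 2) (Fin 2) A, c * c' = 1 ∧ c' * c = 1 ∧
      (∀ i j, (c - 1) i j ∈ maximalIdeal A) ∧ (∀ i j, (c' - 1) i j ∈ maximalIdeal A) ∧
      c * N₀ * c' = N₀ ∧ (c * N₁ * c') i₀ j₀ = t := by
  have hF0 : N₁ i₀ j₀ - t ∈ maximalIdeal A := by
    have := (maximalIdeal A).neg_mem ht
    simpa using this
  have hF1 : IsUnit ((N₀ * N₁ - N₁ * N₀) i₀ j₀ + N₀ 1 1 * (N₁ i₀ j₀ - t)) :=
    isUnit_add_of_mem_maximalIdeal hu ((maximalIdeal A).mul_mem_left _ hF0)
  obtain ⟨b, hb, hroot⟩ := hq (N₁ i₀ j₀ - t) _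
    ((N₀ * N₁ * !![N₀ 1 1, -(N₀ 0 1); -1, 0]) i₀ j₀ + t * N₀ 0 1) hF0 hF1
  have hid := conj_entry_identity N₀ N₁ h0 h1 b t i₀ j₀
  set p := N₀ 0 1 with hp
  set q := N₀ 1 1 with hq
  set δ := 1 + b * q - b ^ 2 * p with hδ
  have hδmem : b * q - b ^ 2 * p ∈ maximalIdeal A :=
    (maximalIdeal A).sub_mem ((maximalIdeal A).mul_mem_right _ hb)
      ((maximalIdeal A).mul_mem_right _ ((maximalIdeal A).pow_mem_of_mem hb 2 (by norm_num)))
  have hδu : IsUnit δ := by
    have := isUnit_add_of_mem_maximalIdeal (isUnit_one (M := A)) hδmem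
    have e : δ = 1 + (b * q - b ^ 2 * p) := by rw [hδ]; ring
    rw [e]; exact this
  obtain ⟨u, hu'⟩ := hδu
  have hw : δ * (↑u⁻¹ : A) = 1 := by rw [← hu']; exact u.mul_inv
  generalize (↑u⁻¹ : A) = w at hw
  have hwmem : w - 1 ∈ maximalIdeal A := by
    have e : w - 1 = -w * (b * q - b ^ 2 * p) := by
      rw [hδ] at hw; linear_combination hw
    rw [e]
    exact (maximalIdeal A).mul_mem_left _ hδmem
  have hentry : (!![1, b * p; b, 1 + b * q] * N₁ * !![1 + b * q, -(b * p); -b, 1]) i₀ j₀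
      = t * δ := by
    have h2 : (N₁ i₀ j₀ - t) + ((N₀ * N₁ - N₁ * N₀) i₀ j₀ + q * (N₁ i₀ j₀ - t)) * b
      + ((N₀ * N₁ * !![q, -p; -1, 0]) i₀ j₀ + t * p) * b ^ 2 = 0 := by
      linear_combination hroot
    rw [h2] at hid
    exact sub_eq_zero.mp hid
  have hN₀ : N₀ = !![0, p; 1, q] := by
    rw [Matrix.eta_fin_two N₀, h0, h1]
  refine ⟨!![1, b * p; b, 1 + b * q], w • !![1 + b * q, -(b * p); -b, 1], ?_, ?_, ?_, ?_, ?_, ?_⟩
  · rw [Matrix.mul_smul]
    ext i j
    fin_cases i <;> fin_cases j <;>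
      simp only [Fin.zero_eta, Fin.mk_one, Fin.isValue, Matrix.smul_apply, mul_apply_two,
        of_two_00, of_two_01, of_two_10, of_two_11, smul_eq_mul, Matrix.one_apply_eq,
        Matrix.one_apply_ne, ne_eq, one_ne_zero, zero_ne_one, not_false_eq_true]
    · rw [hδ] at hw; linear_combination hw
    · ring
    · ring
    · rw [hδ] at hw; linear_combination hw
  · rw [Matrix.smul_mul]
    ext i j
    fin_cases i <;> fin_cases j <;>
      simp only [Fin.zero_eta, Fin.mk_one, Fin.isValue, Matrix.smul_apply, mul_apply_two,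
        of_two_00, of_two_01, of_two_10, of_two_11, smul_eq_mul, Matrix.one_apply_eq,
        Matrix.one_apply_ne, ne_eq, one_ne_zero, zero_ne_one, not_false_eq_true]
    · rw [hδ] at hw; linear_combination hw
    · ring
    · ring
    · rw [hδ] at hw; linear_combination hw
  · intro i j
    fin_cases i <;> fin_cases j <;>
      simp only [Fin.zero_eta, Fin.mk_one, Fin.isValue, Matrix.sub_apply, of_two_00, of_two_01,
        of_two_10, of_two_11, Matrix.one_apply_eq, Matrix.one_apply_ne, ne_eq, one_ne_zero,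
        zero_ne_one, not_false_eq_true, sub_self, sub_zero, add_sub_cancel_left]
    · exact zero_mem _
    · exact (maximalIdeal A).mul_mem_right _ hb
    · exact hb
    · exact (maximalIdeal A).mul_mem_right _ hb
  · intro i j
    have hbq : b * q ∈ maximalIdeal A := (maximalIdeal A).mul_mem_right _ hb
    have hbp : b * p ∈ maximalIdeal A := (maximalIdeal A).mul_mem_right _ hb
    fin_cases i <;> fin_cases j <;>
      simp only [Fin.zero_eta, Fin.mk_one, Fin.isValue, Matrix.sub_apply, Matrix.smul_apply,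
        of_two_00, of_two_01, of_two_10, of_two_11, Matrix.one_apply_eq, Matrix.one_apply_ne,
        ne_eq, one_ne_zero, zero_ne_one, not_false_eq_true, sub_zero, smul_eq_mul]
    · have e : w * (1 + b * q) - 1 = (w - 1) + w * (b * q) := by ring
      rw [e]
      exact (maximalIdeal A).add_mem hwmem ((maximalIdeal A).mul_mem_left _ hbq)
    · exact (maximalIdeal A).mul_mem_left _ ((maximalIdeal A).neg_mem hbp)
    · exact (maximalIdeal A).mul_mem_left _ ((maximalIdeal A).neg_mem hb)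
    · simpa using hwmem
  · rw [Matrix.mul_smul, hN₀]
    ext i j
    fin_cases i <;> fin_cases j <;>
      simp only [Fin.zero_eta, Fin.mk_one, Fin.isValue, Matrix.smul_apply, mul_apply_two,
        of_two_00, of_two_01, of_two_10, of_two_11, smul_eq_mul]
    · rw [hδ] at hw; linear_combination (0 : A) * hw
    · rw [hδ] at hw; linear_combination p * hw
    · rw [hδ] at hw; linear_combination hw
    · rw [hδ] at hw; linear_combination q * hw
  · rw [Matrix.mul_smul, Matrix.smul_apply, hentry, smul_eq_mul]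
    linear_combination t * hw

/-- Existence of rigid representatives over a local ring in which quadratics with
`F0 ∈ 𝔪`, `F1` a unit have a root in `𝔪` (e.g. finite or complete local rings). -/
theorem exists_rigid_conj_mat_of_root
    (hq : ∀ F0 F1 F2 : A, F0 ∈ maximalIdeal A → IsUnit F1 →
      ∃ b ∈ maximalIdeal A, F0 + F1 * b + F2 * b ^ 2 = 0)
    (N₀ N₁ : Matrix (Fin 2) (Fin 2) A)
    (h0 : N₀ 0 0 ∈ maximalIdeal A) (h1 : N₀ 1 0 - 1 ∈ maximalIdeal A) (i₀ j₀ : Fin 2)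
    (hu : IsUnit ((N₀ * N₁ - N₁ * N₀) i₀ j₀)) (t : A) (ht : t - N₁ i₀ j₀ ∈ maximalIdeal A) :
    ∃ g g' : Matrix (Fin 2) (Fin 2) A, g * g' = 1 ∧ g' * g = 1 ∧
      (∀ i j, (g - 1) i j ∈ maximalIdeal A) ∧ (∀ i j, (g' - 1) i j ∈ maximalIdeal A) ∧
      (g * N₀ * g') 0 0 = 0 ∧ (g * N₀ * g') 1 0 = 1 ∧ (g * N₁ * g') i₀ j₀ = t := by
  obtain ⟨h, h', hh', h'h, hh1, hh'1, e0, e1⟩ := exists_conj_companion N₀ h0 h1
  have hK : (h' * N₀ * h) * (h' * N₁ * h) - (h' * N₁ * h) * (h' * N₀ * h)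
      = h' * (N₀ * N₁ - N₁ * N₀) * h := by
    have a1 : (h' * N₀ * h) * (h' * N₁ * h) = h' * N₀ * (h * h') * N₁ * h := by
      simp only [mul_assoc]
    have a2 : (h' * N₁ * h) * (h' * N₀ * h) = h' * N₁ * (h * h') * N₀ * h := by
      simp only [mul_assoc]
    rw [a1, a2, hh', mul_one, mul_one, mul_sub, sub_mul, mul_assoc h' N₀ N₁, mul_assoc h' N₁ N₀]
  have hu' : IsUnit (((h' * N₀ * h) * (h' * N₁ * h) - (h' * N₁ * h) * (h' * N₀ * h)) i₀ j₀) := by
    rw [hK]
    have hm := conj_sub_mem (maximalIdeal A) h' h (N₀ * N₁ - N₁ * N₀) hh'1 hh1 i₀ j₀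
    have := isUnit_add_of_mem_maximalIdeal hu hm
    simpa using this
  have ht' : t - (h' * N₁ * h) i₀ j₀ ∈ maximalIdeal A := by
    have hm := conj_sub_mem (maximalIdeal A) h' h N₁ hh'1 hh1 i₀ j₀
    have := (maximalIdeal A).sub_mem ht hm
    have e : t - (h' * N₁ * h) i₀ j₀ = t - N₁ i₀ j₀ - ((h' * N₁ * h) i₀ j₀ - N₁ i₀ j₀) := by ring
    rw [e]; exact this
  obtain ⟨c, c', cc', c'c, hc1, hc'1, hcN₀, hcN₁⟩ :=
    exists_conj_entry_of_root hq (h' * N₀ * h) (h' * N₁ * h) e0 e1 i₀ j₀ hu' t ht'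
  refine ⟨c * h', h * c', ?_, ?_, ?_, ?_, ?_, ?_, ?_⟩
  · calc c * h' * (h * c') = c * (h' * h) * c' := by simp only [mul_assoc]
      _ = 1 := by rw [h'h, mul_one, cc']
  · calc h * c' * (c * h') = h * (c' * c) * h' := by simp only [mul_assoc]
      _ = 1 := by rw [c'c, mul_one, hh']
  · exact mul_sub_one_mem _ c h' hc1 hh'1
  · exact mul_sub_one_mem _ h c' hh1 hc'1
  · have : c * h' * N₀ * (h * c') = c * (h' * N₀ * h) * c' := by simp only [mul_assoc]
    rw [this, hcN₀, e0]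
  · have : c * h' * N₀ * (h * c') = c * (h' * N₀ * h) * c' := by simp only [mul_assoc]
    rw [this, hcN₀, e1]
  · have : c * h' * N₁ * (h * c') = c * (h' * N₁ * h) * c' := by simp only [mul_assoc]
    rw [this, hcN₁]

/-- Step 2 of rigidification over a finite local ring. -/
theorem exists_conj_entry [Finite A] (N₀ N₁ : Matrix (Fin 2) (Fin 2) A)
    (h0 : N₀ 0 0 = 0) (h1 : N₀ 1 0 = 1) (i₀ j₀ : Fin 2)
    (hu : IsUnit ((N₀ * N₁ - N₁ * N₀) i₀ j₀)) (t : A) (ht : t - N₁ i₀ j₀ ∈ maximalIdeal A) :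
    ∃ c c' : Matrix (Fin 2) (Fin 2) A, c * c' = 1 ∧ c' * c = 1 ∧
      (∀ i j, (c - 1) i j ∈ maximalIdeal A) ∧ (∀ i j, (c' - 1) i j ∈ maximalIdeal A) ∧
      c * N₀ * c' = N₀ ∧ (c * N₁ * c') i₀ j₀ = t :=
  exists_conj_entry_of_root exists_root_quadratic_of_finite N₀ N₁ h0 h1 i₀ j₀ hu t ht

/-- Existence of rigid representatives over a finite local ring. -/
theorem exists_rigid_conj_mat [Finite A] (N₀ N₁ : Matrix (Fin 2) (Fin 2) A)
    (h0 : N₀ 0 0 ∈ maximalIdeal A) (h1 : N₀ 1 0 - 1 ∈ maximalIdeal A) (i₀ j₀ : Fin 2)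
    (hu : IsUnit ((N₀ * N₁ - N₁ * N₀) i₀ j₀)) (t : A) (ht : t - N₁ i₀ j₀ ∈ maximalIdeal A) :
    ∃ g g' : Matrix (Fin 2) (Fin 2) A, g * g' = 1 ∧ g' * g = 1 ∧
      (∀ i j, (g - 1) i j ∈ maximalIdeal A) ∧ (∀ i j, (g' - 1) i j ∈ maximalIdeal A) ∧
      (g * N₀ * g') 0 0 = 0 ∧ (g * N₀ * g') 1 0 = 1 ∧ (g * N₁ * g') i₀ j₀ = t :=
  exists_rigid_conj_mat_of_root exists_root_quadratic_of_finite N₀ N₁ h0 h1 i₀ j₀ hu t ht

end Exist

end Fermat.Agent.S53
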