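import Mathlib
import Fermat.Agent.S53.Core
import Fermat.Agent.S53.Residual
import Fermat.Agent.S53.Rigid2
import Fermat.Agent.S53.FrameData
import Fermat.Agent.S53.TestAlg
import Fermat.Agent.S53.Hensel

/-!
# S53: rigidification (companion normal form)

* `exists_frame`: an absolutely irreducible `ρbar` admits a `Frame`.
* `isStrict_iff_residue`: strictness in terms of residues (bridge to `Residual.lean`).
* `conjMat`: conjugation of a matrix representation by an invertible matrix.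
* `rigid_conj_unique`: conjugate rigid strict lifts are equal (uniqueness).
* `exists_rigid_conj`: over a complete local algebra every strict lift is conjugate to a
  rigid strict lift (existence).
* `exists_rigidLift_of_isEquiv`: over an Artinian test algebra every deformation of type `𝒟` is
  equivalent to (the representation of) a rigid lift.
-/

set_option autoImplicit false
set_option linter.unusedSectionVars false

noncomputable section

namespace Fermat.Agent.S53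

open IsLocalRing

section FrameExists

variable {𝒪 : Type} [CommRing 𝒪] [IsLocalRing 𝒪]

/-- An absolutely irreducible residual representation admits a frame. -/
theorem exists_frame (ρbar : ResidualGaloisRep (ResidueField 𝒪))
    (habs : ρbar.IsAbsolutelyIrreducible) : Nonempty (Frame 𝒪 ρbar) := by
  classical
  obtain ⟨b, g₁, g₂, i₀, j₀, h00, h10, hcomm⟩ := exists_frameData ρbar habs
  have hsurj : Function.Surjective (residue 𝒪) := IsLocalRing.residue_surjective
  let lift : GQ → M2 𝒪 := fun σ => Matrix.of fun i j =>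
    if σ = g₁ ∧ j = 0 then (if i = 0 then (0 : 𝒪) else 1)
    else Function.surjInv hsurj (LinearMap.toMatrix b b (ρbar.ρ σ) i j)
  have hres : ∀ σ i j, residue 𝒪 (lift σ i j) = LinearMap.toMatrix b b (ρbar.ρ σ) i j := by
    intro σ i j
    show residue 𝒪 (if σ = g₁ ∧ j = 0 then (if i = 0 then (0 : 𝒪) else 1)
      else Function.surjInv hsurj (LinearMap.toMatrix b b (ρbar.ρ σ) i j)) = _
    split_ifs with h1 h2
    · obtain ⟨rfl, rfl⟩ := h1
      rw [h2, map_zero, h00]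
    · obtain ⟨rfl, rfl⟩ := h1
      have hi : i = 1 := by
        fin_cases i
        · exact absurd rfl h2
        · rfl
      rw [hi, map_one, h10]
    · exact Function.surjInv_eq hsurj _
  have hl00 : lift g₁ 0 0 = 0 := by
    show (if g₁ = g₁ ∧ (0 : Fin 2) = 0 then (if (0 : Fin 2) = 0 then (0 : 𝒪) else 1)
      else _) = 0
    simp
  have hl10 : lift g₁ 1 0 = 1 := by
    show (if g₁ = g₁ ∧ (0 : Fin 2) = 0 then (if (1 : Fin 2) = 0 then (0 : 𝒪) else 1)
      else _) = 1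
    simp
  refine ⟨{ b := b, lift := lift, residue_lift := hres, g₁ := g₁, g₂ := g₂, i₀ := i₀, j₀ := j₀,
            lift_g₁_00 := hl00, lift_g₁_10 := hl10, comm_unit := ?_ }⟩
  have hne : residue 𝒪 ((lift g₁ * lift g₂ - lift g₂ * lift g₁) i₀ j₀) ≠ 0 := by
    have e : residue 𝒪 ((lift g₁ * lift g₂ - lift g₂ * lift g₁) i₀ j₀) =
        (LinearMap.toMatrix b b (ρbar.ρ g₁) * LinearMap.toMatrix b b (ρbar.ρ g₂) -
          LinearMap.toMatrix b b (ρbar.ρ g₂) * LinearMap.toMatrix b b (ρbar.ρ g₁)) i₀ j₀ := by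
      simp only [Matrix.sub_apply, mul_apply_two, map_sub, map_add, map_mul, hres]
    rw [e]
    exact hcomm
  by_contra hnu
  exact hne ((IsLocalRing.residue_eq_zero_iff _).mpr ((IsLocalRing.mem_maximalIdeal _).mpr hnu))

end FrameExists

section Strict

variable {𝒪 : Type} [CommRing 𝒪] [IsLocalRing 𝒪] {ρbar : ResidualGaloisRep (ResidueField 𝒪)}
  {A : Type} [CommRing A] [IsLocalRing A] [Algebra 𝒪 A]

/-- Strictness in terms of residues. -/
theorem isStrict_iff_residue [IsLocalHom (algebraMap 𝒪 A)] (F : Frame 𝒪 ρbar) (M : GQ →* M2 A) :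
    IsStrict F M ↔ ∀ σ i j, residue A (M σ i j) =
      ResidueField.map (algebraMap 𝒪 A) (resMatrixHom ρbar F.b σ i j) := by
  have key : ∀ σ i j, ResidueField.map (algebraMap 𝒪 A) (resMatrixHom ρbar F.b σ i j) =
      residue A (algebraMap 𝒪 A (F.lift σ i j)) := by
    intro σ i j
    rw [resMatrixHom_apply, ← F.residue_lift σ i j]
    rfl
  constructor
  · intro h σ i j
    rw [key, ← sub_eq_zero, ← map_sub]
    exact (residue_eq_zero_iff _).mpr (h σ i j)
  · intro h σ i j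
    rw [← residue_eq_zero_iff, map_sub, sub_eq_zero, ← key]
    exact h σ i j

/-- Strict lifts have `M g₁ 0 0` in the maximal ideal. -/
theorem IsStrict.g₁_00_mem {F : Frame 𝒪 ρbar} {M : GQ →* M2 A} (h : IsStrict F M) :
    M F.g₁ 0 0 ∈ maximalIdeal A := by
  have := h F.g₁ 0 0
  rwa [F.lift_g₁_00, map_zero, sub_zero] at this

/-- Strict lifts have `M g₁ 1 0 - 1` in the maximal ideal. -/
theorem IsStrict.g₁_10_mem {F : Frame 𝒪 ρbar} {M : GQ →* M2 A} (h : IsStrict F M) :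
    M F.g₁ 1 0 - 1 ∈ maximalIdeal A := by
  have := h F.g₁ 1 0
  rwa [F.lift_g₁_10, map_one] at this

/-- Entrywise congruence of products. -/
theorem mul_sub_mul_mem (I : Ideal A) (X Y X' Y' : M2 A) (hX : ∀ i j, X i j - X' i j ∈ I)
    (hY : ∀ i j, Y i j - Y' i j ∈ I) (i j : Fin 2) : (X * Y) i j - (X' * Y') i j ∈ I := by
  rw [mul_apply_two, mul_apply_two]
  have e : X i 0 * Y 0 j + X i 1 * Y 1 j - (X' i 0 * Y' 0 j + X' i 1 * Y' 1 j) =
      (X i 0 - X' i 0) * Y 0 j + X' i 0 * (Y 0 j - Y' 0 j) +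
        ((X i 1 - X' i 1) * Y 1 j + X' i 1 * (Y 1 j - Y' 1 j)) := by ring
  rw [e]
  exact I.add_mem (I.add_mem (I.mul_mem_right _ (hX _ _)) (I.mul_mem_left _ (hY _ _)))
    (I.add_mem (I.mul_mem_right _ (hX _ _)) (I.mul_mem_left _ (hY _ _)))

/-- For strict lifts `M`, `M'` the mixed commutator entry is a unit. -/
theorem IsStrict.comm_isUnit {F : Frame 𝒪 ρbar} {M M' M'' M''' : GQ →* M2 A}
    (h : IsStrict F M) (h' : IsStrict F M') (h'' : IsStrict F M'') (h''' : IsStrict F M''') :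
    IsUnit ((M F.g₁ * M' F.g₂ - M'' F.g₂ * M''' F.g₁) F.i₀ F.j₀) := by
  have hu : IsUnit (algebraMap 𝒪 A ((F.lift F.g₁ * F.lift F.g₂ - F.lift F.g₂ * F.lift F.g₁)
      F.i₀ F.j₀)) := F.comm_unit.map _
  have hL : ∀ σ : GQ, ∀ i j, (algebraMap 𝒪 A).mapMatrix (F.lift σ) i j =
      algebraMap 𝒪 A (F.lift σ i j) := fun _ _ _ => rfl
  have e : algebraMap 𝒪 A ((F.lift F.g₁ * F.lift F.g₂ - F.lift F.g₂ * F.lift F.g₁) F.i₀ F.j₀) =
      ((algebraMap 𝒪 A).mapMatrix (F.lift F.g₁) * (algebraMap 𝒪 A).mapMatrix (F.lift F.g₂) -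
        (algebraMap 𝒪 A).mapMatrix (F.lift F.g₂) * (algebraMap 𝒪 A).mapMatrix (F.lift F.g₁))
          F.i₀ F.j₀ := by
    rw [← map_mul, ← map_mul, ← map_sub]
    rfl
  rw [e] at hu
  have hm : (M F.g₁ * M' F.g₂ - M'' F.g₂ * M''' F.g₁) F.i₀ F.j₀ -
      ((algebraMap 𝒪 A).mapMatrix (F.lift F.g₁) * (algebraMap 𝒪 A).mapMatrix (F.lift F.g₂) -
        (algebraMap 𝒪 A).mapMatrix (F.lift F.g₂) * (algebraMap 𝒪 A).mapMatrix (F.lift F.g₁))
          F.i₀ F.j₀ ∈ maximalIdeal A := by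
    have h1 := mul_sub_mul_mem (maximalIdeal A) (M F.g₁) (M' F.g₂)
      ((algebraMap 𝒪 A).mapMatrix (F.lift F.g₁)) ((algebraMap 𝒪 A).mapMatrix (F.lift F.g₂))
      (fun i j => h F.g₁ i j) (fun i j => h' F.g₂ i j) F.i₀ F.j₀
    have h2 := mul_sub_mul_mem (maximalIdeal A) (M'' F.g₂) (M''' F.g₁)
      ((algebraMap 𝒪 A).mapMatrix (F.lift F.g₂)) ((algebraMap 𝒪 A).mapMatrix (F.lift F.g₁))
      (fun i j => h'' F.g₂ i j) (fun i j => h''' F.g₁ i j) F.i₀ F.j₀
    have := (maximalIdeal A).sub_mem h1 h2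
    simp only [Matrix.sub_apply] at this ⊢
    convert this using 1
    ring
  have := isUnit_add_of_mem_maximalIdeal hu hm
  simpa using this

end Strict

section Conj

variable {A : Type} [CommRing A] [IsLocalRing A]

/-- Conjugation of a matrix representation by an invertible matrix. -/
def conjMat (g : (M2 A)ˣ) (M : GQ →* M2 A) : GQ →* M2 A where
  toFun σ := (g : M2 A) * M σ * (↑g⁻¹ : M2 A)
  map_one' := by simp
  map_mul' σ τ := by
    rw [map_mul]
    have h : (↑g⁻¹ : M2 A) * (g : M2 A) = 1 := g.inv_mul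
    calc (g : M2 A) * (M σ * M τ) * ↑g⁻¹
        = (g : M2 A) * M σ * 1 * M τ * ↑g⁻¹ := by simp only [mul_one, mul_assoc]
      _ = (g : M2 A) * M σ * ↑g⁻¹ * ((g : M2 A) * M τ * ↑g⁻¹) := by
          rw [← h]; simp only [mul_assoc]

@[simp] theorem conjMat_apply (g : (M2 A)ˣ) (M : GQ →* M2 A) (σ : GQ) :
    conjMat g M σ = (g : M2 A) * M σ * (↑g⁻¹ : M2 A) := rfl

theorem conjMat_intertwine (g : (M2 A)ˣ) (M : GQ →* M2 A) (σ : GQ) :
    (g : M2 A) * M σ = conjMat g M σ * g := by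
  rw [conjMat_apply, mul_assoc, Units.inv_mul, mul_one]

/-- Entries of `X * Y * Z` lie in an ideal containing the entries of `Y`. -/
theorem mul_mul_mem_of_mem (I : Ideal A) (X Y Z : M2 A) (hY : ∀ i j, Y i j ∈ I) (i j : Fin 2) :
    (X * Y * Z) i j ∈ I := by
  rw [mul_apply_two, mul_apply_two, mul_apply_two]
  exact I.add_mem
    (I.mul_mem_right _ (I.add_mem (I.mul_mem_left _ (hY _ _)) (I.mul_mem_left _ (hY _ _))))
    (I.mul_mem_right _ (I.add_mem (I.mul_mem_left _ (hY _ _)) (I.mul_mem_left _ (hY _ _))))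

theorem MatCont.conj {M : GQ →* M2 A} (hM : MatCont M) (g : (M2 A)ˣ) : MatCont (conjMat g M) := by
  intro n
  obtain ⟨L, hL, h⟩ := hM n
  refine ⟨L, hL, fun σ hσ i j => ?_⟩
  have e : conjMat g M σ - 1 = (g : M2 A) * (M σ - 1) * (↑g⁻¹ : M2 A) := by
    rw [conjMat_apply, mul_sub, sub_mul, mul_one, Units.mul_inv]
  rw [e]
  exact mul_mul_mem_of_mem _ _ _ _ (h σ hσ) i j

end Conj

section Uniqueness

variable {𝒪 : Type} [CommRing 𝒪] [IsLocalRing 𝒪] {ρbar : ResidualGaloisRep (ResidueField 𝒪)}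
  {A : Type} [CommRing A] [IsLocalRing A] [Algebra 𝒪 A]

/-- An invertible matrix intertwining two rigid strict lifts is a unit scalar. -/
theorem scalar_of_intertwine {F : Frame 𝒪 ρbar} {M M' : GQ →* M2 A}
    (hs : IsStrict F M) (hr : IsRigid F M) (hs' : IsStrict F M') (hr' : IsRigid F M')
    (g : (M2 A)ˣ) (hg : ∀ σ, (g : M2 A) * M σ = M' σ * g) :
    ∃ a : A, IsUnit a ∧ (g : M2 A) = a • (1 : M2 A) :=
  scalar_of_rigid (g : M2 A) (↑g⁻¹ : M2 A) (M F.g₁) (M F.g₂) (M' F.g₁) (M' F.g₂) g.mul_inv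
    hr.n00 hr.n10 hr'.n00 hr'.n10 (hg F.g₁) (hg F.g₂) F.i₀ F.j₀ (hr.n2.trans hr'.n2.symm)
    (IsStrict.comm_isUnit hs' hs hs' hs')

/-- Uniqueness of rigid representatives: conjugate rigid strict lifts are equal. -/
theorem rigid_conj_unique (F : Frame 𝒪 ρbar) {M M' : GQ →* M2 A}
    (hs : IsStrict F M) (hr : IsRigid F M) (hs' : IsStrict F M') (hr' : IsRigid F M')
    (g : (M2 A)ˣ) (hg : ∀ σ, (g : M2 A) * M σ = M' σ * g) : M = M' := by
  obtain ⟨a, ha, hga⟩ := scalar_of_intertwine hs hr hs' hr' g hg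
  ext σ : 1
  have := hg σ
  rw [hga] at this
  exact eq_of_scalar_conj ha _ _ this

/-- Schur's lemma for rigid strict lifts: the centraliser consists of scalars. -/
theorem scalar_of_commute {F : Frame 𝒪 ρbar} {M : GQ →* M2 A}
    (hs : IsStrict F M) (hr : IsRigid F M)
    (g : (M2 A)ˣ) (hg : ∀ σ, (g : M2 A) * M σ = M σ * g) :
    ∃ a : A, IsUnit a ∧ (g : M2 A) = a • (1 : M2 A) :=
  scalar_of_intertwine hs hr hs hr g hg

end Uniqueness

section Existence

variable {𝒪 : Type} [CommRing 𝒪] [IsLocalRing 𝒪] {ρbar : ResidualGaloisRep (ResidueField 𝒪)}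
  {A : Type} [CommRing A] [IsLocalRing A] [Algebra 𝒪 A]

/-- Existence of rigid representatives, matrix form with congruence: over a complete local
algebra every strict lift is conjugate, by a matrix congruent to `1`, to a rigid strict lift. -/
theorem exists_rigid_conj_of_strict [IsAdicComplete (maximalIdeal A) A] {F : Frame 𝒪 ρbar}
    {M : GQ →* M2 A} (hs : IsStrict F M) :
    ∃ g : (M2 A)ˣ, (∀ i j, ((g : M2 A) - 1) i j ∈ maximalIdeal A) ∧
      IsStrict F (conjMat g M) ∧ IsRigid F (conjMat g M) := by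
  obtain ⟨g, g', hgg', hg'g, hg1, hg'1, e00, e10, e2⟩ :=
    exists_rigid_conj_mat_of_root (fun F0 F1 F2 h0 h1 => exists_root_quadratic F0 F1 F2 h0 h1)
      (M F.g₁) (M F.g₂) hs.g₁_00_mem hs.g₁_10_mem F.i₀ F.j₀
      (IsStrict.comm_isUnit hs hs hs hs) (algebraMap 𝒪 A (F.lift F.g₂ F.i₀ F.j₀))
      (by
        have := (maximalIdeal A).neg_mem (hs F.g₂ F.i₀ F.j₀)
        simpa using this)
  refine ⟨⟨g, g', hgg', hg'g⟩, hg1, ?_, ⟨e00, e10, e2⟩⟩
  intro σ i j
  have h1 := conj_sub_mem (maximalIdeal A) g g' (M σ) hg1 hg'1 i j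
  have h2 := hs σ i j
  have := (maximalIdeal A).add_mem h1 h2
  have e0 : (conjMat ⟨g, g', hgg', hg'g⟩ M) σ i j = (g * M σ * g') i j := rfl
  have e : (conjMat ⟨g, g', hgg', hg'g⟩ M) σ i j - algebraMap 𝒪 A (F.lift σ i j) =
      (g * M σ * g') i j - M σ i j + (M σ i j - algebraMap 𝒪 A (F.lift σ i j)) := by
    rw [e0]
    ring
  rw [e]
  exact this

/-- Existence of rigid representatives (blueprint form): over a complete local algebra every
strict lift is conjugate to a rigid strict lift. -/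
theorem exists_rigid_conj (F : Frame 𝒪 ρbar) [IsAdicComplete (maximalIdeal A) A]
    {M : GQ →* M2 A} (hM : MatCont M) (hs : IsStrict F M) :
    ∃ (M' : GQ →* M2 A) (g : (M2 A)ˣ), (∀ σ, (g : M2 A) * M σ = M' σ * g) ∧
      MatCont M' ∧ IsStrict F M' ∧ IsRigid F M' := by
  obtain ⟨g, -, hs', hr'⟩ := exists_rigid_conj_of_strict (F := F) hs
  exact ⟨conjMat g M, g, conjMat_intertwine g M, hM.conj g, hs', hr'⟩

variable {𝒟 : ∀ ⦃A : Type⦄ [CommRing A] [IsLocalRing A] [Algebra 𝒪 A], GaloisRepAdic A → Prop}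

/-- Over an Artinian test algebra every strict lift of type `𝒟` is conjugate to a rigid lift. -/
theorem exists_rigidLift_of_strict [Finite (ResidueField 𝒪)]
    (h𝒟 : GaloisRep.IsDeformationCondition 𝒪 𝒟) (hA : GaloisRep.IsArtinianTestAlgebra 𝒪 A)
    {F : Frame 𝒪 ρbar} {M : GQ →* M2 A} (hM : MatCont M) (hs : IsStrict F M)
    (hD : 𝒟 (ofMatrix M hM)) :
    ∃ (r : RigidLift A F 𝒟) (g : (M2 A)ˣ), (∀ i j, ((g : M2 A) - 1) i j ∈ maximalIdeal A) ∧
      r.M = conjMat g M := by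
  have : IsArtinianRing A := hA.isArtinian
  obtain ⟨g, hg1, hs', hr'⟩ := exists_rigid_conj_of_strict (F := F) hs
  have hD' : 𝒟 (ofMatrix (conjMat g M) (hM.conj g)) :=
    h𝒟.of_isEquiv hA ⟨equivOfConj hM (hM.conj g) g (conjMat_intertwine g M)⟩ hD
  exact ⟨⟨conjMat g M, hM.conj g, hs', hr', hD'⟩, g, hg1, rfl⟩

/-- Over an Artinian test algebra every deformation of type `𝒟` is equivalent to the
representation of a rigid lift. -/
theorem exists_rigidLift_of_isEquiv [Finite (ResidueField 𝒪)]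
    (h𝒟 : GaloisRep.IsDeformationCondition 𝒪 𝒟) (hA : GaloisRep.IsArtinianTestAlgebra 𝒪 A)
    (F : Frame 𝒪 ρbar) (ρ : GaloisRepAdic A) (hD : 𝒟 ρ)
    (hres : haveI := hA.isLocalHom
      ρ.residual.IsEquiv (ρbar.baseChangeAlong (ResidueField.map (algebraMap 𝒪 A)))) :
    ∃ r : RigidLift A F 𝒟, ρ.IsEquiv r.rep := by
  have := hA.isLocalHom
  obtain ⟨b, hb⟩ := exists_basis_of_residual_isEquiv ρbar F.b
    (ResidueField.map (algebraMap 𝒪 A)) ρ hres
  have hM := matCont_toMatrixHom ρ b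
  have hs : IsStrict F (toMatrixHom ρ b) := (isStrict_iff_residue F _).mpr hb
  have hD1 : 𝒟 (ofMatrix (toMatrixHom ρ b) hM) := h𝒟.of_isEquiv hA ⟨equivOfMatrix ρ b⟩ hD
  obtain ⟨r, g, -, hr⟩ := exists_rigidLift_of_strict h𝒟 hA hM hs hD1
  refine ⟨r, ⟨(equivOfMatrix ρ b).trans ?_⟩⟩
  have : r.rep = ofMatrix (conjMat g (toMatrixHom ρ b)) (hM.conj g) := by
    unfold RigidLift.rep
    congr 1
  rw [this]
  exact equivOfConj hM (hM.conj g) g (conjMat_intertwine g _)

end Existence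

end Fermat.Agent.S53

end
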