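import Mathlib.RingTheory.AdicCompletion.Basic
import Mathlib.RingTheory.Ideal.Maps
import Mathlib.Data.Matrix.Basic
import Fermat.Agent.S53.MatrixModel

/-!
# Limits of compatible families over an adically complete ring

`R` is `I`-adically complete, `q n : R →+* A n` are surjections with kernel `I ^ n` and
`t n : A (n + 1) →+* A n` are the transition maps.  Compatible families of elements, of matrices
and of matrix valued monoid homomorphisms have unique limits in `R`.
-/

set_option autoImplicit false

namespace Fermat.Agent.S53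

universe u v w

/-- A presentation of the `I`-adic tower of `R`: surjections `q n : R → A n` with kernel `I ^ n`
and compatible transition maps. -/
structure IsAdicTower {R : Type u} [CommRing R] (I : Ideal R) (A : ℕ → Type v)
    [∀ n, CommRing (A n)] (q : ∀ n, R →+* A n) (t : ∀ n, A (n + 1) →+* A n) : Prop where
  surj : ∀ n, Function.Surjective (q n)
  ker : ∀ n, RingHom.ker (q n) = I ^ n
  comp : ∀ n, (t n).comp (q (n + 1)) = q n

/-- The standard tower `R ⧸ I ^ n`. -/
theorem isAdicTower_quotient {R : Type u} [CommRing R] (I : Ideal R) :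
    IsAdicTower I (fun n => R ⧸ I ^ n) (fun n => Ideal.Quotient.mk (I ^ n))
      (fun n => Ideal.Quotient.factor (Ideal.pow_le_pow_right n.le_succ)) where
  surj _ := Ideal.Quotient.mk_surjective
  ker _ := Ideal.mk_ker
  comp _ := RingHom.ext fun _ => rfl

namespace IsAdicTower

variable {R : Type u} [CommRing R] {I : Ideal R} {A : ℕ → Type v} [∀ n, CommRing (A n)]
  {q : ∀ n, R →+* A n} {t : ∀ n, A (n + 1) →+* A n}

theorem t_q (h : IsAdicTower I A q t) (n : ℕ) (x : R) : t n (q (n + 1) x) = q n x :=
  RingHom.congr_fun (h.comp n) x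

theorem q_eq_iff (h : IsAdicTower I A q t) (n : ℕ) (x y : R) :
    q n x = q n y ↔ x - y ∈ I ^ n := by
  rw [← h.ker n, RingHom.mem_ker, map_sub, sub_eq_zero]

/-- Two elements with the same images in all `A n` are equal. -/
theorem ext_of_forall_q [IsHausdorff I R] (h : IsAdicTower I A q t) {x y : R}
    (hxy : ∀ n, q n x = q n y) : x = y := by
  rw [← sub_eq_zero]
  refine IsHausdorff.haus (I := I) (M := R) inferInstance (x - y) fun n => ?_
  rw [SModEq.zero, smul_eq_mul, Ideal.mul_top]
  exact (h.q_eq_iff n x y).mp (hxy n)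

/-- (L0) A compatible family of elements has a limit. -/
theorem exists_limit [IsPrecomplete I R] (h : IsAdicTower I A q t) (a : ∀ n, A n)
    (ha : ∀ n, t n (a (n + 1)) = a n) : ∃ x : R, ∀ n, q n x = a n := by
  choose x hx using fun n => h.surj n (a n)
  have hstep : ∀ n, x (n + 1) - x n ∈ I ^ n := fun n => by
    rw [← h.q_eq_iff n, ← h.t_q n, hx, hx, ha]
  have hcauchy : ∀ {m n : ℕ}, m ≤ n → x m ≡ x n [SMOD (I ^ m • ⊤ : Submodule R R)] := by
    intro m n hmn
    induction n, hmn using Nat.le_induction with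
    | base => rfl
    | succ n hmn ih =>
      refine ih.trans ?_
      rw [SModEq.sub_mem, smul_eq_mul, Ideal.mul_top]
      have h' : x (n + 1) - x n ∈ I ^ m := Ideal.pow_le_pow_right hmn (hstep n)
      have : x n - x (n + 1) = -(x (n + 1) - x n) := by ring
      rw [this]
      exact (I ^ m).neg_mem h'
  obtain ⟨L, hL⟩ := IsPrecomplete.prec (I := I) (M := R) inferInstance (f := x) hcauchy
  refine ⟨L, fun n => ?_⟩
  rw [← hx n]
  refine ((h.q_eq_iff n _ _).mpr ?_).symm
  have := hL n
  rwa [SModEq.sub_mem, smul_eq_mul, Ideal.mul_top] at this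

/-- (L0) A compatible family of elements has a unique limit. -/
theorem existsUnique_limit [IsAdicComplete I R] (h : IsAdicTower I A q t) (a : ∀ n, A n)
    (ha : ∀ n, t n (a (n + 1)) = a n) : ∃! x : R, ∀ n, q n x = a n := by
  obtain ⟨x, hx⟩ := h.exists_limit a ha
  exact ⟨x, hx, fun y hy => h.ext_of_forall_q fun n => (hy n).trans (hx n).symm⟩

/-- Matrices with the same images in all `A n` are equal. -/
theorem matrix_ext_of_forall_q [IsHausdorff I R] (h : IsAdicTower I A q t)
    {ι κ : Type w} {X Y : Matrix ι κ R}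
    (hXY : ∀ n, X.map (q n) = Y.map (q n)) : X = Y := by
  ext i j
  refine h.ext_of_forall_q fun n => ?_
  have := congrFun (congrFun (hXY n) i) j
  simpa using this

/-- (L1) A compatible family of matrices has a unique limit. -/
theorem existsUnique_limit_matrix [IsAdicComplete I R] (h : IsAdicTower I A q t)
    {ι κ : Type w} (X : ∀ n, Matrix ι κ (A n))
    (hX : ∀ n, (X (n + 1)).map (t n) = X n) :
    ∃! Y : Matrix ι κ R, ∀ n, Y.map (q n) = X n := by
  have hex : ∀ i j, ∃ x : R, ∀ n, q n x = X n i j := fun i j =>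
    h.exists_limit (fun n => X n i j) fun n => by
      have := congrFun (congrFun (hX n) i) j
      simpa using this
  choose Y hY using hex
  refine ⟨Matrix.of Y, fun n => ?_, fun Z hZ => ?_⟩
  · ext i j
    simp [hY i j n]
  · refine h.matrix_ext_of_forall_q fun n => ?_
    rw [hZ n]
    ext i j
    simp [hY i j n]

/-- (L1) A compatible family of matrix valued monoid homomorphisms has a unique limit. -/
theorem existsUnique_limit_matHom [IsAdicComplete I R] (h : IsAdicTower I A q t)
    {G : Type*} [Monoid G] {ι : Type w} [Fintype ι] [DecidableEq ι]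
    (M : ∀ n, G →* Matrix ι ι (A n))
    (hM : ∀ n g, (M (n + 1) g).map (t n) = M n g) :
    ∃! N : G →* Matrix ι ι R, ∀ n g, (N g).map (q n) = M n g := by
  have hex : ∀ g, ∃! Y : Matrix ι ι R, ∀ n, Y.map (q n) = M n g := fun g =>
    h.existsUnique_limit_matrix (fun n => M n g) fun n => hM n g
  choose Y hY hYuniq using hex
  have hone : Y 1 = 1 := by
    refine h.matrix_ext_of_forall_q fun n => ?_
    rw [hY 1 n, map_one, Matrix.map_one (q n) (map_zero _) (map_one _)]
  have hmul : ∀ g g', Y (g * g') = Y g * Y g' := fun g g' => by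
    refine h.matrix_ext_of_forall_q fun n => ?_
    rw [hY (g * g') n, map_mul, Matrix.map_mul, hY g n, hY g' n]
  refine ⟨⟨⟨Y, hone⟩, hmul⟩, fun n g => hY g n, fun N hN => ?_⟩
  refine MonoidHom.ext fun g => ?_
  exact hYuniq g (N g) fun n => hN n g

/-- (L3) A compatible family of ring homomorphisms into the tower has a unique limit. -/
theorem existsUnique_limit_ringHom [IsAdicComplete I R] (h : IsAdicTower I A q t)
    {S : Type*} [Semiring S] (f : ∀ n, S →+* A n)
    (hf : ∀ n, (t n).comp (f (n + 1)) = f n) :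
    ∃! F : S →+* R, ∀ n, (q n).comp F = f n := by
  have hex : ∀ s, ∃! x : R, ∀ n, q n x = f n s := fun s =>
    h.existsUnique_limit (fun n => f n s) fun n => RingHom.congr_fun (hf n) s
  choose F hF hFuniq using hex
  refine ⟨⟨⟨⟨F, ?_⟩, ?_⟩, ?_, ?_⟩, fun n => RingHom.ext fun s => hF s n, fun F' hF' => ?_⟩
  · exact h.ext_of_forall_q fun n => by rw [hF 1 n, map_one, map_one]
  · exact fun a b => h.ext_of_forall_q fun n => by rw [hF (a * b) n, map_mul, map_mul, hF a n, hF b n]
  · exact h.ext_of_forall_q fun n => by rw [hF 0 n, map_zero, map_zero]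
  · exact fun a b => h.ext_of_forall_q fun n => by rw [hF (a + b) n, map_add, map_add, hF a n, hF b n]
  · refine RingHom.ext fun s => ?_
    exact hFuniq s (F' s) fun n => RingHom.congr_fun (hF' n) s

/-- (L3) A compatible family of algebra homomorphisms into the tower has a unique limit. -/
theorem existsUnique_limit_algHom [IsAdicComplete I R] (h : IsAdicTower I A q t)
    {𝒪 : Type*} [CommSemiring 𝒪] [Algebra 𝒪 R] [∀ n, Algebra 𝒪 (A n)]
    (hq : ∀ n (c : 𝒪), q n (algebraMap 𝒪 R c) = algebraMap 𝒪 (A n) c)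
    {S : Type*} [Semiring S] [Algebra 𝒪 S] (f : ∀ n, S →ₐ[𝒪] A n)
    (hf : ∀ n s, t n (f (n + 1) s) = f n s) :
    ∃! F : S →ₐ[𝒪] R, ∀ n s, q n (F s) = f n s := by
  obtain ⟨F, hF, hFuniq⟩ := h.existsUnique_limit_ringHom (fun n => (f n : S →+* A n))
    fun n => RingHom.ext fun s => hf n s
  have hF' : ∀ n s, q n (F s) = f n s := fun n s => RingHom.congr_fun (hF n) s
  refine ⟨{ F with commutes' := fun c => ?_ }, fun n s => hF' n s, fun F' hF'' => ?_⟩
  · refine h.ext_of_forall_q fun n => ?_
    show q n (F (algebraMap 𝒪 S c)) = _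
    rw [hF' n, hq n c, AlgHom.commutes]
  · have : (F' : S →+* R) = F := hFuniq _ fun n => RingHom.ext fun s => hF'' n s
    exact AlgHom.ext fun s => RingHom.congr_fun this s

end IsAdicTower

section Continuity

variable {R : Type} [CommRing R] [IsLocalRing R]

/-- (L2) If all reductions of `N` along an adic tower for the maximal ideal are trivial on the
absolute Galois group of some number field, then `N` is adically continuous. -/
theorem matCont_of_tower {A : ℕ → Type v} [∀ n, CommRing (A n)]
    {q : ∀ n, R →+* A n} {t : ∀ n, A (n + 1) →+* A n}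
    (h : IsAdicTower (IsLocalRing.maximalIdeal R) A q t)
    (N : GQ →* Matrix (Fin 2) (Fin 2) R)
    (hN : ∀ n, ∃ L : IntermediateField ℚ (AlgebraicClosure ℚ), FiniteDimensional ℚ L ∧
      ∀ σ : GQ, (∀ x ∈ L, σ x = x) → (N σ).map (q n) = 1) :
    MatCont N := by
  intro n
  obtain ⟨L, hL, hσ⟩ := hN n
  refine ⟨L, hL, fun σ hfix i j => ?_⟩
  rw [← h.ker n, RingHom.mem_ker]
  have h1 := congrFun (congrFun (hσ σ hfix) i) j
  simp only [Matrix.map_apply] at h1
  rw [Matrix.sub_apply, map_sub, h1, Matrix.one_apply, Matrix.one_apply]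
  split_ifs <;> simp

/-- Over a local ring with nilpotent maximal ideal, adic continuity is the same as being trivial
on the absolute Galois group of a number field. -/
theorem matCont_iff_of_nilpotent (hnil : IsNilpotent (IsLocalRing.maximalIdeal R))
    (M : GQ →* Matrix (Fin 2) (Fin 2) R) :
    MatCont M ↔ ∃ L : IntermediateField ℚ (AlgebraicClosure ℚ), FiniteDimensional ℚ L ∧
      ∀ σ : GQ, (∀ x ∈ L, σ x = x) → M σ = 1 := by
  constructor
  · intro hM
    obtain ⟨n, hn⟩ := hnil
    obtain ⟨L, hL, h⟩ := hM n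
    refine ⟨L, hL, fun σ hσ => ?_⟩
    ext i j
    have := h σ hσ i j
    rw [hn, Ideal.zero_eq_bot, Ideal.mem_bot, Matrix.sub_apply, sub_eq_zero] at this
    exact this
  · rintro ⟨L, hL, h⟩ n
    refine ⟨L, hL, fun σ hσ i j => ?_⟩
    rw [h σ hσ, sub_self]
    exact Ideal.zero_mem _

end Continuity

end Fermat.Agent.S53
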