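import Mathlib
import Fermat.Agent.S53.Core
import Fermat.Agent.S53.Residual
import Fermat.Agent.S53.Limit
import Fermat.Agent.S53.Rigidify

/-!
# S53: from Artinian targets to complete noetherian targets

The universal property of the universal rigid lift with respect to Artinian test algebras implies
the `universal` field of `GaloisRep.DeformationRingData` (targets: complete noetherian local
`𝒪`-algebras with residue field `k`).
-/

set_option autoImplicit false
set_option linter.unusedSectionVars false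
set_option linter.style.haveILetI false
set_option linter.unusedVariables false

noncomputable section

namespace Fermat.Agent.S53

open IsLocalRing GaloisRep

variable {𝒪 : Type} [CommRing 𝒪] [IsLocalRing 𝒪]
  {ρbar : ResidualGaloisRep (ResidueField 𝒪)}
  {𝒟 : ∀ ⦃A : Type⦄ [CommRing A] [IsLocalRing A] [Algebra 𝒪 A], GaloisRepAdic A → Prop}

namespace Universal

section Basic

variable {A : Type} [CommRing A] [IsLocalRing A]

lemma ofMatrix_isEquiv_of_eq {M M' : GQ →* M2 A} (hM : MatCont M) (hM' : MatCont M')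
    (h : M = M') : (ofMatrix M hM).IsEquiv (ofMatrix M' hM') := by
  subst h
  exact ⟨GaloisRepAdic.Equiv.refl _⟩

variable [Algebra 𝒪 A]

/-- An `𝒪`-algebra homomorphism from a local `𝒪`-algebra to a local `𝒪`-algebra whose residue
field is a quotient of `𝒪` is a local homomorphism. -/
lemma isLocalHom_of_residue_surjective {R : Type} [CommRing R] [IsLocalRing R] [Algebra 𝒪 R]
    (hresA : Function.Surjective (residue A ∘ algebraMap 𝒪 A)) (φ : R →ₐ[𝒪] A) :
    IsLocalHom (φ : R →+* A) := by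
  set f : R →+* ResidueField A := (residue A).comp (φ : R →+* A) with hf
  have hsurj : Function.Surjective f := fun y => by
    obtain ⟨o, ho⟩ := hresA y
    refine ⟨algebraMap 𝒪 R o, ?_⟩
    rw [hf, RingHom.comp_apply, RingHom.coe_coe, AlgHom.commutes]
    exact ho
  have hker : RingHom.ker f = maximalIdeal R :=
    IsLocalRing.eq_maximalIdeal (RingHom.ker_isMaximal_of_surjective f hsurj)
  refine ⟨fun a ha => ?_⟩
  by_contra hna
  have ham : a ∈ maximalIdeal R := (IsLocalRing.mem_maximalIdeal a).mpr hna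
  rw [← hker, RingHom.mem_ker, hf, RingHom.comp_apply, IsLocalRing.residue_eq_zero_iff] at ham
  exact (IsLocalRing.mem_maximalIdeal _).mp ham ha

variable [IsLocalHom (algebraMap 𝒪 A)]

/-- A deformation of `ρbar` is equivalent to the representation of a strict matrix lift. -/
lemma exists_strict (F : Frame 𝒪 ρbar) (ρ : GaloisRepAdic A)
    (h : ρ.residual.IsEquiv (ρbar.baseChangeAlong (ResidueField.map (algebraMap 𝒪 A)))) :
    ∃ (M : GQ →* M2 A) (hM : MatCont M), IsStrict F M ∧ ρ.IsEquiv (ofMatrix M hM) := by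
  obtain ⟨b, hb⟩ := exists_basis_of_residual_isEquiv ρbar F.b
    (ResidueField.map (algebraMap 𝒪 A)) ρ h
  refine ⟨toMatrixHom ρ b, matCont_toMatrixHom ρ b, fun σ i j => ?_, ⟨equivOfMatrix ρ b⟩⟩
  rw [← IsLocalRing.residue_eq_zero_iff, map_sub, sub_eq_zero, hb σ i j, resMatrixHom_apply,
    ← F.residue_lift σ i j, ResidueField.map_residue]

end Basic

section Level

variable {A : Type} [CommRing A] [IsLocalRing A] [IsNoetherianRing A]
  [IsAdicComplete (maximalIdeal A) A] [Algebra 𝒪 A] [IsLocalHom (algebraMap 𝒪 A)]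

/-- The reduction of a deformation of type `𝒟` over a complete ring to an Artinian quotient is
of type `𝒟`, in matrix form. -/
lemma isType_map (h𝒟 : IsDeformationCondition 𝒪 𝒟)
    (hresA : Function.Surjective (residue A ∘ algebraMap 𝒪 A))
    (ρA : GaloisRepAdic A) (hρA : 𝒟 ρA) {N : GQ →* M2 A} (hN : MatCont N)
    (e : ρA.IsEquiv (ofMatrix N hN))
    {B : Type} [CommRing B] [IsLocalRing B] [Algebra 𝒪 B] (hB : IsArtinianTestAlgebra 𝒪 B)
    (q : A →ₐ[𝒪] B) (hq : IsLocalHom (q : A →+* B)) (hqs : Function.Surjective q) :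
    𝒟 (ofMatrix (mapMat (q : A →+* B) N) (hN.map _ hq)) := by
  have h1 : 𝒟 (ρA.baseChangeAlong (q : A →+* B) hq) :=
    (h𝒟.iff_forall_surjective inferInstance hresA ρA).mp hρA hB q hq hqs
  obtain ⟨e⟩ := e
  refine h𝒟.of_isEquiv hB ?_ h1
  exact ⟨(e.baseChangeAlong (q : A →+* B) hq).trans (ofMatrixBaseChangeEquiv _ hq N hN)⟩

end Level

section Main

variable [Finite (ResidueField 𝒪)]
  {R : Type} [CommRing R] [IsLocalRing R] [Algebra 𝒪 R]
  {A : Type} [CommRing A] [IsLocalRing A] [IsNoetherianRing A]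
  [IsAdicComplete (maximalIdeal A) A] [Algebra 𝒪 A] [IsLocalHom (algebraMap 𝒪 A)]

/-- The homomorphisms to the levels `A ⧸ 𝔪 ^ (n + 1)` classifying the reductions of a rigid
lift over a complete ring. -/
lemma existsUnique_level (h𝒟 : IsDeformationCondition 𝒪 𝒟) (F : Frame 𝒪 ρbar)
    (Mu : GQ →* M2 R)
    (huniv : ∀ (B : Type) [CommRing B] [IsLocalRing B] [Algebra 𝒪 B],
      IsArtinianTestAlgebra 𝒪 B → ∀ r : RigidLift B F 𝒟,
        ∃! φ : R →ₐ[𝒪] B, mapMat (φ : R →+* B) Mu = r.M)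
    (hresA : Function.Surjective (residue A ∘ algebraMap 𝒪 A))
    (ρA : GaloisRepAdic A) (hρA : 𝒟 ρA)
    {N : GQ →* M2 A} (hN : MatCont N) (hNs : IsStrict F N) (hNr : IsRigid F N)
    (eN : ρA.IsEquiv (ofMatrix N hN)) (n : ℕ) :
    ∃! φ : R →ₐ[𝒪] (A ⧸ maximalIdeal A ^ (n + 1)),
      mapMat (φ : R →+* (A ⧸ maximalIdeal A ^ (n + 1))) Mu =
        mapMat (Ideal.Quotient.mk (maximalIdeal A ^ (n + 1))) N := by
  letI := quotient_isLocalRing (maximalIdeal A ^ (n + 1)) (maximalIdeal_pow_succ_ne_top A n)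
  have hB := quotient_pow_ATA (𝒪 := 𝒪) hresA n
  have hq := quotient_mk_isLocalHom (𝒪 := 𝒪) (maximalIdeal A ^ (n + 1))
    (maximalIdeal_pow_succ_ne_top A n)
  let q : A →ₐ[𝒪] A ⧸ maximalIdeal A ^ (n + 1) := Ideal.Quotient.mkₐ 𝒪 _
  let r : RigidLift (A ⧸ maximalIdeal A ^ (n + 1)) F 𝒟 :=
    { M := mapMat (q : A →+* A ⧸ maximalIdeal A ^ (n + 1)) N
      cont := hN.map _ hq
      strict := hNs.map q hq
      rigid := hNr.map q
      isType := isType_map h𝒟 hresA ρA hρA hN eN hB q hq (Ideal.Quotient.mkₐ_surjective 𝒪 _) }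
  exact huniv _ hB r

/-- **Universal property for complete noetherian targets**, assuming rigidification over the
target (existence `hRe` and uniqueness `hRu`). -/
theorem universal_of_artinian_aux (h𝒟 : IsDeformationCondition 𝒪 𝒟) (F : Frame 𝒪 ρbar)
    (Mu : GQ →* M2 R) (hMu : MatCont Mu) (hs : IsStrict F Mu) (hr : IsRigid F Mu)
    (huniv : ∀ (B : Type) [CommRing B] [IsLocalRing B] [Algebra 𝒪 B],
      IsArtinianTestAlgebra 𝒪 B → ∀ r : RigidLift B F 𝒟,
        ∃! φ : R →ₐ[𝒪] B, mapMat (φ : R →+* B) Mu = r.M)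
    (hresA : Function.Surjective (residue A ∘ algebraMap 𝒪 A))
    (hRe : ∀ {M : GQ →* M2 A}, MatCont M → IsStrict F M →
      ∃ (M' : GQ →* M2 A) (g : (M2 A)ˣ), (∀ σ, (g : M2 A) * M σ = M' σ * g) ∧
        MatCont M' ∧ IsStrict F M' ∧ IsRigid F M')
    (hRu : ∀ {M M' : GQ →* M2 A}, IsStrict F M → IsRigid F M → IsStrict F M' → IsRigid F M' →
      ∀ g : (M2 A)ˣ, (∀ σ, (g : M2 A) * M σ = M' σ * g) → M = M')
    (ρA : GaloisRepAdic A) (hρA : 𝒟 ρA)
    (hbar : ρA.residual.IsEquiv
      (ρbar.baseChangeAlong (ResidueField.map (algebraMap 𝒪 A)))) :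
    ∃! φ : R →ₐ[𝒪] A, ∃ hφ : IsLocalHom (φ : R →+* A),
      ((ofMatrix Mu hMu).baseChangeAlong (φ : R →+* A) hφ).IsEquiv ρA := by
  classical
  obtain ⟨M, hM, hMs, eM⟩ := exists_strict F ρA hbar
  obtain ⟨N, g, hg, hN, hNs, hNr⟩ := hRe hM hMs
  have eN : ρA.IsEquiv (ofMatrix N hN) := by
    obtain ⟨e⟩ := eM
    exact ⟨e.trans (equivOfConj hM hN g hg)⟩
  -- the classifying maps of the levels
  have hlevel := existsUnique_level h𝒟 F Mu huniv hresA ρA hρA hN hNs hNr eN
  choose φl hφl hφl_uniq using hlevel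
  -- compatibility of the levels
  have hcompat : ∀ n (s : R),
      Ideal.Quotient.factor (Ideal.pow_le_pow_right (Nat.le_succ (n + 1))) (φl (n + 1) s) =
        φl n s := by
    intro n s
    have h1 : (Ideal.Quotient.factorₐ 𝒪
        (Ideal.pow_le_pow_right (I := maximalIdeal A) (Nat.le_succ (n + 1)))).comp (φl (n + 1)) =
        φl n := by
      refine hφl_uniq n _ ?_
      ext σ i j
      have := congrFun (congrFun (DFunLike.congr_fun (hφl (n + 1)) σ) i) j
      simp only [mapMat_apply, RingHom.coe_coe] at this ⊢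
      rw [AlgHom.comp_apply, this]
      rfl
    exact DFunLike.congr_fun h1 s
  -- the tower and the limit homomorphism
  have htower := isAdicTower_quotient (maximalIdeal A)
  let f : ∀ n, R →ₐ[𝒪] A ⧸ maximalIdeal A ^ n := fun n =>
    (Ideal.Quotient.factorₐ 𝒪
      (Ideal.pow_le_pow_right (I := maximalIdeal A) (Nat.le_succ n))).comp (φl n)
  have hf : ∀ n s, Ideal.Quotient.factor (Ideal.pow_le_pow_right (Nat.le_succ n)) (f (n + 1) s) =
      f n s := by
    intro n s
    have h2 : f (n + 1) s = Ideal.Quotient.factor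
        (Ideal.pow_le_pow_right (I := maximalIdeal A) (Nat.le_succ (n + 1))) (φl (n + 1) s) := rfl
    have h3 : f n s = Ideal.Quotient.factor
        (Ideal.pow_le_pow_right (I := maximalIdeal A) (Nat.le_succ n)) (φl n s) := rfl
    rw [h2, h3, hcompat n s]
  obtain ⟨φ, hφ, hφuniq⟩ := htower.existsUnique_limit_algHom (𝒪 := 𝒪) (fun _ _ => rfl) f hf
  -- `φ` pushes `Mu` to `N`
  have hφN : mapMat (φ : R →+* A) Mu = N := by
    ext σ i j
    refine htower.ext_of_forall_q fun n => ?_
    have h1 := congrFun (congrFun (DFunLike.congr_fun (hφl n) σ) i) j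
    simp only [mapMat_apply, RingHom.coe_coe] at h1 ⊢
    have h3 : f n (Mu σ i j) = Ideal.Quotient.factor
        (Ideal.pow_le_pow_right (I := maximalIdeal A) (Nat.le_succ n)) (φl n (Mu σ i j)) := rfl
    rw [hφ n (Mu σ i j), h3, h1]
    rfl
  have hloc : IsLocalHom (φ : R →+* A) := isLocalHom_of_residue_surjective hresA φ
  refine ⟨φ, ⟨hloc, ?_⟩, ?_⟩
  · obtain ⟨e1⟩ := ofMatrix_baseChangeAlong_isEquiv (φ : R →+* A) hloc Mu hMu
    obtain ⟨e2⟩ := ofMatrix_isEquiv_of_eq (hMu.map (φ : R →+* A) hloc) hN hφN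
    obtain ⟨e3⟩ := eN
    exact ⟨(e1.trans e2).trans e3.symm⟩
  · rintro φ' ⟨hloc', ⟨e'⟩⟩
    -- `φ'` also pushes `Mu` to `N`, by uniqueness of rigid lifts
    have hφ'N : mapMat (φ' : R →+* A) Mu = N := by
      obtain ⟨e3⟩ := eN
      have e4 : (ofMatrix (mapMat (φ' : R →+* A) Mu) (hMu.map _ hloc')).IsEquiv (ofMatrix N hN) :=
        ⟨((ofMatrixBaseChangeEquiv (φ' : R →+* A) hloc' Mu hMu).symm.trans e').trans e3⟩
      obtain ⟨g', hg'⟩ := (ofMatrix_isEquiv_iff _ _).mp e4
      exact hRu (hs.map φ' hloc') (hr.map φ') hNs hNr g' hg'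
    refine hφuniq φ' fun n s => ?_
    have h1 : (Ideal.Quotient.mkₐ 𝒪 (maximalIdeal A ^ (n + 1))).comp φ' = φl n := by
      refine hφl_uniq n _ ?_
      ext σ i j
      have := congrFun (congrFun (DFunLike.congr_fun hφ'N σ) i) j
      simp only [mapMat_apply, RingHom.coe_coe] at this ⊢
      rw [AlgHom.comp_apply, this]
      rfl
    have h3 : f n s = Ideal.Quotient.factor
        (Ideal.pow_le_pow_right (I := maximalIdeal A) (Nat.le_succ n)) (φl n s) := rfl
    rw [h3, ← h1]
    rfl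

end Main

end Universal

/-- **Universal property for complete noetherian targets** (the `universal` field of
`GaloisRep.DeformationRingData`), deduced from the universal property of the universal rigid
lift `Mu` with respect to Artinian test algebras. -/
theorem universal_of_artinian [Finite (ResidueField 𝒪)]
    (h𝒟 : IsDeformationCondition 𝒪 𝒟) (F : Frame 𝒪 ρbar)
    {R : Type} [CommRing R] [IsLocalRing R] [IsNoetherianRing R]
    [IsAdicComplete (maximalIdeal R) R] [Algebra 𝒪 R] [IsLocalHom (algebraMap 𝒪 R)]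
    (hres : Function.Surjective (residue R ∘ algebraMap 𝒪 R))
    (Mu : GQ →* M2 R) (hMu : MatCont Mu) (hs : IsStrict F Mu) (hr : IsRigid F Mu)
    (huniv : ∀ (A : Type) [CommRing A] [IsLocalRing A] [Algebra 𝒪 A],
      IsArtinianTestAlgebra 𝒪 A → ∀ r : RigidLift A F 𝒟,
        ∃! φ : R →ₐ[𝒪] A, mapMat (φ : R →+* A) Mu = r.M)
    (A : Type) [CommRing A] [IsLocalRing A] [IsNoetherianRing A]
    [IsAdicComplete (maximalIdeal A) A] [Algebra 𝒪 A] [IsLocalHom (algebraMap 𝒪 A)]
    (hresA : Function.Surjective (residue A ∘ algebraMap 𝒪 A))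
    (ρA : GaloisRepAdic A) (hρA : 𝒟 ρA)
    (hbar : ρA.residual.IsEquiv
      (ρbar.baseChangeAlong (ResidueField.map (algebraMap 𝒪 A)))) :
    ∃! φ : R →ₐ[𝒪] A, ∃ hφ : IsLocalHom (φ : R →+* A),
      ((ofMatrix Mu hMu).baseChangeAlong (φ : R →+* A) hφ).IsEquiv ρA :=
  Universal.universal_of_artinian_aux h𝒟 F Mu hMu hs hr huniv hresA
    (fun hM hMs => exists_rigid_conj F hM hMs)
    (fun hMs hMr hMs' hMr' g hg => rigid_conj_unique F hMs hMr hMs' hMr' g hg)
    ρA hρA hbar

end Fermat.Agent.S53
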