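import Mathlib
import Fermat.Agent.S53.Core
import Fermat.Agent.S53.Residual
import Fermat.Agent.S53.Rigidify
import Fermat.Agent.S53.Universal

/-!
# S53: final assembly

From a universal rigid lift (universal for Artinian test algebras) to
`GaloisRep.DeformationRingData`.
-/

set_option autoImplicit false
set_option linter.unusedSectionVars false

noncomputable section

namespace Fermat.Agent.S53

open IsLocalRing GaloisRep

/-- **Final assembly.** A rigid lift `ru` over a complete noetherian local `𝒪`-algebra `R` with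
residue field `k`, which is universal for rigid lifts over Artinian test algebras, gives a
universal deformation ring. -/
theorem nonempty_deformationRingData_of_universal
    (𝒪 : Type) [CommRing 𝒪] [IsDomain 𝒪] [IsDiscreteValuationRing 𝒪]
    [IsAdicComplete (maximalIdeal 𝒪) 𝒪] [Finite (ResidueField 𝒪)]
    (ρbar : ResidualGaloisRep (ResidueField 𝒪))
    (𝒟 : ∀ ⦃A : Type⦄ [CommRing A] [IsLocalRing A] [Algebra 𝒪 A], GaloisRepAdic A → Prop)
    (habs : ρbar.IsAbsolutelyIrreducible)
    (h𝒟 : IsDeformationCondition 𝒪 𝒟)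
    (F : Frame 𝒪 ρbar)
    (R : Type) [CommRing R] [IsLocalRing R] [IsNoetherianRing R]
    [IsAdicComplete (maximalIdeal R) R] [Algebra 𝒪 R] [IsLocalHom (algebraMap 𝒪 R)]
    (hres : Function.Surjective (residue R ∘ algebraMap 𝒪 R))
    (ru : RigidLift R F 𝒟)
    (huniv : ∀ (A : Type) [CommRing A] [IsLocalRing A] [Algebra 𝒪 A],
      IsArtinianTestAlgebra 𝒪 A → ∀ r : RigidLift A F 𝒟,
        ∃! φ : R →ₐ[𝒪] A, mapMat (φ : R →+* A) ru.M = r.M) :
    Nonempty (DeformationRingData 𝒪 ρbar 𝒟) :=
  ⟨{ R := R
     residue_surjective := hres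
     absIrr := habs
     ρ := ofMatrix ru.M ru.cont
     isOfType := ru.isType
     residual_isEquiv :=
       ofMatrix_residual_isEquiv ρbar F.b (ResidueField.map (algebraMap 𝒪 R)) ru.M ru.cont
         ((isStrict_iff_residue F ru.M).mp ru.strict)
     universal := fun A _ _ _ _ _ _ hresA ρA hρA hbarA =>
       universal_of_artinian h𝒟 F hres ru.M ru.cont ru.strict ru.rigid huniv A hresA ρA hρA
         hbarA }⟩

end Fermat.Agent.S53
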