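import Mathlib
import Fermat.Agent.S53.Core
import Fermat.Agent.S53.Residual
import Fermat.Agent.S53.Limit
import Fermat.Agent.S53.TestAlg
import Fermat.Agent.S53.Rigidify

/-!
# S53: operations on rigid lifts over Artinian test algebras

* `RigidLift.map`: push-forward of a rigid lift along a local algebra hom.
* `RigidLift.exists_descend`: descent along an injective local algebra hom whose range contains
  all matrix entries.
* `exists_rigidLift_residueField`: the rigid lift over the residue field given by `ρbar`.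
* `RigidLift.eq_of_isEquiv`: rigid lifts with equivalent representations are equal.
-/

set_option autoImplicit false
set_option linter.unusedSectionVars false
set_option linter.unusedVariables false

noncomputable section

namespace Fermat.Agent.S53

open IsLocalRing GaloisRep

variable {𝒪 : Type} [CommRing 𝒪] [IsLocalRing 𝒪]
  {ρbar : ResidualGaloisRep (ResidueField 𝒪)}
  {𝒟 : ∀ ⦃A : Type⦄ [CommRing A] [IsLocalRing A] [Algebra 𝒪 A], GaloisRepAdic A → Prop}

section LiftOps
variable {F : Frame 𝒪 ρbar}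
variable {A : Type} [CommRing A] [IsLocalRing A] [Algebra 𝒪 A]
variable {B : Type} [CommRing B] [IsLocalRing B] [Algebra 𝒪 B]

/-- Push-forward of a rigid lift along a local algebra hom of Artinian test algebras. -/
def RigidLift.map (h𝒟 : IsDeformationCondition 𝒪 𝒟)
    (hA : IsArtinianTestAlgebra 𝒪 A) (hB : IsArtinianTestAlgebra 𝒪 B)
    (r : RigidLift A F 𝒟) (φ : A →ₐ[𝒪] B) (hφ : IsLocalHom (φ : A →+* B)) :
    RigidLift B F 𝒟 where
  M := mapMat (φ : A →+* B) r.M
  cont := r.cont.map _ hφ
  strict := r.strict.map φ hφ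
  rigid := r.rigid.map φ
  isType :=
    h𝒟.of_isEquiv hB (ofMatrix_baseChangeAlong_isEquiv (φ : A →+* B) hφ r.M r.cont)
      (h𝒟.baseChangeAlong hA hB φ hφ r.isType)

@[simp] theorem RigidLift.map_M (h𝒟 : IsDeformationCondition 𝒪 𝒟)
    (hA : IsArtinianTestAlgebra 𝒪 A) (hB : IsArtinianTestAlgebra 𝒪 B)
    (r : RigidLift A F 𝒟) (φ : A →ₐ[𝒪] B) (hφ : IsLocalHom (φ : A →+* B)) :
    (r.map h𝒟 hA hB φ hφ).M = mapMat (φ : A →+* B) r.M := rfl

/-- A matrix representation over `B` all of whose entries lie in the range of an injective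
ring hom `φ : A → B` descends to a matrix representation over `A`. -/
theorem exists_descend_matHom {A B : Type} [CommRing A] [CommRing B] (φ : A →+* B)
    (hinj : Function.Injective φ) (M : GQ →* M2 B)
    (hM : ∀ σ i j, M σ i j ∈ Set.range φ) :
    ∃ M' : GQ →* M2 A, mapMat φ M' = M := by
  choose e he using hM
  have hmap : ∀ σ, (Matrix.of (e σ) : M2 A).map φ = M σ := by
    intro σ; ext i j; simp [he]
  have hmapinj : Function.Injective (fun X : M2 A => X.map φ) := by
    intro X Y h
    ext i j
    apply hinj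
    have := congrFun (congrFun h i) j
    simpa only [Matrix.map_apply] using this
  let M' : GQ →* M2 A :=
    { toFun := fun σ => Matrix.of (e σ)
      map_one' := by
        apply hmapinj
        show (Matrix.of (e 1) : M2 A).map φ = (1 : M2 A).map φ
        rw [hmap, map_one, Matrix.map_one _ (map_zero φ) (map_one φ)]
      map_mul' := fun σ τ => by
        apply hmapinj
        show (Matrix.of (e (σ * τ)) : M2 A).map φ =
          ((Matrix.of (e σ) : M2 A) * (Matrix.of (e τ) : M2 A)).map φ
        rw [hmap, map_mul, Matrix.map_mul, hmap, hmap] }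
  refine ⟨M', ?_⟩
  ext σ i j
  exact he σ i j

theorem liftOps_isNilpotent_maximalIdeal (hA : IsArtinianTestAlgebra 𝒪 A) :
    IsNilpotent (maximalIdeal A) := by
  obtain ⟨n, hn⟩ := ATA_maximalIdeal_nilpotent hA
  exact ⟨n, by rw [hn, Ideal.zero_eq_bot]⟩

/-- Descent of a rigid lift along an injective local algebra hom whose range contains all
matrix entries. -/
theorem RigidLift.exists_descend (h𝒟 : IsDeformationCondition 𝒪 𝒟)
    (hA : IsArtinianTestAlgebra 𝒪 A) (hB : IsArtinianTestAlgebra 𝒪 B)
    (φ : A →ₐ[𝒪] B) (hφ : IsLocalHom (φ : A →+* B)) (hinj : Function.Injective φ)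
    (r : RigidLift B F 𝒟) (hr : ∀ σ i j, r.M σ i j ∈ Set.range φ) :
    ∃ r' : RigidLift A F 𝒟, mapMat (φ : A →+* B) r'.M = r.M := by
  obtain ⟨M, hM⟩ := exists_descend_matHom (φ : A →+* B) hinj r.M hr
  have hent : ∀ σ i j, φ (M σ i j) = r.M σ i j := fun σ i j => by
    rw [← hM]; rfl
  -- continuity
  have hcont : MatCont M := by
    rw [matCont_iff_of_nilpotent (liftOps_isNilpotent_maximalIdeal hA)]
    obtain ⟨L, hL, h1⟩ :=
      (matCont_iff_of_nilpotent (liftOps_isNilpotent_maximalIdeal hB) r.M).1 r.cont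
    refine ⟨L, hL, fun σ hσ => ?_⟩
    ext i j
    apply hinj
    rw [hent, h1 σ hσ, Matrix.one_apply, Matrix.one_apply]
    split_ifs <;> simp
  -- strictness
  have hstrict : IsStrict F M := by
    intro σ i j
    have h1 := r.strict σ i j
    rw [← hent, ← AlgHom.commutes φ, ← map_sub] at h1
    rw [IsLocalRing.mem_maximalIdeal, mem_nonunits_iff] at h1 ⊢
    exact fun hu => h1 (hu.map φ)
  -- rigidity
  have hrigid : IsRigid F M := by
    apply IsRigid.of_map_injective φ hinj
    rw [hM]
    exact r.rigid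
  -- type
  have htype : 𝒟 (ofMatrix M hcont) := by
    refine h𝒟.of_baseChangeAlong_injective hA hB φ hφ hinj ?_
    obtain ⟨e'⟩ := ofMatrix_baseChangeAlong_isEquiv (φ : A →+* B) hφ M hcont
    refine h𝒟.of_isEquiv hB ⟨e'.symm⟩ ?_
    have : ofMatrix (mapMat (φ : A →+* B) M) (hcont.map _ hφ) = ofMatrix r.M r.cont := by
      congr 1
    rw [this]
    exact r.isType
  exact ⟨⟨M, hcont, hstrict, hrigid, htype⟩, hM⟩

/-- The rigid lift over the residue field given by `ρbar` itself. -/
theorem exists_rigidLift_residueField (h𝒟 : IsDeformationCondition 𝒪 𝒟)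
    (hbar : 𝒟 (GaloisRepAdic.ofResidualGaloisRep ρbar)) (F : Frame 𝒪 ρbar) :
    ∃ r : RigidLift (ResidueField 𝒪) F 𝒟,
      ∀ σ i j, r.M σ i j = residue 𝒪 (F.lift σ i j) := by
  have hentry : ∀ σ i j,
      toMatrixHom (GaloisRepAdic.ofResidualGaloisRep ρbar) F.b σ i j =
        residue 𝒪 (F.lift σ i j) := by
    intro σ i j
    rw [F.residue_lift]
    rfl
  refine ⟨⟨toMatrixHom (GaloisRepAdic.ofResidualGaloisRep ρbar) F.b,
    matCont_toMatrixHom _ _, ?_, ?_, ?_⟩, hentry⟩
  · intro σ i j
    rw [hentry, ResidueField.algebraMap_eq, sub_self]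
    exact Ideal.zero_mem _
  · refine ⟨?_, ?_, ?_⟩
    · rw [hentry, F.lift_g₁_00, map_zero]
    · rw [hentry, F.lift_g₁_10, map_one]
    · rw [hentry, ResidueField.algebraMap_eq]
  · exact h𝒟.of_isEquiv residueField_ATA
      ⟨equivOfMatrix (GaloisRepAdic.ofResidualGaloisRep ρbar) F.b⟩ hbar

/-- Two rigid lifts with equivalent representations are equal. -/
theorem RigidLift.eq_of_isEquiv (r r' : RigidLift A F 𝒟) (h : r.rep.IsEquiv r'.rep) :
    r = r' := by
  obtain ⟨g, hg⟩ := (ofMatrix_isEquiv_iff r.cont r'.cont).1 h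
  exact RigidLift.ext' (rigid_conj_unique F r.strict r.rigid r'.strict r'.rigid g hg)

end LiftOps

end Fermat.Agent.S53

end
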