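import Mathlib
import Fermat.Agent.S53.Core
import Fermat.Agent.S53.Limit
import Fermat.Agent.S53.TestAlg

/-!
# S53: gluing rigid lifts over fibre products

* `exists_glue_matHom`: two matrix representations over `A` and `B` which agree over `C` glue
  to a matrix representation over a fibre product `P` of `A` and `B` over `C`.
* `RigidLift.exists_prod`: the same for rigid lifts of type `𝒟` over Artinian test algebras
  (same shape as `IsDeformationCondition.of_fibreProduct`).
* `RigidLift.mapMat_toK_eq`: over the residue field all rigid lifts agree, so the compatibility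
  hypothesis is automatic for fibre products over the residue field.
* `RigidLift.exists_fibreProd`: gluing over `TestAlg.fibreProd`.
-/

set_option autoImplicit false
set_option linter.unusedSectionVars false
set_option linter.unusedVariables false
set_option linter.style.haveILetI false

noncomputable section

namespace Fermat.Agent.S53

open IsLocalRing GaloisRep

section Glue

variable {A B C P : Type} [CommRing A] [CommRing B] [CommRing C] [CommRing P]

/-- Matrices over `P` are determined by their images over `A` and `B` if `P → A × B` is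
injective. -/
theorem matrix_eq_of_map_eq (pA : P →+* A) (pB : P →+* B)
    (hinj : Function.Injective (fun x => (pA x, pB x))) {X Y : M2 P}
    (h1 : X.map pA = Y.map pA) (h2 : X.map pB = Y.map pB) : X = Y := by
  ext i j
  apply hinj
  have e1 := congrFun (congrFun h1 i) j
  have e2 := congrFun (congrFun h2 i) j
  simp only [Matrix.map_apply] at e1 e2
  exact Prod.ext e1 e2

/-- Gluing matrix representations along a fibre product square. -/
theorem exists_glue_matHom (f : A →+* C) (g : B →+* C) (pA : P →+* A) (pB : P →+* B)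
    (hinj : Function.Injective (fun x => (pA x, pB x)))
    (hsurj : ∀ a b, f a = g b → ∃ x, pA x = a ∧ pB x = b)
    (MA : GQ →* M2 A) (MB : GQ →* M2 B) (hAB : mapMat f MA = mapMat g MB) :
    ∃ M : GQ →* M2 P, mapMat pA M = MA ∧ mapMat pB M = MB := by
  have hent : ∀ σ i j, f (MA σ i j) = g (MB σ i j) := by
    intro σ i j
    have := congrFun (congrFun (DFunLike.congr_fun hAB σ) i) j
    simpa only [mapMat_apply] using this
  choose e heA heB using fun σ i j => hsurj (MA σ i j) (MB σ i j) (hent σ i j)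
  have hmapA : ∀ σ, (Matrix.of (e σ) : M2 P).map pA = MA σ := by
    intro σ; ext i j; simp [heA]
  have hmapB : ∀ σ, (Matrix.of (e σ) : M2 P).map pB = MB σ := by
    intro σ; ext i j; simp [heB]
  let M : GQ →* M2 P :=
    { toFun := fun σ => Matrix.of (e σ)
      map_one' := by
        apply matrix_eq_of_map_eq pA pB hinj
        · rw [hmapA, map_one, Matrix.map_one _ (map_zero pA) (map_one pA)]
        · rw [hmapB, map_one, Matrix.map_one _ (map_zero pB) (map_one pB)]
      map_mul' := fun σ τ => by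
        apply matrix_eq_of_map_eq pA pB hinj
        · rw [hmapA, map_mul, Matrix.map_mul, hmapA, hmapA]
        · rw [hmapB, map_mul, Matrix.map_mul, hmapB, hmapB] }
  refine ⟨M, ?_, ?_⟩
  · ext σ i j
    exact heA σ i j
  · ext σ i j
    exact heB σ i j

end Glue

variable {𝒪 : Type} [CommRing 𝒪] [IsLocalRing 𝒪]
  {ρbar : ResidualGaloisRep (ResidueField 𝒪)}
  {𝒟 : ∀ ⦃A : Type⦄ [CommRing A] [IsLocalRing A] [Algebra 𝒪 A], GaloisRepAdic A → Prop}
variable {F : Frame 𝒪 ρbar}
variable {A : Type} [CommRing A] [IsLocalRing A] [Algebra 𝒪 A]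
variable {B : Type} [CommRing B] [IsLocalRing B] [Algebra 𝒪 B]

theorem ATA_isNilpotent_maximalIdeal (hA : IsArtinianTestAlgebra 𝒪 A) :
    IsNilpotent (maximalIdeal A) := by
  obtain ⟨n, hn⟩ := ATA_maximalIdeal_nilpotent hA
  exact ⟨n, by rw [hn, Ideal.zero_eq_bot]⟩

/-- Gluing two rigid lifts over a fibre product (same shape as
`IsDeformationCondition.of_fibreProduct`). -/
theorem RigidLift.exists_prod (h𝒟 : IsDeformationCondition 𝒪 𝒟)
    {C : Type} [CommRing C] [IsLocalRing C] [Algebra 𝒪 C]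
    {P : Type} [CommRing P] [IsLocalRing P] [Algebra 𝒪 P]
    (hA : IsArtinianTestAlgebra 𝒪 A) (hB : IsArtinianTestAlgebra 𝒪 B)
    (hC : IsArtinianTestAlgebra 𝒪 C) (hP : IsArtinianTestAlgebra 𝒪 P)
    (f : A →ₐ[𝒪] C) (g : B →ₐ[𝒪] C) (pA : P →ₐ[𝒪] A) (pB : P →ₐ[𝒪] B)
    (hpA : IsLocalHom (pA : P →+* A)) (hpB : IsLocalHom (pB : P →+* B))
    (hcomm : f.comp pA = g.comp pB)
    (hinj : Function.Injective (fun x => (pA x, pB x)))
    (hsurj : ∀ a b, f a = g b → ∃ x, pA x = a ∧ pB x = b)
    (rA : RigidLift A F 𝒟) (rB : RigidLift B F 𝒟)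
    (hAB : mapMat (f : A →+* C) rA.M = mapMat (g : B →+* C) rB.M) :
    ∃ r : RigidLift P F 𝒟, mapMat (pA : P →+* A) r.M = rA.M ∧
      mapMat (pB : P →+* B) r.M = rB.M := by
  obtain ⟨M, hMA, hMB⟩ := exists_glue_matHom (f : A →+* C) (g : B →+* C) (pA : P →+* A)
    (pB : P →+* B) hinj hsurj rA.M rB.M hAB
  have hentA : ∀ σ i j, pA (M σ i j) = rA.M σ i j := fun σ i j => by
    rw [← hMA]; rfl
  have hentB : ∀ σ i j, pB (M σ i j) = rB.M σ i j := fun σ i j => by
    rw [← hMB]; rfl
  -- continuity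
  have hcont : MatCont M := by
    rw [matCont_iff_of_nilpotent (ATA_isNilpotent_maximalIdeal hP)]
    obtain ⟨LA, hLA, hA1⟩ :=
      (matCont_iff_of_nilpotent (ATA_isNilpotent_maximalIdeal hA) rA.M).1 rA.cont
    obtain ⟨LB, hLB, hB1⟩ :=
      (matCont_iff_of_nilpotent (ATA_isNilpotent_maximalIdeal hB) rB.M).1 rB.cont
    refine ⟨LA ⊔ LB, IntermediateField.finiteDimensional_sup LA LB, fun σ hσ => ?_⟩
    apply matrix_eq_of_map_eq (pA : P →+* A) (pB : P →+* B) hinj
    · have h1 : (M σ).map (pA : P →+* A) = rA.M σ := by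
        ext i j; exact hentA σ i j
      rw [h1, hA1 σ fun x hx => hσ x ((le_sup_left : LA ≤ LA ⊔ LB) hx),
        Matrix.map_one _ (map_zero _) (map_one _)]
    · have h1 : (M σ).map (pB : P →+* B) = rB.M σ := by
        ext i j; exact hentB σ i j
      rw [h1, hB1 σ fun x hx => hσ x ((le_sup_right : LB ≤ LA ⊔ LB) hx),
        Matrix.map_one _ (map_zero _) (map_one _)]
  -- strictness
  have hstrict : IsStrict F M := by
    intro σ i j
    have h1 := rA.strict σ i j
    rw [← hentA, ← AlgHom.commutes pA, ← map_sub] at h1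
    rw [IsLocalRing.mem_maximalIdeal, mem_nonunits_iff] at h1 ⊢
    exact fun hu => h1 (hu.map pA)
  -- rigidity
  have hrigid : IsRigid F M := by
    refine ⟨?_, ?_, ?_⟩
    · apply hinj
      refine Prod.ext ?_ ?_
      · show pA (M F.g₁ 0 0) = pA 0
        rw [hentA, rA.rigid.n00, map_zero]
      · show pB (M F.g₁ 0 0) = pB 0
        rw [hentB, rB.rigid.n00, map_zero]
    · apply hinj
      refine Prod.ext ?_ ?_
      · show pA (M F.g₁ 1 0) = pA 1
        rw [hentA, rA.rigid.n10, map_one]
      · show pB (M F.g₁ 1 0) = pB 1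
        rw [hentB, rB.rigid.n10, map_one]
    · apply hinj
      refine Prod.ext ?_ ?_
      · show pA (M F.g₂ F.i₀ F.j₀) = pA (algebraMap 𝒪 P _)
        rw [hentA, rA.rigid.n2, AlgHom.commutes]
      · show pB (M F.g₂ F.i₀ F.j₀) = pB (algebraMap 𝒪 P _)
        rw [hentB, rB.rigid.n2, AlgHom.commutes]
  -- type
  have htype : 𝒟 (ofMatrix M hcont) := by
    refine h𝒟.of_fibreProduct hA hB hC hP f g pA pB hpA hpB hcomm hinj hsurj ?_ ?_
    · have e := ofMatrix_baseChangeAlong_isEquiv (pA : P →+* A) hpA M hcont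
      obtain ⟨e'⟩ := e
      refine h𝒟.of_isEquiv hA ⟨e'.symm⟩ ?_
      have : ofMatrix (mapMat (pA : P →+* A) M) (hcont.map _ hpA) = ofMatrix rA.M rA.cont := by
        congr 1
      rw [this]
      exact rA.isType
    · have e := ofMatrix_baseChangeAlong_isEquiv (pB : P →+* B) hpB M hcont
      obtain ⟨e'⟩ := e
      refine h𝒟.of_isEquiv hB ⟨e'.symm⟩ ?_
      have : ofMatrix (mapMat (pB : P →+* B) M) (hcont.map _ hpB) = ofMatrix rB.M rB.cont := by
        congr 1
      rw [this]
      exact rB.isType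
  exact ⟨⟨M, hcont, hstrict, hrigid, htype⟩, hMA, hMB⟩

/-- Over the residue field of `𝒪` every strict lift is the reduction of the frame. -/
theorem IsStrict.toK_apply (hA : IsArtinianTestAlgebra 𝒪 A) {M : GQ →* M2 A}
    (hM : IsStrict F M) (σ : GQ) (i j : Fin 2) :
    ATA_toK hA (M σ i j) = residue 𝒪 (F.lift σ i j) := by
  have h := hM σ i j
  rw [← ATA_toK_eq_zero_iff hA, map_sub, sub_eq_zero, AlgHom.commutes] at h
  rw [h, ResidueField.algebraMap_eq]

/-- The compatibility hypothesis of `RigidLift.exists_prod` is automatic over the residue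
field. -/
theorem IsStrict.mapMat_toK_eq (hA : IsArtinianTestAlgebra 𝒪 A)
    (hB : IsArtinianTestAlgebra 𝒪 B) {M : GQ →* M2 A} {M' : GQ →* M2 B}
    (hM : IsStrict F M) (hM' : IsStrict F M') :
    mapMat (ATA_toK hA : A →+* ResidueField 𝒪) M =
      mapMat (ATA_toK hB : B →+* ResidueField 𝒪) M' := by
  ext σ i j
  simp only [mapMat_apply, RingHom.coe_coe]
  rw [hM.toK_apply hA, hM'.toK_apply hB]

theorem RigidLift.mapMat_toK_eq (hA : IsArtinianTestAlgebra 𝒪 A)
    (hB : IsArtinianTestAlgebra 𝒪 B) (rA : RigidLift A F 𝒟) (rB : RigidLift B F 𝒟) :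
    mapMat (ATA_toK hA : A →+* ResidueField 𝒪) rA.M =
      mapMat (ATA_toK hB : B →+* ResidueField 𝒪) rB.M :=
  IsStrict.mapMat_toK_eq hA hB rA.strict rB.strict

/-- Gluing two rigid lifts over the fibre product `A ×_k B` of `TestAlg`. -/
theorem RigidLift.exists_fibreProd [Finite (ResidueField 𝒪)] (h𝒟 : IsDeformationCondition 𝒪 𝒟)
    (hA : IsArtinianTestAlgebra 𝒪 A) (hB : IsArtinianTestAlgebra 𝒪 B)
    (rA : RigidLift A F 𝒟) (rB : RigidLift B F 𝒟) :
    letI := fibreProd_isLocalRing hA hB
    ∃ r : RigidLift (fibreProd hA hB) F 𝒟,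
      mapMat (fibreProdFst hA hB : fibreProd hA hB →+* A) r.M = rA.M ∧
      mapMat (fibreProdSnd hA hB : fibreProd hA hB →+* B) r.M = rB.M := by
  letI := fibreProd_isLocalRing hA hB
  exact RigidLift.exists_prod h𝒟 hA hB residueField_ATA (fibreProd_ATA hA hB)
    (ATA_toK hA) (ATA_toK hB) (fibreProdFst hA hB) (fibreProdSnd hA hB)
    (fibreProdFst_isLocalHom hA hB) (fibreProdSnd_isLocalHom hA hB)
    (fibreProd_comm_sq hA hB) (fibreProd_injective hA hB) (fibreProd_exists hA hB)
    rA rB (RigidLift.mapMat_toK_eq hA hB rA rB)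

end Fermat.Agent.S53

end
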