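import Mathlib

set_option autoImplicit false

/-!
# Algebra homomorphisms between local algebras with the same residue field are local
-/

namespace Fermat.Agent.S53

open IsLocalRing

/-- Let `A`, `B` be local `𝒪`-algebras such that the residue field of `B` is a quotient of `𝒪`.
Then every `𝒪`-algebra homomorphism `A → B` is a local homomorphism. -/
theorem algHom_isLocalHom {𝒪 A B : Type} [CommRing 𝒪] [CommRing A] [IsLocalRing A]
    [Algebra 𝒪 A] [CommRing B] [IsLocalRing B] [Algebra 𝒪 B]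
    (hresB : Function.Surjective (residue B ∘ algebraMap 𝒪 B)) (φ : A →ₐ[𝒪] B) :
    IsLocalHom (φ : A →+* B) := by
  refine ⟨fun a ha => ?_⟩
  by_contra hna
  have hmem : a ∈ maximalIdeal A := (IsLocalRing.mem_maximalIdeal a).mpr hna
  obtain ⟨u, hu⟩ := ha
  -- pick `c : 𝒪` whose image is congruent to `u⁻¹`
  obtain ⟨c, hc⟩ := hresB (residue B ((u⁻¹ : Bˣ) : B))
  have hc' : algebraMap 𝒪 B c - ((u⁻¹ : Bˣ) : B) ∈ maximalIdeal B := by
    rw [← Ideal.Quotient.eq]
    exact hc
  -- `1 - a * algebraMap c` is a unit of `A`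
  have h1 : IsUnit (1 - a * algebraMap 𝒪 A c) := by
    have hm : a * algebraMap 𝒪 A c ∈ maximalIdeal A := Ideal.mul_mem_right _ _ hmem
    by_contra hnu
    have h2 : (1 - a * algebraMap 𝒪 A c) ∈ maximalIdeal A :=
      (IsLocalRing.mem_maximalIdeal _).mpr hnu
    have h3 : (1 : A) ∈ maximalIdeal A := by
      have := Ideal.add_mem _ h2 hm
      simpa using this
    exact (Ideal.ne_top_iff_one _).mp (Ideal.IsMaximal.ne_top inferInstance) h3
  have h4 : IsUnit ((φ : A →+* B) (1 - a * algebraMap 𝒪 A c)) := h1.map _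
  have h5 : (φ : A →+* B) (1 - a * algebraMap 𝒪 A c) =
      -((u : B) * (algebraMap 𝒪 B c - ((u⁻¹ : Bˣ) : B))) := by
    have hφa : (φ : A →+* B) a = (u : B) := hu.symm
    rw [map_sub, map_one, map_mul, hφa]
    have : (φ : A →+* B) (algebraMap 𝒪 A c) = algebraMap 𝒪 B c := φ.commutes c
    rw [this, mul_sub, Units.mul_inv]
    ring
  rw [h5] at h4
  have h6 : (u : B) * (algebraMap 𝒪 B c - ((u⁻¹ : Bˣ) : B)) ∈ maximalIdeal B :=
    Ideal.mul_mem_left _ _ hc'
  have h7 : -((u : B) * (algebraMap 𝒪 B c - ((u⁻¹ : Bˣ) : B))) ∈ maximalIdeal B :=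
    Ideal.neg_mem_iff _ |>.mpr h6
  exact (IsLocalRing.mem_maximalIdeal _).mp h7 h4

end Fermat.Agent.S53
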