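import Mathlib.RingTheory.AdicCompletion.Basic
import Mathlib.RingTheory.Ideal.Quotient.Basic
import Mathlib.Data.Fintype.Basic
import Mathlib.Data.Finset.Union

/-!
# A compactness (Mittag-Leffler) lemma for precomplete rings with finite quotients

If `S` is `m`-adically precomplete with all `S ⧸ m ^ n` finite, then a family of congruence
conditions `x ≡ c α mod I α` with open ideals `I α` that is finitely satisfiable is satisfiable.
-/

namespace Fermat.Agent.S53

open Classical in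
/-- One step of the construction: a class mod `m ^ n` through which every finite subfamily can be
solved can be refined to such a class mod `m ^ (n + 1)`. -/
theorem exists_refine_of_fip {S : Type*} [CommRing S] (m : Ideal S) (n : ℕ)
    (hfin : Finite (S ⧸ m ^ (n + 1))) {ι : Type*} (I : ι → Ideal S) (c : ι → S) (x : S)
    (hx : ∀ Φ : Finset ι, ∃ y : S, y - x ∈ m ^ n ∧ ∀ α ∈ Φ, y - c α ∈ I α) :
    ∃ x' : S, x' - x ∈ m ^ n ∧
      ∀ Φ : Finset ι, ∃ y : S, y - x' ∈ m ^ (n + 1) ∧ ∀ α ∈ Φ, y - c α ∈ I α := by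
  by_contra hcon
  push Not at hcon
  -- for every class `u` mod `m ^ (n+1)` choose a bad finite family, if there is one
  have hbad : ∀ u : S ⧸ m ^ (n + 1), ∃ Φ : Finset ι,
      (∃ x' : S, Ideal.Quotient.mk _ x' = u ∧ x' - x ∈ m ^ n) →
        ∀ y : S, Ideal.Quotient.mk (m ^ (n + 1)) y = u → ∃ α ∈ Φ, y - c α ∉ I α := by
    intro u
    by_cases hu : ∃ x' : S, Ideal.Quotient.mk (m ^ (n + 1)) x' = u ∧ x' - x ∈ m ^ n
    · obtain ⟨x', hx'u, hx'⟩ := hu
      obtain ⟨Φ, hΦ⟩ := hcon x' hx'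
      refine ⟨Φ, fun _ y hy => hΦ y ?_⟩
      rw [← Ideal.Quotient.eq, hy, hx'u]
    · exact ⟨∅, fun h => absurd h hu⟩
  choose Φ hΦ using hbad
  let _ : Fintype (S ⧸ m ^ (n + 1)) := Fintype.ofFinite _
  obtain ⟨y, hyx, hy⟩ := hx (Finset.univ.biUnion Φ)
  obtain ⟨α, hα, hαy⟩ := hΦ (Ideal.Quotient.mk _ y) ⟨y, rfl, hyx⟩ y rfl
  exact hαy (hy α (Finset.mem_biUnion.mpr ⟨_, Finset.mem_univ _, hα⟩))

theorem exists_mem_of_fip {S : Type} [CommRing S] (m : Ideal S) [IsPrecomplete m S]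
    (hfin : ∀ n, Finite (S ⧸ m ^ n)) {ι : Type*} (I : ι → Ideal S) (c : ι → S)
    (hopen : ∀ α, ∃ n, m ^ n ≤ I α)
    (hfip : ∀ Φ : Finset ι, ∃ x : S, ∀ α ∈ Φ, x - c α ∈ I α) :
    ∃ x : S, ∀ α, x - c α ∈ I α := by
  classical
  -- `Good n x`: every finite subfamily has a solution congruent to `x` mod `m ^ n`
  let Good : ℕ → S → Prop := fun n x =>
    ∀ Φ : Finset ι, ∃ y : S, y - x ∈ m ^ n ∧ ∀ α ∈ Φ, y - c α ∈ I α
  have h0 : Good 0 0 := fun Φ => by
    obtain ⟨y, hy⟩ := hfip Φ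
    exact ⟨y, by simp, hy⟩
  have hstep : ∀ n (x : {x : S // Good n x}),
      ∃ x' : {x : S // Good (n + 1) x}, (x' : S) - x ∈ m ^ n := by
    rintro n ⟨x, hx⟩
    obtain ⟨x', hx'x, hx'⟩ := exists_refine_of_fip m n (hfin (n + 1)) I c x hx
    exact ⟨⟨x', hx'⟩, hx'x⟩
  choose next hnext using hstep
  -- the compatible sequence
  let seq : ∀ n, {x : S // Good n x} := fun n =>
    Nat.rec (motive := fun n => {x : S // Good n x}) ⟨0, h0⟩ (fun n x => next n x) n
  have hseq_succ : ∀ n, ((seq (n + 1) : {x : S // Good (n + 1) x}) : S) - (seq n : S) ∈ m ^ n :=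
    fun n => hnext n (seq n)
  have hcauchy : ∀ {a b : ℕ}, a ≤ b →
      (seq a : S) ≡ (seq b : S) [SMOD (m ^ a • ⊤ : Submodule S S)] := by
    intro a b hab
    induction b, hab using Nat.le_induction with
    | base => rfl
    | succ b hab ih =>
      refine ih.trans ?_
      rw [SModEq.sub_mem, smul_eq_mul, Ideal.mul_top]
      have h := hseq_succ b
      have h' : (seq (b + 1) : S) - (seq b : S) ∈ m ^ a := Ideal.pow_le_pow_right hab h
      have : (seq b : S) - (seq (b + 1) : S) = -((seq (b + 1) : S) - (seq b : S)) := by ring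
      rw [this]
      exact (m ^ a).neg_mem h'
  obtain ⟨L, hL⟩ := IsPrecomplete.prec (I := m) (M := S) inferInstance (f := fun n => (seq n : S))
    hcauchy
  refine ⟨L, fun α => ?_⟩
  obtain ⟨n, hn⟩ := hopen α
  obtain ⟨y, hy, hyα⟩ := (seq n).2 {α}
  have hLn : (seq n : S) - L ∈ m ^ n := by
    have := hL n
    rwa [SModEq.sub_mem, smul_eq_mul, Ideal.mul_top] at this
  have : L - c α = (y - c α) - (y - (seq n : S)) - ((seq n : S) - L) := by ring
  rw [this]
  exact (I α).sub_mem ((I α).sub_mem (hyα α (Finset.mem_singleton_self α)) (hn hy)) (hn hLn)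

end Fermat.Agent.S53
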