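import Mathlib
import Fermat.Prelude.Thm_IsAdicComplete_of_module_finite

/-!
# Completeness of `MvPowerSeries σ 𝒪` for the maximal-adic topology

For a local ring `𝒪` which is complete for its maximal ideal and a finite index type `σ`,
the power series ring `MvPowerSeries σ 𝒪` is complete for its own maximal ideal.
-/

set_option autoImplicit false

namespace Fermat.Agent.S53

open IsLocalRing MvPowerSeries

section CoeffIdeal

variable {𝒪 : Type*} [CommRing 𝒪] {σ : Type*}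

/-- The ideal of power series whose coefficient at `α` lies in `I ^ (n - deg α)`. -/
def coeffIdeal (I : Ideal 𝒪) (n : ℕ) : Ideal (MvPowerSeries σ 𝒪) where
  carrier := {f | ∀ α : σ →₀ ℕ, coeff α f ∈ I ^ (n - α.degree)}
  add_mem' := by
    intro f g hf hg α
    rw [map_add]
    exact Ideal.add_mem _ (hf α) (hg α)
  zero_mem' := by
    intro α
    rw [map_zero]
    exact Ideal.zero_mem _
  smul_mem' := by
    classical
    intro g f hf α
    rw [smul_eq_mul, coeff_mul]
    refine Ideal.sum_mem _ fun p hp => ?_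
    rw [Finset.HasAntidiagonal.mem_antidiagonal] at hp
    refine Ideal.mul_mem_left _ _ ?_
    refine Ideal.pow_le_pow_right ?_ (hf p.2)
    have : p.2.degree ≤ α.degree := by
      rw [← hp, map_add]
      exact Nat.le_add_left _ _
    omega

theorem mem_coeffIdeal {I : Ideal 𝒪} {n : ℕ} {f : MvPowerSeries σ 𝒪} :
    f ∈ coeffIdeal (σ := σ) I n ↔ ∀ α : σ →₀ ℕ, coeff α f ∈ I ^ (n - α.degree) :=
  Iff.rfl

theorem coeffIdeal_mul_le (I : Ideal 𝒪) (n m : ℕ) :
    coeffIdeal (σ := σ) I n * coeffIdeal I m ≤ coeffIdeal I (n + m) := by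
  classical
  rw [Ideal.mul_le]
  intro f hf g hg α
  rw [coeff_mul]
  refine Ideal.sum_mem _ fun p hp => ?_
  rw [Finset.HasAntidiagonal.mem_antidiagonal] at hp
  have hdeg : α.degree = p.1.degree + p.2.degree := by
    rw [← hp, map_add]
  have h1 := Ideal.mul_mem_mul (hf p.1) (hg p.2)
  rw [← pow_add] at h1
  refine Ideal.pow_le_pow_right ?_ h1
  omega

theorem pow_le_coeffIdeal (I : Ideal 𝒪) (J : Ideal (MvPowerSeries σ 𝒪))
    (hJ : J ≤ coeffIdeal I 1) (n : ℕ) : J ^ n ≤ coeffIdeal I n := by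
  induction n with
  | zero =>
    intro f _ α
    simp
  | succ n ih =>
    rw [pow_succ]
    exact (Ideal.mul_mono ih hJ).trans (coeffIdeal_mul_le I n 1)

end CoeffIdeal


section Trunc

variable {𝒪 : Type*} [CommRing 𝒪] {σ : Type*} [Finite σ]

/-- The difference between a power series and its truncation in total degree `< n`
lies in the `n`-th power of the ideal of variables. -/
theorem sub_truncTotal_mem_pow_span_X (n : ℕ) (f : MvPowerSeries σ 𝒪) :
    f - ((truncTotal n f : MvPolynomial σ 𝒪) : MvPowerSeries σ 𝒪) ∈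
      (Ideal.span (Set.range (X : σ → MvPowerSeries σ 𝒪))) ^ n := by
  classical
  set g : MvPowerSeries σ 𝒪 := f - ((truncTotal n f : MvPolynomial σ 𝒪) : MvPowerSeries σ 𝒪)
    with hg
  have hcoeff : ∀ α : σ →₀ ℕ, α.degree < n → coeff α g = 0 := by
    intro α hα
    rw [hg, map_sub, MvPolynomial.coeff_coe, coeff_truncTotal _ hα, sub_self]
  have hfg := MvPolynomial.idealOfVars_fg σ 𝒪
  have hker : toAdicCompletionAlgEquiv σ 𝒪 g ∈
      (AdicCompletion.eval (MvPolynomial.idealOfVars σ 𝒪) (MvPolynomial σ 𝒪) n).ker := by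
    rw [LinearMap.mem_ker, AdicCompletion.eval_apply, toAdicCompletionAlgEquiv_apply,
      toAdicCompletion_apply_eq_mk_truncTotal]
    have : truncTotal n g = 0 := by
      ext α
      by_cases hα : α.degree < n
      · rw [coeff_truncTotal _ hα, hcoeff α hα, MvPolynomial.coeff_zero]
      · rw [coeff_truncTotal_eq_zero _ (not_lt.mp hα), MvPolynomial.coeff_zero]
    rw [this, map_zero]
  rw [← AdicCompletion.pow_smul_top_eq_ker_eval hfg] at hker
  have key : ∀ x ∈ (MvPolynomial.idealOfVars σ 𝒪 ^ n •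
      (⊤ : Submodule (MvPolynomial σ 𝒪)
        (AdicCompletion (MvPolynomial.idealOfVars σ 𝒪) (MvPolynomial σ 𝒪)))),
      (toAdicCompletionAlgEquiv σ 𝒪).symm x ∈
        (Ideal.span (Set.range (X : σ → MvPowerSeries σ 𝒪))) ^ n := by
    intro x hx
    refine Submodule.smul_induction_on hx ?_ ?_
    · intro r hr y _
      rw [map_smul, Algebra.smul_def]
      refine Ideal.mul_mem_right _ _ ?_
      have h1 : algebraMap (MvPolynomial σ 𝒪) (MvPowerSeries σ 𝒪) r ∈
          Ideal.map (algebraMap (MvPolynomial σ 𝒪) (MvPowerSeries σ 𝒪))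
            (MvPolynomial.idealOfVars σ 𝒪 ^ n) := Ideal.mem_map_of_mem _ hr
      rw [Ideal.map_pow, MvPolynomial.idealOfVars, Ideal.map_span, ← Set.range_comp] at h1
      have h2 : (⇑(algebraMap (MvPolynomial σ 𝒪) (MvPowerSeries σ 𝒪)) ∘ MvPolynomial.X) =
          (X : σ → MvPowerSeries σ 𝒪) := by
        funext i
        rw [Function.comp_apply, MvPowerSeries.algebraMap_apply', Algebra.algebraMap_self,
          MvPowerSeries.map_id, RingHom.id_apply, MvPolynomial.coe_X]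
      rwa [h2] at h1
    · intro x y hx hy
      rw [map_add]
      exact Ideal.add_mem _ hx hy
  have := key _ hker
  rwa [AlgEquiv.symm_apply_apply] at this

end Trunc


section Complete

variable {𝒪 : Type*} [CommRing 𝒪] [IsLocalRing 𝒪] {σ : Type*}

theorem mem_maximalIdeal_iff_constantCoeff (f : MvPowerSeries σ 𝒪) :
    f ∈ maximalIdeal (MvPowerSeries σ 𝒪) ↔ constantCoeff f ∈ maximalIdeal 𝒪 := by
  rw [mem_maximalIdeal, mem_maximalIdeal, mem_nonunits_iff, mem_nonunits_iff,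
    isUnit_iff_constantCoeff]

theorem maximalIdeal_le_coeffIdeal :
    maximalIdeal (MvPowerSeries σ 𝒪) ≤ coeffIdeal (maximalIdeal 𝒪) 1 := by
  intro f hf α
  by_cases hα : α = 0
  · subst hα
    rw [map_zero, Nat.sub_zero, pow_one]
    exact (mem_maximalIdeal_iff_constantCoeff f).mp hf
  · have h : 1 - α.degree = 0 := by
      have := (Finsupp.degree_eq_zero_iff α).not.mpr hα
      omega
    rw [h, pow_zero, Ideal.one_eq_top]
    exact Submodule.mem_top

theorem pow_maximalIdeal_le_coeffIdeal (n : ℕ) :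
    maximalIdeal (MvPowerSeries σ 𝒪) ^ n ≤ coeffIdeal (maximalIdeal 𝒪) n :=
  pow_le_coeffIdeal _ _ maximalIdeal_le_coeffIdeal n

theorem X_mem_maximalIdeal (i : σ) :
    (X i : MvPowerSeries σ 𝒪) ∈ maximalIdeal (MvPowerSeries σ 𝒪) := by
  rw [mem_maximalIdeal_iff_constantCoeff, constantCoeff_X]
  exact zero_mem _

theorem span_X_le_maximalIdeal :
    Ideal.span (Set.range (X : σ → MvPowerSeries σ 𝒪)) ≤ maximalIdeal (MvPowerSeries σ 𝒪) := by
  rw [Ideal.span_le]
  rintro _ ⟨i, rfl⟩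
  exact X_mem_maximalIdeal i

theorem C_mem_pow_maximalIdeal {c : 𝒪} {k : ℕ} (hc : c ∈ maximalIdeal 𝒪 ^ k) :
    (C c : MvPowerSeries σ 𝒪) ∈ maximalIdeal (MvPowerSeries σ 𝒪) ^ k := by
  have h1 : Ideal.map (C : 𝒪 →+* MvPowerSeries σ 𝒪) (maximalIdeal 𝒪) ≤
      maximalIdeal (MvPowerSeries σ 𝒪) := by
    rw [Ideal.map_le_iff_le_comap]
    intro x hx
    rw [Ideal.mem_comap, mem_maximalIdeal_iff_constantCoeff, constantCoeff_C]
    exact hx
  have h2 := Ideal.mem_map_of_mem (C : 𝒪 →+* MvPowerSeries σ 𝒪) hc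
  rw [Ideal.map_pow] at h2
  exact Ideal.pow_right_mono h1 k h2

theorem coe_monomial_mem_pow_maximalIdeal (n : ℕ) (α : σ →₀ ℕ) (c : 𝒪)
    (hc : c ∈ maximalIdeal 𝒪 ^ (n - α.degree)) :
    ((MvPolynomial.monomial α c : MvPolynomial σ 𝒪) : MvPowerSeries σ 𝒪) ∈
      maximalIdeal (MvPowerSeries σ 𝒪) ^ n := by
  classical
  rw [MvPolynomial.monomial_eq, MvPolynomial.coe_mul, MvPolynomial.coe_C]
  have h1 := C_mem_pow_maximalIdeal (σ := σ) hc
  have h2 : ((α.prod fun i e => (MvPolynomial.X i : MvPolynomial σ 𝒪) ^ e : MvPolynomial σ 𝒪) :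
      MvPowerSeries σ 𝒪) ∈ maximalIdeal (MvPowerSeries σ 𝒪) ^ α.degree := by
    have h3 : ((α.prod fun i e => (MvPolynomial.X i : MvPolynomial σ 𝒪) ^ e :
        MvPolynomial σ 𝒪) : MvPowerSeries σ 𝒪) =
        ∏ i ∈ α.support, (X i : MvPowerSeries σ 𝒪) ^ α i := by
      rw [Finsupp.prod, ← MvPolynomial.coeToMvPowerSeries.ringHom_apply, map_prod]
      refine Finset.prod_congr rfl fun i _ => ?_
      rw [map_pow, MvPolynomial.coeToMvPowerSeries.ringHom_apply, MvPolynomial.coe_X]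
    rw [h3]
    have h4 : α.degree = ∑ i ∈ α.support, α i := rfl
    rw [h4, ← Finset.prod_pow_eq_pow_sum]
    exact Ideal.prod_mem_prod fun i _ => Ideal.pow_mem_pow (X_mem_maximalIdeal i) _
  have h5 := Ideal.mul_mem_mul h1 h2
  rw [← pow_add] at h5
  exact Ideal.pow_le_pow_right (by omega) h5

theorem coe_mem_pow_maximalIdeal (n : ℕ) (p : MvPolynomial σ 𝒪)
    (hp : ∀ α, p.coeff α ∈ maximalIdeal 𝒪 ^ (n - α.degree)) :
    (p : MvPowerSeries σ 𝒪) ∈ maximalIdeal (MvPowerSeries σ 𝒪) ^ n := by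
  have h : (p : MvPowerSeries σ 𝒪) =
      ∑ v ∈ p.support, ((MvPolynomial.monomial v (p.coeff v) : MvPolynomial σ 𝒪) :
        MvPowerSeries σ 𝒪) := by
    conv_lhs => rw [p.as_sum]
    rw [← MvPolynomial.coeToMvPowerSeries.ringHom_apply, map_sum]
    rfl
  rw [h]
  exact Ideal.sum_mem _ fun v _ => coe_monomial_mem_pow_maximalIdeal n v _ (hp v)

variable [Finite σ]

theorem coeffIdeal_le_pow_maximalIdeal (n : ℕ) :
    coeffIdeal (maximalIdeal 𝒪) n ≤ maximalIdeal (MvPowerSeries σ 𝒪) ^ n := by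
  intro f hf
  have h1 := sub_truncTotal_mem_pow_span_X n f
  have h2 : f - ((truncTotal n f : MvPolynomial σ 𝒪) : MvPowerSeries σ 𝒪) ∈
      maximalIdeal (MvPowerSeries σ 𝒪) ^ n :=
    Ideal.pow_right_mono span_X_le_maximalIdeal n h1
  have h3 : ((truncTotal n f : MvPolynomial σ 𝒪) : MvPowerSeries σ 𝒪) ∈
      maximalIdeal (MvPowerSeries σ 𝒪) ^ n := by
    refine coe_mem_pow_maximalIdeal n _ fun α => ?_
    by_cases hα : α.degree < n
    · rw [coeff_truncTotal _ hα]
      exact hf α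
    · rw [coeff_truncTotal_eq_zero _ (not_lt.mp hα)]
      exact zero_mem _
  have := Ideal.add_mem _ h2 h3
  rwa [sub_add_cancel] at this

theorem pow_maximalIdeal_eq_coeffIdeal (n : ℕ) :
    maximalIdeal (MvPowerSeries σ 𝒪) ^ n = coeffIdeal (maximalIdeal 𝒪) n :=
  le_antisymm (pow_maximalIdeal_le_coeffIdeal n) (coeffIdeal_le_pow_maximalIdeal n)

theorem mem_pow_maximalIdeal_iff (n : ℕ) (f : MvPowerSeries σ 𝒪) :
    f ∈ maximalIdeal (MvPowerSeries σ 𝒪) ^ n ↔
      ∀ α : σ →₀ ℕ, coeff α f ∈ maximalIdeal 𝒪 ^ (n - α.degree) := by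
  rw [pow_maximalIdeal_eq_coeffIdeal]
  rfl

/-- `MvPowerSeries σ 𝒪` is complete for its maximal ideal when `𝒪` is. -/
theorem isAdicComplete_maximalIdeal_mvPowerSeries
    [IsAdicComplete (maximalIdeal 𝒪) 𝒪] :
    IsAdicComplete (maximalIdeal (MvPowerSeries σ 𝒪)) (MvPowerSeries σ 𝒪) := by
  have hsm : ∀ n : ℕ, (maximalIdeal (MvPowerSeries σ 𝒪) ^ n •
      (⊤ : Submodule (MvPowerSeries σ 𝒪) (MvPowerSeries σ 𝒪))) =
      maximalIdeal (MvPowerSeries σ 𝒪) ^ n := fun n => by
    rw [smul_eq_mul, Ideal.mul_top]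
  have hsm' : ∀ n : ℕ, (maximalIdeal 𝒪 ^ n • (⊤ : Submodule 𝒪 𝒪)) = maximalIdeal 𝒪 ^ n :=
    fun n => by rw [smul_eq_mul, Ideal.mul_top]
  have hH : IsHausdorff (maximalIdeal (MvPowerSeries σ 𝒪)) (MvPowerSeries σ 𝒪) := by
    constructor
    intro f hf
    ext α
    rw [map_zero]
    refine IsHausdorff.haus (I := maximalIdeal 𝒪) inferInstance _ fun n => ?_
    rw [SModEq.zero, hsm']
    have h1 := hf (n + α.degree)
    rw [SModEq.zero, hsm, mem_pow_maximalIdeal_iff] at h1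
    have h2 := h1 α
    rwa [Nat.add_sub_cancel] at h2
  have hP : IsPrecomplete (maximalIdeal (MvPowerSeries σ 𝒪)) (MvPowerSeries σ 𝒪) := by
    constructor
    intro f hf
    have hcauchy : ∀ α : σ →₀ ℕ, ∃ c : 𝒪, ∀ n : ℕ,
        coeff α (f (n + α.degree)) ≡ c [SMOD (maximalIdeal 𝒪 ^ n • (⊤ : Submodule 𝒪 𝒪))] := by
      intro α
      refine IsPrecomplete.prec (I := maximalIdeal 𝒪) inferInstance ?_
      intro m n hmn
      rw [SModEq.sub_mem, hsm', ← map_sub]
      have h1 := hf (Nat.add_le_add_right hmn α.degree)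
      rw [SModEq.sub_mem, hsm, mem_pow_maximalIdeal_iff] at h1
      have h2 := h1 α
      rwa [Nat.add_sub_cancel] at h2
    choose c hc using hcauchy
    obtain ⟨L, hL⟩ : ∃ L : MvPowerSeries σ 𝒪, ∀ α, coeff α L = c α := ⟨c, fun α => rfl⟩
    refine ⟨L, fun n => ?_⟩
    rw [SModEq.sub_mem, hsm, mem_pow_maximalIdeal_iff]
    intro α
    by_cases hα : α.degree ≤ n
    · have h1 := hc α (n - α.degree)
      rw [SModEq.sub_mem, hsm', Nat.sub_add_cancel hα] at h1
      rw [map_sub, hL]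
      exact h1
    · have : n - α.degree = 0 := by omega
      rw [this, pow_zero, Ideal.one_eq_top]
      exact Submodule.mem_top
  exact { toIsHausdorff := hH, toIsPrecomplete := hP }

end Complete

end Fermat.Agent.S53
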