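import Mathlib
import Fermat.Prelude.Def_GaloisRep_DeformationCondition
import Fermat.Agent.S53.TestAlg
import Fermat.Agent.S53.MittagLeffler
import Fermat.Agent.S53.PowerSeriesComplete
import Fermat.Agent.S53.MatrixModel
import Fermat.Prelude.Thm_IsLocalRing_isAdicComplete_of_module_finite

/-!
# S53: abstract pro-representability

`IsRigidFamily 𝒪 I c E` axiomatises a "rigid" deformation problem: for every Artinian test
algebra `A` a set `E` of families `I → A`, stable under push-forward, injective descent and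
fibre products, with finitely many points over the dual numbers.  `exists_proRep` shows that
such a problem is pro-represented by a complete noetherian local `𝒪`-algebra.
-/

set_option autoImplicit false
set_option linter.unusedSectionVars false
set_option linter.unusedVariables false
set_option linter.style.haveILetI false

noncomputable section

namespace Fermat.Agent.S53

open IsLocalRing GaloisRep

/-- An abstract rigid deformation problem with index type `I` and base point `c`. -/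
structure IsRigidFamily (𝒪 : Type) [CommRing 𝒪] [IsLocalRing 𝒪] (I : Type) (c : I → 𝒪)
    (E : ∀ ⦃A : Type⦄ [CommRing A] [IsLocalRing A] [Algebra 𝒪 A], (I → A) → Prop) : Prop where
  strict : ∀ ⦃A : Type⦄ [CommRing A] [IsLocalRing A] [Algebra 𝒪 A],
    IsArtinianTestAlgebra 𝒪 A → ∀ ⦃x : I → A⦄, E x →
      ∀ i, x i - algebraMap 𝒪 A (c i) ∈ maximalIdeal A
  map : ∀ ⦃A B : Type⦄ [CommRing A] [IsLocalRing A] [Algebra 𝒪 A]
    [CommRing B] [IsLocalRing B] [Algebra 𝒪 B],
    IsArtinianTestAlgebra 𝒪 A → IsArtinianTestAlgebra 𝒪 B →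
    ∀ (φ : A →ₐ[𝒪] B) ⦃x : I → A⦄, E x → E (fun i => φ (x i))
  descent : ∀ ⦃A B : Type⦄ [CommRing A] [IsLocalRing A] [Algebra 𝒪 A]
    [CommRing B] [IsLocalRing B] [Algebra 𝒪 B],
    IsArtinianTestAlgebra 𝒪 A → IsArtinianTestAlgebra 𝒪 B →
    ∀ (φ : A →ₐ[𝒪] B), Function.Injective φ → ∀ ⦃x : I → A⦄, E (fun i => φ (x i)) → E x
  fibre : ∀ ⦃A B C P : Type⦄ [CommRing A] [IsLocalRing A] [Algebra 𝒪 A]
    [CommRing B] [IsLocalRing B] [Algebra 𝒪 B] [CommRing C] [IsLocalRing C] [Algebra 𝒪 C]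
    [CommRing P] [IsLocalRing P] [Algebra 𝒪 P],
    IsArtinianTestAlgebra 𝒪 A → IsArtinianTestAlgebra 𝒪 B → IsArtinianTestAlgebra 𝒪 C →
    IsArtinianTestAlgebra 𝒪 P →
    ∀ (f : A →ₐ[𝒪] C) (g : B →ₐ[𝒪] C) (pA : P →ₐ[𝒪] A) (pB : P →ₐ[𝒪] B),
      f.comp pA = g.comp pB →
      Function.Injective (fun x => (pA x, pB x)) →
      (∀ a b, f a = g b → ∃ x, pA x = a ∧ pB x = b) →
      ∀ ⦃x : I → P⦄, E (fun i => pA (x i)) → E (fun i => pB (x i)) → E x
  base : E (fun i => residue 𝒪 (c i))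
  finite_tangent : letI := dualNumberAlgebra 𝒪
    Set.Finite {x : I → DualNumber (ResidueField 𝒪) | E x}

section Separating

/-- Finitely many functions are separated by finitely many arguments. -/
theorem exists_separating_indices {I Y : Type} (T : Set (I → Y)) (hT : T.Finite) :
    ∃ (d : ℕ) (s : Fin d → I), ∀ t ∈ T, ∀ t' ∈ T, (∀ l, t (s l) = t' (s l)) → t = t' := by
  classical
  let pick : (I → Y) × (I → Y) → Finset I := fun p =>
    if h : p.1 = p.2 then ∅ else {Classical.choose (Function.ne_iff.mp h)}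
  let F : Finset I := (hT.toFinset ×ˢ hT.toFinset).biUnion pick
  refine ⟨F.card, fun l => (F.equivFin.symm l : I), ?_⟩
  intro t ht t' ht' h
  by_contra hne
  have hmem : Classical.choose (Function.ne_iff.mp hne) ∈ F := by
    refine Finset.mem_biUnion.mpr ⟨(t, t'), ?_, ?_⟩
    · simp [ht, ht']
    · simp only [pick, dif_neg hne, Finset.mem_singleton]
  have hspec := Classical.choose_spec (Function.ne_iff.mp hne)
  apply hspec
  have := h (F.equivFin ⟨_, hmem⟩)
  simpa using this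

end Separating

section Generation

variable {𝒪 : Type} [CommRing 𝒪] [IsLocalRing 𝒪]

/-- The inclusion of the residue field into the dual numbers, as an `𝒪`-algebra map. -/
def inlDual (𝒪 : Type) [CommRing 𝒪] [IsLocalRing 𝒪] :
    letI := dualNumberAlgebra 𝒪
    ResidueField 𝒪 →ₐ[𝒪] DualNumber (ResidueField 𝒪) :=
  letI := dualNumberAlgebra 𝒪
  { TrivSqZeroExt.inlHom (ResidueField 𝒪) (ResidueField 𝒪) with
    commutes' := fun _ => rfl }

theorem inlDual_apply (a : ResidueField 𝒪) :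
    inlDual 𝒪 a = TrivSqZeroExt.inl a := rfl

/-- Any `𝒪`-algebra map from an Artinian test algebra to the dual numbers induces the
canonical map on residue fields. -/
theorem fst_algHom_dualNumber {A : Type} [CommRing A] [IsLocalRing A] [Algebra 𝒪 A]
    (hA : IsArtinianTestAlgebra 𝒪 A)
    (ψ : letI := dualNumberAlgebra 𝒪; A →ₐ[𝒪] DualNumber (ResidueField 𝒪)) (a : A) :
    TrivSqZeroExt.fst (ψ a) = ATA_toK hA a := by
  letI := dualNumberAlgebra 𝒪
  haveI := hA.isLocalHom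
  obtain ⟨o, ho⟩ := exists_algebraMap_add_mem hA.residue_surjective a
  obtain ⟨n, hn⟩ := ATA_maximalIdeal_nilpotent hA
  have hnil : (a - algebraMap 𝒪 A o) ^ n = 0 := by
    have : (a - algebraMap 𝒪 A o) ^ n ∈ maximalIdeal A ^ n := Ideal.pow_mem_pow ho n
    rwa [hn, Ideal.mem_bot] at this
  have h1 : TrivSqZeroExt.fst (ψ (a - algebraMap 𝒪 A o)) = 0 := by
    have h2 : (TrivSqZeroExt.fst (ψ (a - algebraMap 𝒪 A o))) ^ n = 0 := by
      rw [← TrivSqZeroExt.fst_pow, ← map_pow, hnil, map_zero, TrivSqZeroExt.fst_zero]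
    exact eq_zero_of_pow_eq_zero h2
  have h3 : ATA_toK hA (a - algebraMap 𝒪 A o) = 0 := (ATA_toK_eq_zero_iff hA _).mpr ho
  rw [map_sub, AlgHom.commutes] at h1 h3
  rw [TrivSqZeroExt.fst_sub, dualNumberAlgebra_algebraMap_apply, TrivSqZeroExt.fst_inl,
    sub_eq_zero] at h1
  rw [sub_eq_zero] at h3
  rw [h1, h3]
  rfl

variable [Finite (ResidueField 𝒪)] {I : Type} {c : I → 𝒪}
  {E : ∀ ⦃A : Type⦄ [CommRing A] [IsLocalRing A] [Algebra 𝒪 A], (I → A) → Prop}

/-- The coordinates `s` separate the points of `E` over the dual numbers. -/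
def SeparatesTangent (𝒪 : Type) [CommRing 𝒪] [IsLocalRing 𝒪] {I : Type}
    (E : ∀ ⦃A : Type⦄ [CommRing A] [IsLocalRing A] [Algebra 𝒪 A], (I → A) → Prop)
    {d : ℕ} (s : Fin d → I) : Prop :=
  letI := dualNumberAlgebra 𝒪
  ∀ t t' : I → DualNumber (ResidueField 𝒪), E t → E t' → (∀ l, t (s l) = t' (s l)) → t = t'

theorem exists_separatesTangent (h : IsRigidFamily 𝒪 I c E) :
    ∃ (d : ℕ) (s : Fin d → I), SeparatesTangent 𝒪 E s := by
  letI := dualNumberAlgebra 𝒪
  obtain ⟨d, s, hs⟩ := exists_separating_indices _ h.finite_tangent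
  exact ⟨d, s, fun t t' ht ht' hl => hs t ht t' ht' hl⟩

/-- **Generation lemma.** Over an Artinian test algebra, every member of a family in `E` lies
in the subalgebra generated by the separating coordinates. -/
theorem mem_adjoin_coords (h : IsRigidFamily 𝒪 I c E) {d : ℕ} {s : Fin d → I}
    (hs : SeparatesTangent 𝒪 E s)
    {A : Type} [CommRing A] [IsLocalRing A] [Algebra 𝒪 A] (hA : IsArtinianTestAlgebra 𝒪 A)
    {x : I → A} (hx : E x) (i : I) :
    x i ∈ Algebra.adjoin 𝒪 (Set.range fun l => x (s l)) := by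
  classical
  letI := dualNumberAlgebra 𝒪
  haveI := ATA_finite hA
  -- the subalgebra generated by all members
  set S : Subalgebra 𝒪 A := Algebra.adjoin 𝒪 (Set.range x) with hS
  letI := subalgebra_isLocalRing S
  have hSA : IsArtinianTestAlgebra 𝒪 S := subalgebra_ATA hA S
  let x' : I → S := fun i => ⟨x i, Algebra.subset_adjoin ⟨i, rfl⟩⟩
  have hx' : E x' := h.descent hSA hA S.val Subtype.val_injective (x := x') hx
  -- the subalgebra of `S` generated by the coordinates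
  set S₀ : Subalgebra 𝒪 S := Algebra.adjoin 𝒪 (Set.range fun l => x' (s l)) with hS₀
  have htop : Algebra.adjoin 𝒪 (Set.range x') = (⊤ : Subalgebra 𝒪 S) := by
    have h1 : Set.range x' = ((↑) : S → A) ⁻¹' (Set.range x) := by
      ext ⟨a, ha⟩
      constructor
      · rintro ⟨i, hi⟩
        exact ⟨i, congrArg Subtype.val hi⟩
      · rintro ⟨i, hi⟩
        exact ⟨i, Subtype.ext hi⟩
    rw [h1]
    exact Algebra.adjoin_adjoin_coe_preimage
  have hS₀top : S₀ = ⊤ := by
    by_contra hne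
    obtain ⟨π, hπsurj, -, hπ⟩ := exists_algHom_dualNumber_of_ne_top hSA S₀ hne
    let π₀ : S →ₐ[𝒪] DualNumber (ResidueField 𝒪) := (inlDual 𝒪).comp (ATA_toK hSA)
    have hfst : ∀ a : S, TrivSqZeroExt.fst (π a) = ATA_toK hSA a :=
      fun a => fst_algHom_dualNumber hSA π a
    have hEt : E (fun i => π (x' i)) := h.map hSA dualNumber_ATA π hx'
    have hEt₀ : E (fun i => π₀ (x' i)) := h.map hSA dualNumber_ATA π₀ hx'
    have hl : ∀ l, π (x' (s l)) = π₀ (x' (s l)) := by
      intro l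
      have hmem : x' (s l) ∈ S₀ := Algebra.subset_adjoin ⟨l, rfl⟩
      refine TrivSqZeroExt.ext ?_ ?_
      · rw [hfst]; rfl
      · rw [hπ _ hmem]; rfl
    have heq := hs _ _ hEt hEt₀ hl
    have hle : Algebra.adjoin 𝒪 (Set.range x') ≤ AlgHom.equalizer π π₀ := by
      apply Algebra.adjoin_le
      rintro _ ⟨i, rfl⟩
      exact congrFun heq i
    rw [htop] at hle
    obtain ⟨a, ha⟩ := hπsurj (TrivSqZeroExt.inr 1)
    have h2 : π a = π₀ a := hle (Algebra.mem_top (x := a))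
    have h3 : TrivSqZeroExt.snd (π a) = (1 : ResidueField 𝒪) := by
      rw [ha, TrivSqZeroExt.snd_inr]
    have h4 : TrivSqZeroExt.snd (π₀ a) = (0 : ResidueField 𝒪) := rfl
    rw [h2, h4] at h3
    exact zero_ne_one h3
  have hmem : x' i ∈ S₀ := by rw [hS₀top]; exact Algebra.mem_top
  have hmap : S₀.map S.val = Algebra.adjoin 𝒪 (Set.range fun l => x (s l)) := by
    rw [hS₀, AlgHom.map_adjoin]
    congr 1
    ext a
    constructor
    · rintro ⟨_, ⟨l, rfl⟩, rfl⟩
      exact ⟨l, rfl⟩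
    · rintro ⟨l, rfl⟩
      exact ⟨x' (s l), ⟨l, rfl⟩, rfl⟩
  rw [← hmap]
  exact ⟨x' i, hmem, rfl⟩

/-- **Uniqueness.** Over an Artinian test algebra, a family in `E` is determined by its
separating coordinates. -/
theorem eq_of_coords_eq (h : IsRigidFamily 𝒪 I c E) {d : ℕ} {s : Fin d → I}
    (hs : SeparatesTangent 𝒪 E s)
    {A : Type} [CommRing A] [IsLocalRing A] [Algebra 𝒪 A] (hA : IsArtinianTestAlgebra 𝒪 A)
    {x y : I → A} (hx : E x) (hy : E y) (hxy : ∀ l, x (s l) = y (s l)) : x = y := by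
  classical
  letI := fibreProd_isLocalRing hA hA
  have hP : IsArtinianTestAlgebra 𝒪 (fibreProd hA hA) := fibreProd_ATA hA hA
  have hres : ∀ i, ATA_toK hA (x i) = ATA_toK hA (y i) := by
    intro i
    have h1 := (ATA_toK_eq_zero_iff hA _).mpr (h.strict hA hx i)
    have h2 := (ATA_toK_eq_zero_iff hA _).mpr (h.strict hA hy i)
    rw [map_sub, sub_eq_zero] at h1 h2
    rw [h1, h2]
  let z : I → fibreProd hA hA := fun i => ⟨(x i, y i), hres i⟩
  have hz : E z := h.fibre hA hA residueField_ATA hP (ATA_toK hA) (ATA_toK hA)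
    (fibreProdFst hA hA) (fibreProdSnd hA hA) (fibreProd_comm_sq hA hA)
    (fibreProd_injective hA hA) (fibreProd_exists hA hA) (x := z) hx hy
  funext i
  have hi := mem_adjoin_coords h hs hP hz i
  have hle : Algebra.adjoin 𝒪 (Set.range fun l => z (s l)) ≤
      AlgHom.equalizer (fibreProdFst hA hA) (fibreProdSnd hA hA) := by
    apply Algebra.adjoin_le
    rintro _ ⟨l, rfl⟩
    exact hxy l
  exact hle hi

end Generation

section LocalHom

variable {𝒪 : Type} [CommRing 𝒪]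

/-- An `𝒪`-algebra map from a local ring to a local `𝒪`-algebra whose residue field is a
quotient of `𝒪` is a local homomorphism. -/
theorem proRep_algHom_isLocalHom {P A : Type} [CommRing P] [IsLocalRing P]
    [Algebra 𝒪 P] [CommRing A] [IsLocalRing A] [Algebra 𝒪 A]
    (hA : Function.Surjective (IsLocalRing.residue A ∘ algebraMap 𝒪 A)) (φ : P →ₐ[𝒪] A) :
    IsLocalHom (φ : P →+* A) := by
  refine ⟨fun p hp => ?_⟩
  by_contra hnu
  have hpm : p ∈ maximalIdeal P := hnu
  obtain ⟨u, hu⟩ := hp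
  obtain ⟨o, ho⟩ := hA (IsLocalRing.residue A (↑u⁻¹ : A))
  have ho' : (↑u⁻¹ : A) - algebraMap 𝒪 A o ∈ maximalIdeal A := by
    rw [← IsLocalRing.residue_eq_zero_iff, map_sub, sub_eq_zero]
    exact ho.symm
  have h1 : IsUnit (1 - algebraMap 𝒪 P o * p) := by
    have hmem : algebraMap 𝒪 P o * p ∈ maximalIdeal P := Ideal.mul_mem_left _ _ hpm
    by_contra h
    have h2 : (1 - algebraMap 𝒪 P o * p) ∈ maximalIdeal P := h
    have h3 : (1 : P) ∈ maximalIdeal P := by
      have := Ideal.add_mem _ h2 hmem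
      simpa using this
    exact (Ideal.ne_top_iff_one _).mp (maximalIdeal.isMaximal P).ne_top h3
  have h4 : IsUnit ((φ : P →+* A) (1 - algebraMap 𝒪 P o * p)) := h1.map _
  have h5 : (φ : P →+* A) (1 - algebraMap 𝒪 P o * p) =
      ((↑u⁻¹ : A) - algebraMap 𝒪 A o) * (u : A) := by
    have hφp : (φ : P →+* A) p = (u : A) := hu.symm
    simp only [map_sub, map_one, map_mul, hφp]
    rw [show (φ : P →+* A) (algebraMap 𝒪 P o) = algebraMap 𝒪 A o from φ.commutes o]
    rw [sub_mul, Units.inv_mul]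
  rw [h5] at h4
  exact (IsLocalRing.mem_maximalIdeal _).1 (Ideal.mul_mem_right _ _ ho') h4

end LocalHom

section CoordRing

variable {𝒪 : Type} [CommRing 𝒪] [IsLocalRing 𝒪] [Finite (ResidueField 𝒪)]
  {I : Type} {c : I → 𝒪}
  {E : ∀ ⦃A : Type⦄ [CommRing A] [IsLocalRing A] [Algebra 𝒪 A], (I → A) → Prop}
  {P : Type} [CommRing P] [IsLocalRing P] [IsNoetherianRing P] [Algebra 𝒪 P]
  [IsLocalHom (algebraMap 𝒪 P)]
  {d : ℕ}

/-- An ideal `K` of the coordinate ring is *admissible* if `P ⧸ K` is an Artinian test algebra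
carrying a family in `E` with coordinates `X l + c (s l)`. -/
def Adm (c : I → 𝒪)
    (E : ∀ ⦃A : Type⦄ [CommRing A] [IsLocalRing A] [Algebra 𝒪 A], (I → A) → Prop)
    (s : Fin d → I) (X : Fin d → P) (K : Ideal P) : Prop :=
  ∃ hK : K ≠ ⊤, (∃ n, maximalIdeal P ^ n ≤ K) ∧
    ∃ x : I → P ⧸ K, @E (P ⧸ K) _ (quotient_isLocalRing K hK) _ x ∧
      ∀ l, x (s l) = Ideal.Quotient.mk K (X l) + algebraMap 𝒪 (P ⧸ K) (c (s l))

variable {s : Fin d → I} {X : Fin d → P}

theorem Adm.ne_top {K : Ideal P} (hK : Adm c E s X K) : K ≠ ⊤ := hK.1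

theorem Adm.isOpen {K : Ideal P} (hK : Adm c E s X K) : ∃ n, maximalIdeal P ^ n ≤ K := hK.2.1

theorem Adm.ATA (hres : Function.Surjective (IsLocalRing.residue P ∘ algebraMap 𝒪 P))
    {K : Ideal P} (hK : Adm c E s X K) :
    @IsArtinianTestAlgebra 𝒪 _ (P ⧸ K) _ (quotient_isLocalRing K hK.ne_top) _ :=
  quotient_ATA hres K hK.ne_top hK.isOpen

/-- The family over `P ⧸ K` for an admissible ideal `K`. -/
def Adm.fam {K : Ideal P} (hK : Adm c E s X K) : I → P ⧸ K := hK.2.2.choose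

theorem Adm.fam_mem {K : Ideal P} (hK : Adm c E s X K) :
    @E (P ⧸ K) _ (quotient_isLocalRing K hK.ne_top) _ hK.fam := hK.2.2.choose_spec.1

theorem Adm.fam_coord {K : Ideal P} (hK : Adm c E s X K) (l : Fin d) :
    hK.fam (s l) = Ideal.Quotient.mk K (X l) + algebraMap 𝒪 (P ⧸ K) (c (s l)) :=
  hK.2.2.choose_spec.2 l

/-- The kernel of an algebra map to an Artinian test algebra carrying a family with the
right coordinates is admissible. -/
theorem Adm.of_algHom (h : IsRigidFamily 𝒪 I c E) (hs : SeparatesTangent 𝒪 E s)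
    (hres : Function.Surjective (IsLocalRing.residue P ∘ algebraMap 𝒪 P))
    {A : Type} [CommRing A] [IsLocalRing A] [Algebra 𝒪 A] (hA : IsArtinianTestAlgebra 𝒪 A)
    {x : I → A} (hx : E x) (φ : P →ₐ[𝒪] A)
    (hφ : ∀ l, φ (X l) = x (s l) - algebraMap 𝒪 A (c (s l))) :
    Adm c E s X (RingHom.ker (φ : P →+* A)) := by
  have hloc : IsLocalHom (φ : P →+* A) :=
    proRep_algHom_isLocalHom hA.residue_surjective φ
  have hne : RingHom.ker (φ : P →+* A) ≠ ⊤ := by
    intro htop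
    have h1 : (1 : P) ∈ RingHom.ker (φ : P →+* A) := by rw [htop]; exact Submodule.mem_top
    rw [RingHom.mem_ker, map_one] at h1
    exact one_ne_zero h1
  have hopen : ∃ n, maximalIdeal P ^ n ≤ RingHom.ker (φ : P →+* A) := by
    obtain ⟨n, hn⟩ := ATA_maximalIdeal_nilpotent hA
    refine ⟨n, fun p hp => ?_⟩
    have := map_maximalIdeal_pow_le (φ : P →+* A) hloc n hp
    rw [hn, Ideal.mem_bot] at this
    exact this
  letI := quotient_isLocalRing _ hne
  have hQ : IsArtinianTestAlgebra 𝒪 (P ⧸ RingHom.ker (φ : P →+* A)) :=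
    quotient_ATA hres _ hne hopen
  -- the injective map `P ⧸ ker φ → A`
  let φbar : (P ⧸ RingHom.ker (φ : P →+* A)) →ₐ[𝒪] A := Ideal.kerLiftAlg φ
  have hφbar_inj : Function.Injective φbar := Ideal.kerLiftAlg_injective φ
  have hφbar_mk : ∀ p : P, φbar (Ideal.Quotient.mk _ p) = φ p := fun p => rfl
  -- all members of `x` are in the range of `φ`
  have hrange : ∀ i, x i ∈ φ.range := by
    intro i
    have h1 := mem_adjoin_coords h hs hA hx i
    have h2 : Algebra.adjoin 𝒪 (Set.range fun l => x (s l)) ≤ φ.range := by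
      apply Algebra.adjoin_le
      rintro _ ⟨l, rfl⟩
      refine ⟨X l + algebraMap 𝒪 P (c (s l)), ?_⟩
      show φ (X l + algebraMap 𝒪 P (c (s l))) = x (s l)
      rw [map_add, hφ l, AlgHom.commutes]
      ring
    exact h2 h1
  choose p hp using hrange
  have hp' : ∀ i, φ (p i) = x i := hp
  refine ⟨hne, hopen, fun i => Ideal.Quotient.mk _ (p i), ?_, ?_⟩
  · apply h.descent hQ hA φbar hφbar_inj
    have : (fun i => φbar (Ideal.Quotient.mk _ (p i))) = x := by
      funext i; rw [hφbar_mk, hp']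
    rw [this]; exact hx
  · intro l
    apply hφbar_inj
    rw [hφbar_mk, hp', map_add, hφbar_mk, hφ l, AlgHom.commutes]
    ring

/-- Any `𝒪`-algebra map from `P` to the residue field of `𝒪` is the canonical one. -/
theorem algHom_residueField_eq_toK
    (hres : Function.Surjective (IsLocalRing.residue P ∘ algebraMap 𝒪 P))
    (ψ : P →ₐ[𝒪] ResidueField 𝒪) : ψ = toK hres := by
  have hloc : IsLocalHom (ψ : P →+* ResidueField 𝒪) :=
    proRep_algHom_isLocalHom
      (residueField_ATA (𝒪 := 𝒪)).residue_surjective ψ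
  apply AlgHom.ext
  intro p
  obtain ⟨o, ho⟩ := exists_algebraMap_add_mem hres p
  have h1 : ψ (p - algebraMap 𝒪 P o) = 0 := by
    by_contra hne
    have hu : IsUnit ((ψ : P →+* ResidueField 𝒪) (p - algebraMap 𝒪 P o)) :=
      isUnit_iff_ne_zero.mpr hne
    exact (IsLocalRing.mem_maximalIdeal _).1 ho (hloc.map_nonunit _ hu)
  have h2 : toK hres (p - algebraMap 𝒪 P o) = 0 := (toK_eq_zero_iff hres _).mpr ho
  rw [map_sub, AlgHom.commutes, sub_eq_zero] at h1 h2
  rw [h1, h2]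

/-- Uniqueness of the family over an admissible quotient. -/
theorem Adm.fam_unique (h : IsRigidFamily 𝒪 I c E) (hs : SeparatesTangent 𝒪 E s)
    (hres : Function.Surjective (IsLocalRing.residue P ∘ algebraMap 𝒪 P))
    {K : Ideal P} (hK : Adm c E s X K) {x : I → P ⧸ K}
    (hx : @E (P ⧸ K) _ (quotient_isLocalRing K hK.ne_top) _ x)
    (hxc : ∀ l, x (s l) = Ideal.Quotient.mk K (X l) + algebraMap 𝒪 (P ⧸ K) (c (s l))) :
    x = hK.fam := by
  letI := quotient_isLocalRing K hK.ne_top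
  exact eq_of_coords_eq h hs (hK.ATA hres) hx hK.fam_mem
    (fun l => by rw [hxc l, hK.fam_coord l])

theorem Adm.mono (h : IsRigidFamily 𝒪 I c E) (hs : SeparatesTangent 𝒪 E s)
    (hres : Function.Surjective (IsLocalRing.residue P ∘ algebraMap 𝒪 P))
    {K K' : Ideal P} (hK : Adm c E s X K) (hKK' : K ≤ K') (hK' : K' ≠ ⊤) :
    Adm c E s X K' := by
  letI := quotient_isLocalRing K hK.ne_top
  letI := quotient_isLocalRing K' hK'
  have hQ : IsArtinianTestAlgebra 𝒪 (P ⧸ K) := hK.ATA hres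
  have hopen : ∃ n, maximalIdeal P ^ n ≤ K' := by
    obtain ⟨n, hn⟩ := hK.isOpen
    exact ⟨n, hn.trans hKK'⟩
  have hQ' : IsArtinianTestAlgebra 𝒪 (P ⧸ K') := quotient_ATA hres K' hK' hopen
  let f : (P ⧸ K) →ₐ[𝒪] (P ⧸ K') := Ideal.Quotient.factorₐ 𝒪 hKK'
  have hf : ∀ p : P, f (Ideal.Quotient.mk K p) = Ideal.Quotient.mk K' p := fun p => rfl
  have hE : E (fun i => f (hK.fam i)) := h.map hQ hQ' f hK.fam_mem
  have key := Adm.of_algHom (X := X) h hs hres hQ' hE (Ideal.Quotient.mkₐ 𝒪 K') (fun l => by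
    show Ideal.Quotient.mk K' (X l) = f (hK.fam (s l)) - algebraMap 𝒪 (P ⧸ K') (c (s l))
    rw [hK.fam_coord l, map_add, hf, AlgHom.commutes]
    ring)
  have hker : RingHom.ker ((Ideal.Quotient.mkₐ 𝒪 K' : P →ₐ[𝒪] P ⧸ K') : P →+* P ⧸ K') = K' :=
    Ideal.mk_ker
  rwa [hker] at key

/-- Compatibility of the families under the factor maps. -/
theorem Adm.factor_fam (h : IsRigidFamily 𝒪 I c E) (hs : SeparatesTangent 𝒪 E s)
    (hres : Function.Surjective (IsLocalRing.residue P ∘ algebraMap 𝒪 P))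
    {K K' : Ideal P} (hK : Adm c E s X K) (hK' : Adm c E s X K') (hKK' : K ≤ K') (i : I) :
    Ideal.Quotient.factor hKK' (hK.fam i) = hK'.fam i := by
  letI := quotient_isLocalRing K hK.ne_top
  letI := quotient_isLocalRing K' hK'.ne_top
  have hQ : IsArtinianTestAlgebra 𝒪 (P ⧸ K) := hK.ATA hres
  have hQ' : IsArtinianTestAlgebra 𝒪 (P ⧸ K') := hK'.ATA hres
  let f : (P ⧸ K) →ₐ[𝒪] (P ⧸ K') := Ideal.Quotient.factorₐ 𝒪 hKK'
  have hf : ∀ p : P, f (Ideal.Quotient.mk K p) = Ideal.Quotient.mk K' p := fun p => rfl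
  have hE : E (fun i => f (hK.fam i)) := h.map hQ hQ' f hK.fam_mem
  have := hK'.fam_unique h hs hres hE (fun l => by
    show f (hK.fam (s l)) = _
    rw [hK.fam_coord l, map_add, hf, AlgHom.commutes])
  exact congrFun this i

theorem Adm.inf (h : IsRigidFamily 𝒪 I c E) (hs : SeparatesTangent 𝒪 E s)
    (hres : Function.Surjective (IsLocalRing.residue P ∘ algebraMap 𝒪 P))
    {K K' : Ideal P} (hK : Adm c E s X K) (hK' : Adm c E s X K') :
    Adm c E s X (K ⊓ K') := by
  letI := quotient_isLocalRing K hK.ne_top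
  letI := quotient_isLocalRing K' hK'.ne_top
  have hQ : IsArtinianTestAlgebra 𝒪 (P ⧸ K) := hK.ATA hres
  have hQ' : IsArtinianTestAlgebra 𝒪 (P ⧸ K') := hK'.ATA hres
  letI := fibreProd_isLocalRing hQ hQ'
  have hF : IsArtinianTestAlgebra 𝒪 (fibreProd hQ hQ') := fibreProd_ATA hQ hQ'
  have hresfam : ∀ i, ATA_toK hQ (hK.fam i) = ATA_toK hQ' (hK'.fam i) := by
    intro i
    have h1 := (ATA_toK_eq_zero_iff hQ _).mpr (h.strict hQ hK.fam_mem i)
    have h2 := (ATA_toK_eq_zero_iff hQ' _).mpr (h.strict hQ' hK'.fam_mem i)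
    rw [map_sub, sub_eq_zero, AlgHom.commutes] at h1 h2
    rw [h1, h2]
  let z : I → fibreProd hQ hQ' := fun i => ⟨(hK.fam i, hK'.fam i), hresfam i⟩
  have hz : E z := h.fibre hQ hQ' residueField_ATA hF (ATA_toK hQ) (ATA_toK hQ')
    (fibreProdFst hQ hQ') (fibreProdSnd hQ hQ') (fibreProd_comm_sq hQ hQ')
    (fibreProd_injective hQ hQ') (fibreProd_exists hQ hQ') (x := z) hK.fam_mem hK'.fam_mem
  have hmem : ∀ p : P, ((Ideal.Quotient.mkₐ 𝒪 K).prod (Ideal.Quotient.mkₐ 𝒪 K')) p ∈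
      fibreProd hQ hQ' := by
    intro p
    rw [mem_fibreProd_iff]
    have e1 := algHom_residueField_eq_toK hres ((ATA_toK hQ).comp (Ideal.Quotient.mkₐ 𝒪 K))
    have e2 := algHom_residueField_eq_toK hres ((ATA_toK hQ').comp (Ideal.Quotient.mkₐ 𝒪 K'))
    have := congrArg (fun ψ : P →ₐ[𝒪] ResidueField 𝒪 => ψ p) (e1.trans e2.symm)
    exact this
  let φ : P →ₐ[𝒪] fibreProd hQ hQ' :=
    AlgHom.codRestrict ((Ideal.Quotient.mkₐ 𝒪 K).prod (Ideal.Quotient.mkₐ 𝒪 K')) _ hmem
  have hφ1 : ∀ p, ((φ p : (P ⧸ K) × (P ⧸ K'))).1 = Ideal.Quotient.mk K p := fun p => rfl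
  have hφ2 : ∀ p, ((φ p : (P ⧸ K) × (P ⧸ K'))).2 = Ideal.Quotient.mk K' p := fun p => rfl
  have key := Adm.of_algHom (X := X) h hs hres hF hz φ (fun l => by
    apply Subtype.ext
    apply Prod.ext
    · show Ideal.Quotient.mk K (X l) = hK.fam (s l) - algebraMap 𝒪 (P ⧸ K) (c (s l))
      rw [hK.fam_coord l]; ring
    · show Ideal.Quotient.mk K' (X l) = hK'.fam (s l) - algebraMap 𝒪 (P ⧸ K') (c (s l))
      rw [hK'.fam_coord l]; ring)
  have hker : RingHom.ker (φ : P →+* fibreProd hQ hQ') = K ⊓ K' := by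
    ext p
    rw [RingHom.mem_ker, Ideal.mem_inf]
    constructor
    · intro hp
      have h1 : (φ p : (P ⧸ K) × (P ⧸ K')) = 0 := congrArg Subtype.val hp
      constructor
      · rw [← Ideal.Quotient.eq_zero_iff_mem, ← hφ1, h1]; rfl
      · rw [← Ideal.Quotient.eq_zero_iff_mem, ← hφ2, h1]; rfl
    · rintro ⟨h1, h2⟩
      apply Subtype.ext
      apply Prod.ext
      · show Ideal.Quotient.mk K p = 0
        exact Ideal.Quotient.eq_zero_iff_mem.mpr h1
      · show Ideal.Quotient.mk K' p = 0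
        exact Ideal.Quotient.eq_zero_iff_mem.mpr h2
  rwa [hker] at key

/-- The maximal ideal is admissible. -/
theorem adm_maximalIdeal (h : IsRigidFamily 𝒪 I c E) (hs : SeparatesTangent 𝒪 E s)
    (hres : Function.Surjective (IsLocalRing.residue P ∘ algebraMap 𝒪 P))
    (hX : ∀ l, X l ∈ maximalIdeal P) :
    Adm c E s X (maximalIdeal P) := by
  have key := Adm.of_algHom (X := X) h hs hres residueField_ATA h.base (toK hres) (fun l => by
    rw [(toK_eq_zero_iff hres _).mpr (hX l)]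
    show (0 : ResidueField 𝒪) = residue 𝒪 (c (s l)) - residue 𝒪 (c (s l))
    rw [sub_self])
  have hker : RingHom.ker ((toK hres : P →ₐ[𝒪] ResidueField 𝒪) : P →+* ResidueField 𝒪) =
      maximalIdeal P := by
    ext p
    rw [RingHom.mem_ker]
    exact toK_eq_zero_iff hres p
  rwa [hker] at key

/-! ### The ideals `J n` and `J` -/

/-- The set of admissible ideals containing `𝔪 ^ (n + 1)`. -/
def admSet (c : I → 𝒪)
    (E : ∀ ⦃A : Type⦄ [CommRing A] [IsLocalRing A] [Algebra 𝒪 A], (I → A) → Prop)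
    (s : Fin d → I) (X : Fin d → P) (n : ℕ) : Set (Ideal P) :=
  {K | Adm c E s X K ∧ maximalIdeal P ^ (n + 1) ≤ K}

/-- The smallest admissible ideal containing `𝔪 ^ (n + 1)`. -/
def Jn (c : I → 𝒪)
    (E : ∀ ⦃A : Type⦄ [CommRing A] [IsLocalRing A] [Algebra 𝒪 A], (I → A) → Prop)
    (s : Fin d → I) (X : Fin d → P) (n : ℕ) : Ideal P :=
  sInf (admSet c E s X n)

/-- The intersection of all admissible ideals. -/
def Jinf (c : I → 𝒪)
    (E : ∀ ⦃A : Type⦄ [CommRing A] [IsLocalRing A] [Algebra 𝒪 A], (I → A) → Prop)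
    (s : Fin d → I) (X : Fin d → P) : Ideal P :=
  ⨅ n, Jn c E s X n

theorem finite_quotient_pow
    (hres : Function.Surjective (IsLocalRing.residue P ∘ algebraMap 𝒪 P)) (n : ℕ) :
    Finite (P ⧸ maximalIdeal P ^ n) := by
  cases n with
  | zero =>
    rw [pow_zero, Ideal.one_eq_top]
    haveI : Subsingleton (P ⧸ (⊤ : Ideal P)) := Ideal.Quotient.subsingleton_iff.mpr rfl
    infer_instance
  | succ n =>
    letI := quotient_isLocalRing _ (maximalIdeal_pow_succ_ne_top P n)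
    exact ATA_finite (quotient_pow_ATA (𝒪 := 𝒪) hres n)

theorem finite_setOf_le (hres : Function.Surjective (IsLocalRing.residue P ∘ algebraMap 𝒪 P))
    (n : ℕ) : Set.Finite {K : Ideal P | maximalIdeal P ^ n ≤ K} := by
  haveI := finite_quotient_pow (𝒪 := 𝒪) hres n
  haveI : Finite (Ideal (P ⧸ maximalIdeal P ^ n)) :=
    Finite.of_injective (fun K => (K : Set (P ⧸ maximalIdeal P ^ n))) SetLike.coe_injective
  apply Set.Finite.of_finite_image (f := Ideal.map (Ideal.Quotient.mk (maximalIdeal P ^ n)))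
    (Set.toFinite _)
  intro K hK K' hK' hKK'
  have h1 := congrArg (Ideal.comap (Ideal.Quotient.mk (maximalIdeal P ^ n))) hKK'
  rw [Ideal.comap_map_of_surjective _ Ideal.Quotient.mk_surjective,
    Ideal.comap_map_of_surjective _ Ideal.Quotient.mk_surjective] at h1
  have hbot : Ideal.comap (Ideal.Quotient.mk (maximalIdeal P ^ n)) ⊥ = maximalIdeal P ^ n := by
    rw [← RingHom.ker_eq_comap_bot, Ideal.mk_ker]
  rw [hbot, sup_eq_left.mpr hK, sup_eq_left.mpr hK'] at h1
  exact h1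

theorem admSet_finite (hres : Function.Surjective (IsLocalRing.residue P ∘ algebraMap 𝒪 P))
    (n : ℕ) : (admSet c E s X n).Finite :=
  (finite_setOf_le (𝒪 := 𝒪) hres (n + 1)).subset fun _ hK => hK.2

theorem maximalIdeal_mem_admSet (h : IsRigidFamily 𝒪 I c E) (hs : SeparatesTangent 𝒪 E s)
    (hres : Function.Surjective (IsLocalRing.residue P ∘ algebraMap 𝒪 P))
    (hX : ∀ l, X l ∈ maximalIdeal P) (n : ℕ) :
    maximalIdeal P ∈ admSet c E s X n :=
  ⟨adm_maximalIdeal h hs hres hX, Ideal.pow_le_self (Nat.succ_ne_zero n)⟩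

theorem adm_sInf (h : IsRigidFamily 𝒪 I c E) (hs : SeparatesTangent 𝒪 E s)
    (hres : Function.Surjective (IsLocalRing.residue P ∘ algebraMap 𝒪 P))
    {S : Set (Ideal P)} (hfin : S.Finite) (hne : S.Nonempty)
    (hS : ∀ K ∈ S, Adm c E s X K) : Adm c E s X (sInf S) := by
  induction S, hfin using Set.Finite.induction_on with
  | empty => exact absurd hne Set.not_nonempty_empty
  | @insert a S ha hfin ih =>
    rw [sInf_insert]
    by_cases hSe : S.Nonempty
    · exact Adm.inf h hs hres (hS a (Set.mem_insert a S))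
        (ih hSe fun K hK => hS K (Set.mem_insert_of_mem a hK))
    · rw [Set.not_nonempty_iff_eq_empty] at hSe
      rw [hSe, sInf_empty, inf_top_eq]
      exact hS a (Set.mem_insert a S)

theorem adm_Jn (h : IsRigidFamily 𝒪 I c E) (hs : SeparatesTangent 𝒪 E s)
    (hres : Function.Surjective (IsLocalRing.residue P ∘ algebraMap 𝒪 P))
    (hX : ∀ l, X l ∈ maximalIdeal P) (n : ℕ) : Adm c E s X (Jn c E s X n) :=
  adm_sInf h hs hres (admSet_finite hres n) ⟨_, maximalIdeal_mem_admSet h hs hres hX n⟩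
    fun _ hK => hK.1

theorem pow_le_Jn (n : ℕ) : maximalIdeal P ^ (n + 1) ≤ Jn c E s X n :=
  le_sInf fun _ hK => hK.2

theorem Jn_le_of_mem {K : Ideal P} {n : ℕ} (hK : K ∈ admSet c E s X n) : Jn c E s X n ≤ K :=
  sInf_le hK

theorem Jn_antitone {n m : ℕ} (hnm : n ≤ m) : Jn c E s X m ≤ Jn c E s X n := by
  apply sInf_le_sInf
  intro K hK
  exact ⟨hK.1, (Ideal.pow_le_pow_right (Nat.succ_le_succ hnm)).trans hK.2⟩

theorem Jn_le_maximalIdeal (h : IsRigidFamily 𝒪 I c E) (hs : SeparatesTangent 𝒪 E s)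
    (hres : Function.Surjective (IsLocalRing.residue P ∘ algebraMap 𝒪 P))
    (hX : ∀ l, X l ∈ maximalIdeal P) (n : ℕ) : Jn c E s X n ≤ maximalIdeal P :=
  Jn_le_of_mem (maximalIdeal_mem_admSet h hs hres hX n)

theorem Jinf_le_Jn (n : ℕ) : Jinf c E s X ≤ Jn c E s X n := iInf_le _ n

theorem Jinf_le_of_adm {K : Ideal P} (hK : Adm c E s X K) : Jinf c E s X ≤ K := by
  obtain ⟨n, hn⟩ := hK.isOpen
  exact (Jinf_le_Jn n).trans
    (Jn_le_of_mem ⟨hK, (Ideal.pow_le_pow_right (Nat.le_succ n)).trans hn⟩)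

theorem mem_Jinf_iff {p : P} : p ∈ Jinf c E s X ↔ ∀ n, p ∈ Jn c E s X n := by
  rw [Jinf, Ideal.mem_iInf]

/-- The key compactness statement: `J n = J + 𝔪 ^ (n + 1)`. -/
theorem Jn_le_Jinf_sup [IsPrecomplete (maximalIdeal P) P]
    (h : IsRigidFamily 𝒪 I c E) (hs : SeparatesTangent 𝒪 E s)
    (hres : Function.Surjective (IsLocalRing.residue P ∘ algebraMap 𝒪 P))
    (hX : ∀ l, X l ∈ maximalIdeal P) (n : ℕ) :
    Jn c E s X n ≤ Jinf c E s X ⊔ maximalIdeal P ^ (n + 1) := by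
  classical
  intro f hf
  let Iα : Option ℕ → Ideal P := fun o => o.elim (maximalIdeal P ^ (n + 1)) (Jn c E s X)
  let cα : Option ℕ → P := fun o => o.elim f (fun _ => 0)
  have hopen : ∀ α, ∃ k, maximalIdeal P ^ k ≤ Iα α := by
    rintro (_ | m)
    · exact ⟨n + 1, le_refl _⟩
    · exact ⟨m + 1, pow_le_Jn m⟩
  have hfip : ∀ Φ : Finset (Option ℕ), ∃ x : P, ∀ α ∈ Φ, x - cα α ∈ Iα α := by
    intro Φ
    let M : ℕ := Φ.sup (fun o => o.elim 0 id)
    have hM : ∀ m, some m ∈ Φ → m ≤ M := fun m hm =>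
      Finset.le_sup (f := fun o : Option ℕ => o.elim 0 id) hm
    have hK' : Jn c E s X M ⊔ maximalIdeal P ^ (n + 1) ≠ ⊤ := by
      have hle : Jn c E s X M ⊔ maximalIdeal P ^ (n + 1) ≤ maximalIdeal P :=
        sup_le (Jn_le_maximalIdeal h hs hres hX M) (Ideal.pow_le_self (Nat.succ_ne_zero n))
      exact (lt_of_le_of_lt hle (lt_top_iff_ne_top.2 (maximalIdeal.isMaximal P).ne_top)).ne
    have hadm : Adm c E s X (Jn c E s X M ⊔ maximalIdeal P ^ (n + 1)) :=
      Adm.mono h hs hres (adm_Jn h hs hres hX M) le_sup_left hK'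
    have hfmem : f ∈ Jn c E s X M ⊔ maximalIdeal P ^ (n + 1) :=
      Jn_le_of_mem (n := n) ⟨hadm, le_sup_right⟩ hf
    obtain ⟨a, ha, b, hb, hab⟩ := Submodule.mem_sup.mp hfmem
    refine ⟨a, ?_⟩
    rintro (_ | m) hα
    · show a - f ∈ maximalIdeal P ^ (n + 1)
      have : a - f = -b := by rw [← hab]; ring
      rw [this]
      exact Ideal.neg_mem_iff _ |>.mpr hb
    · show a - 0 ∈ Jn c E s X m
      rw [sub_zero]
      exact Jn_antitone (hM m hα) ha
  obtain ⟨x, hx⟩ := exists_mem_of_fip (maximalIdeal P) (finite_quotient_pow (𝒪 := 𝒪) hres)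
    Iα cα hopen hfip
  have hxJ : x ∈ Jinf c E s X := by
    rw [mem_Jinf_iff]
    intro m
    have := hx (some m)
    simpa [Iα, cα] using this
  have hxf : x - f ∈ maximalIdeal P ^ (n + 1) := hx none
  have : f = x + -(x - f) := by ring
  rw [this]
  exact Submodule.add_mem_sup hxJ (Ideal.neg_mem_iff _ |>.mpr hxf)

theorem Jn_eq_Jinf_sup [IsPrecomplete (maximalIdeal P) P]
    (h : IsRigidFamily 𝒪 I c E) (hs : SeparatesTangent 𝒪 E s)
    (hres : Function.Surjective (IsLocalRing.residue P ∘ algebraMap 𝒪 P))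
    (hX : ∀ l, X l ∈ maximalIdeal P) (n : ℕ) :
    Jn c E s X n = Jinf c E s X ⊔ maximalIdeal P ^ (n + 1) :=
  le_antisymm (Jn_le_Jinf_sup h hs hres hX n) (sup_le (Jinf_le_Jn n) (pow_le_Jn n))

/-- Compatible lifts of the families over the `P ⧸ J n`. -/
theorem exists_lift_fam [IsPrecomplete (maximalIdeal P) P]
    (h : IsRigidFamily 𝒪 I c E) (hs : SeparatesTangent 𝒪 E s)
    (hres : Function.Surjective (IsLocalRing.residue P ∘ algebraMap 𝒪 P))
    (hX : ∀ l, X l ∈ maximalIdeal P) :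
    ∃ p : I → P, ∀ n i,
      Ideal.Quotient.mk (Jn c E s X n) (p i) = (adm_Jn h hs hres hX n).fam i := by
  classical
  have key : ∀ i, ∃ p : P, ∀ n,
      Ideal.Quotient.mk (Jn c E s X n) p = (adm_Jn h hs hres hX n).fam i := by
    intro i
    choose q hq using fun n =>
      Ideal.Quotient.mk_surjective ((adm_Jn h hs hres hX n).fam i)
    have hcompat : ∀ n m, n ≤ m → q m - q n ∈ Jn c E s X n := by
      intro n m hnm
      rw [← Ideal.Quotient.eq, hq n]
      have := Adm.factor_fam h hs hres (adm_Jn h hs hres hX m) (adm_Jn h hs hres hX n)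
        (Jn_antitone hnm) i
      rw [← this, ← hq m]
      rfl
    have hfip : ∀ Φ : Finset ℕ, ∃ x : P, ∀ n ∈ Φ, x - q n ∈ Jn c E s X n := by
      intro Φ
      refine ⟨q (Φ.sup id), fun n hn => hcompat n _ (Finset.le_sup (f := id) hn)⟩
    obtain ⟨x, hx⟩ := exists_mem_of_fip (maximalIdeal P) (finite_quotient_pow (𝒪 := 𝒪) hres)
      (fun n => Jn c E s X n) q (fun n => ⟨n + 1, pow_le_Jn n⟩) hfip
    refine ⟨x, fun n => ?_⟩
    rw [← hq n, Ideal.Quotient.eq]
    exact hx n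
  choose p hp using key
  exact ⟨p, fun n i => hp i n⟩

/-! ### The pro-representing ring -/

theorem Jinf_ne_top (h : IsRigidFamily 𝒪 I c E) (hs : SeparatesTangent 𝒪 E s)
    (hres : Function.Surjective (IsLocalRing.residue P ∘ algebraMap 𝒪 P))
    (hX : ∀ l, X l ∈ maximalIdeal P) : Jinf c E s X ≠ ⊤ :=
  (lt_of_le_of_lt ((Jinf_le_Jn 0).trans (Jn_le_maximalIdeal h hs hres hX 0))
    (lt_top_iff_ne_top.2 (maximalIdeal.isMaximal P).ne_top)).ne

/-- Quotients of a local `𝒪`-algebra with local structure map and surjective residue map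
inherit these properties. -/
theorem quotient_algebraMap_isLocalHom (K : Ideal P) (hK : K ≠ ⊤) :
    IsLocalHom (algebraMap 𝒪 (P ⧸ K)) := by
  haveI := quotient_mk_isLocalHom (𝒪 := 𝒪) K hK
  refine ⟨fun o ho => ?_⟩
  have h1 : IsUnit (algebraMap 𝒪 P o) := by
    apply isUnit_of_map_unit (Ideal.Quotient.mkₐ 𝒪 K : P →+* P ⧸ K)
    exact ho
  exact isUnit_of_map_unit (algebraMap 𝒪 P) o h1

theorem quotient_residue_surjective
    (hres : Function.Surjective (IsLocalRing.residue P ∘ algebraMap 𝒪 P))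
    (K : Ideal P) (hK : K ≠ ⊤) :
    letI := quotient_isLocalRing K hK
    Function.Surjective (IsLocalRing.residue (P ⧸ K) ∘ algebraMap 𝒪 (P ⧸ K)) := by
  letI := quotient_isLocalRing K hK
  haveI := quotient_mk_isLocalHom (𝒪 := 𝒪) K hK
  intro x
  obtain ⟨y, rfl⟩ := IsLocalRing.residue_surjective x
  obtain ⟨a, rfl⟩ := Ideal.Quotient.mk_surjective y
  obtain ⟨o, ho⟩ := exists_algebraMap_add_mem hres a
  refine ⟨o, ?_⟩
  rw [Function.comp_apply, eq_comm, ← sub_eq_zero, ← map_sub, IsLocalRing.residue_eq_zero_iff]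
  have h1 := map_maximalIdeal_pow_le (Ideal.Quotient.mkₐ 𝒪 K : P →+* P ⧸ K)
    (quotient_mk_isLocalHom (𝒪 := 𝒪) K hK) 1 (a := a - algebraMap 𝒪 P o) (by rwa [pow_one])
  rw [pow_one] at h1
  have h2 : (Ideal.Quotient.mkₐ 𝒪 K : P →+* P ⧸ K) (a - algebraMap 𝒪 P o) =
      Ideal.Quotient.mk K a - algebraMap 𝒪 (P ⧸ K) o := by
    rw [map_sub]; rfl
  rw [h2] at h1
  exact h1

/-- **Abstract pro-representability over a coordinate ring.** -/
theorem exists_proRep_of_coordRing [IsAdicComplete (maximalIdeal P) P]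
    (h : IsRigidFamily 𝒪 I c E) (hs : SeparatesTangent 𝒪 E s)
    (hres : Function.Surjective (IsLocalRing.residue P ∘ algebraMap 𝒪 P))
    (hX : ∀ l, X l ∈ maximalIdeal P)
    (heval : ∀ ⦃A : Type⦄ [CommRing A] [IsLocalRing A] [Algebra 𝒪 A],
      IsArtinianTestAlgebra 𝒪 A → ∀ a : Fin d → A, (∀ l, a l ∈ maximalIdeal A) →
        ∃ φ : P →ₐ[𝒪] A, ∀ l, φ (X l) = a l)
    (hext : ∀ ⦃A : Type⦄ [CommRing A] [IsLocalRing A] [Algebra 𝒪 A],
      IsArtinianTestAlgebra 𝒪 A → ∀ φ ψ : P →ₐ[𝒪] A, (∀ l, φ (X l) = ψ (X l)) → φ = ψ) :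
    ∃ (R : Type) (_ : CommRing R) (_ : IsLocalRing R) (_ : IsNoetherianRing R)
      (_ : IsAdicComplete (maximalIdeal R) R) (_ : Algebra 𝒪 R)
      (_ : IsLocalHom (algebraMap 𝒪 R)),
      Function.Surjective (IsLocalRing.residue R ∘ algebraMap 𝒪 R) ∧
      ∃ xu : I → R,
        (∀ n, @E (R ⧸ maximalIdeal R ^ (n + 1)) _
            (quotient_isLocalRing _ (maximalIdeal_pow_succ_ne_top R n)) _
            (fun i => Ideal.Quotient.mk (maximalIdeal R ^ (n + 1)) (xu i))) ∧
        ∀ (A : Type) [CommRing A] [IsLocalRing A] [Algebra 𝒪 A], IsArtinianTestAlgebra 𝒪 A →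
          ∀ x : I → A, E x → ∃! φ : R →ₐ[𝒪] A, ∀ i, φ (xu i) = x i := by
  classical
  have hJne := Jinf_ne_top h hs hres hX
  letI hRloc : IsLocalRing (P ⧸ Jinf c E s X) := quotient_isLocalRing _ hJne
  haveI hmkloc : IsLocalHom (Ideal.Quotient.mkₐ 𝒪 (Jinf c E s X) : P →+* P ⧸ Jinf c E s X) :=
    quotient_mk_isLocalHom (𝒪 := 𝒪) _ hJne
  haveI hRalgloc : IsLocalHom (algebraMap 𝒪 (P ⧸ Jinf c E s X)) :=
    quotient_algebraMap_isLocalHom _ hJne
  have hRres : Function.Surjective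
      (IsLocalRing.residue (P ⧸ Jinf c E s X) ∘ algebraMap 𝒪 (P ⧸ Jinf c E s X)) :=
    quotient_residue_surjective hres _ hJne
  haveI hPRloc : IsLocalHom (algebraMap P (P ⧸ Jinf c E s X)) := hmkloc
  haveI hRcomplete : IsAdicComplete (maximalIdeal (P ⧸ Jinf c E s X)) (P ⧸ Jinf c E s X) :=
    IsLocalRing.isAdicComplete_of_module_finite (𝒪 := P) (T := P ⧸ Jinf c E s X)
  obtain ⟨p, hp⟩ := exists_lift_fam h hs hres hX
  refine ⟨P ⧸ Jinf c E s X, inferInstance, hRloc, inferInstance, hRcomplete, inferInstance,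
    hRalgloc, hRres, fun i => Ideal.Quotient.mk _ (p i), ?_, ?_⟩
  · -- the levels
    intro n
    letI := quotient_isLocalRing _ (maximalIdeal_pow_succ_ne_top (P ⧸ Jinf c E s X) n)
    have hQ : IsArtinianTestAlgebra 𝒪
        ((P ⧸ Jinf c E s X) ⧸ maximalIdeal (P ⧸ Jinf c E s X) ^ (n + 1)) :=
      quotient_pow_ATA hRres n
    have hadm := adm_Jn h hs hres hX n
    letI := quotient_isLocalRing _ hadm.ne_top
    have hQn : IsArtinianTestAlgebra 𝒪 (P ⧸ Jn c E s X n) := hadm.ATA hres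
    let g : P →ₐ[𝒪] (P ⧸ Jinf c E s X) ⧸ maximalIdeal (P ⧸ Jinf c E s X) ^ (n + 1) :=
      (Ideal.Quotient.mkₐ 𝒪 _).comp (Ideal.Quotient.mkₐ 𝒪 (Jinf c E s X))
    have hg : ∀ a ∈ Jn c E s X n, g a = 0 := by
      intro a ha
      rw [Jn_eq_Jinf_sup h hs hres hX n] at ha
      obtain ⟨a1, ha1, a2, ha2, rfl⟩ := Submodule.mem_sup.mp ha
      rw [map_add]
      have h1 : g a1 = 0 := by
        show Ideal.Quotient.mk _ (Ideal.Quotient.mk (Jinf c E s X) a1) = 0
        rw [Ideal.Quotient.eq_zero_iff_mem.mpr ha1, map_zero]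
      have h2 : g a2 = 0 := by
        show Ideal.Quotient.mk _ (Ideal.Quotient.mk (Jinf c E s X) a2) = 0
        rw [Ideal.Quotient.eq_zero_iff_mem]
        exact map_maximalIdeal_pow_le
          (Ideal.Quotient.mkₐ 𝒪 (Jinf c E s X) : P →+* P ⧸ Jinf c E s X) hmkloc (n + 1) ha2
      rw [h1, h2, add_zero]
    let ψ : (P ⧸ Jn c E s X n) →ₐ[𝒪]
        (P ⧸ Jinf c E s X) ⧸ maximalIdeal (P ⧸ Jinf c E s X) ^ (n + 1) :=
      Ideal.Quotient.liftₐ (Jn c E s X n) g hg
    have hψ : ∀ a : P, ψ (Ideal.Quotient.mk _ a) = g a := fun a => rfl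
    have hE := h.map hQn hQ ψ hadm.fam_mem
    have heq : (fun i => ψ (hadm.fam i)) = fun i =>
        Ideal.Quotient.mk (maximalIdeal (P ⧸ Jinf c E s X) ^ (n + 1))
          (Ideal.Quotient.mk (Jinf c E s X) (p i)) := by
      funext i
      rw [← hp n i, hψ]
      rfl
    rw [heq] at hE
    exact hE
  · -- the universal property
    intro A _ _ _ hA x hx
    obtain ⟨φx, hφx⟩ := heval hA (fun l => x (s l) - algebraMap 𝒪 A (c (s l)))
      (fun l => h.strict hA hx (s l))
    have hK := Adm.of_algHom (X := X) h hs hres hA hx φx hφx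
    have hJK : Jinf c E s X ≤ RingHom.ker (φx : P →+* A) := Jinf_le_of_adm hK
    let φ : (P ⧸ Jinf c E s X) →ₐ[𝒪] A :=
      Ideal.Quotient.liftₐ (Jinf c E s X) φx (fun a ha => hJK ha)
    have hφ : ∀ a : P, φ (Ideal.Quotient.mk _ a) = φx a := fun a => rfl
    -- coordinates of the universal family
    have hcoord : ∀ l, Ideal.Quotient.mk (Jinf c E s X) (p (s l)) =
        Ideal.Quotient.mk (Jinf c E s X) (X l) + algebraMap 𝒪 (P ⧸ Jinf c E s X) (c (s l)) := by
      intro l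
      have : p (s l) - (X l + algebraMap 𝒪 P (c (s l))) ∈ Jinf c E s X := by
        rw [mem_Jinf_iff]
        intro n
        rw [← Ideal.Quotient.eq, hp n (s l), (adm_Jn h hs hres hX n).fam_coord l]
        rfl
      rw [← Ideal.Quotient.eq] at this
      rw [this]
      rfl
    letI := quotient_isLocalRing _ hK.ne_top
    have hQK : IsArtinianTestAlgebra 𝒪 (P ⧸ RingHom.ker (φx : P →+* A)) := hK.ATA hres
    have hφx_p : ∀ i, φx (p i) = x i := by
      -- the family over `P ⧸ ker φx` maps to `x`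
      let φbar : (P ⧸ RingHom.ker (φx : P →+* A)) →ₐ[𝒪] A := Ideal.kerLiftAlg φx
      have hφbar_mk : ∀ a : P, φbar (Ideal.Quotient.mk _ a) = φx a := fun a => rfl
      have hy : E (fun i => φbar (hK.fam i)) := h.map hQK hA φbar hK.fam_mem
      have hyx : (fun i => φbar (hK.fam i)) = x := by
        apply eq_of_coords_eq h hs hA hy hx
        intro l
        show φbar (hK.fam (s l)) = x (s l)
        rw [hK.fam_coord l, map_add, hφbar_mk, hφx l, AlgHom.commutes]
        ring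
      intro i
      obtain ⟨m, hm⟩ := hK.isOpen
      have hmem : RingHom.ker (φx : P →+* A) ∈ admSet c E s X m :=
        ⟨hK, (Ideal.pow_le_pow_right (Nat.le_succ m)).trans hm⟩
      have hfac := Adm.factor_fam h hs hres (adm_Jn h hs hres hX m) hK (Jn_le_of_mem hmem) i
      rw [← hp m i] at hfac
      have h1 : Ideal.Quotient.mk (RingHom.ker (φx : P →+* A)) (p i) = hK.fam i := hfac
      rw [← hφbar_mk, h1]
      exact congrFun hyx i
    refine ⟨φ, fun i => ?_, fun ψ hψ => ?_⟩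
    · show φ (Ideal.Quotient.mk _ (p i)) = x i
      rw [hφ, hφx_p]
    · have hcomp : ψ.comp (Ideal.Quotient.mkₐ 𝒪 (Jinf c E s X)) = φx := by
        apply hext hA
        intro l
        show ψ (Ideal.Quotient.mk _ (X l)) = φx (X l)
        have h1 := hψ (s l)
        have h1' : ψ (Ideal.Quotient.mk (Jinf c E s X) (p (s l))) = x (s l) := h1
        rw [hcoord l, map_add, AlgHom.commutes] at h1'
        rw [hφx l, ← h1']
        ring
      apply AlgHom.ext
      intro r
      obtain ⟨a, rfl⟩ := Ideal.Quotient.mk_surjective r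
      rw [hφ, ← hcomp]
      rfl

end CoordRing

end Fermat.Agent.S53

end
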