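import Mathlib
import Fermat.Agent.S53.Core
import Fermat.Agent.S53.Residual
import Fermat.Agent.S53.Rigid2

/-!
# S53: the tangent bridge

`GaloisRep.TangentFinite` gives finiteness of the set of rigid lifts over the dual numbers, hence
finitely many matrix coordinates separating them.
-/

set_option autoImplicit false
set_option linter.style.haveILetI false

noncomputable section

namespace Fermat.Agent.S53

open IsLocalRing GaloisRep

variable {𝒪 : Type} [CommRing 𝒪] [IsLocalRing 𝒪]
  {ρbar : ResidualGaloisRep (ResidueField 𝒪)}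
  {𝒟 : ∀ ⦃A : Type⦄ [CommRing A] [IsLocalRing A] [Algebra 𝒪 A], GaloisRepAdic A → Prop}

section Uniq

variable {A : Type} [CommRing A] [IsLocalRing A] [Algebra 𝒪 A]

/-- For strict lifts the mixed commutator entry used for rigidification is a unit. -/
theorem tangentBridge_isUnit_comm (F : Frame 𝒪 ρbar) {M M' : GQ →* M2 A}
    (hs : IsStrict F M) (hs' : IsStrict F M') :
    IsUnit ((M' F.g₁ * M F.g₂ - M' F.g₂ * M' F.g₁) F.i₀ F.j₀) := by
  have hres : ∀ (N : GQ →* M2 A), IsStrict F N → ∀ σ i j,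
      residue A (N σ i j) = residue A (algebraMap 𝒪 A (F.lift σ i j)) := by
    intro N hN σ i j
    have h := hN σ i j
    rw [← sub_eq_zero, ← map_sub]
    exact (residue_eq_zero_iff _).mpr h
  have key : residue A ((M' F.g₁ * M F.g₂ - M' F.g₂ * M' F.g₁) F.i₀ F.j₀) =
      residue A (algebraMap 𝒪 A ((F.lift F.g₁ * F.lift F.g₂ - F.lift F.g₂ * F.lift F.g₁)
        F.i₀ F.j₀)) := by
    simp only [Matrix.sub_apply, Matrix.mul_apply, Fin.sum_univ_two, map_sub, map_add, map_mul,
      hres M hs, hres M' hs']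
  have hu : IsUnit (algebraMap 𝒪 A ((F.lift F.g₁ * F.lift F.g₂ - F.lift F.g₂ * F.lift F.g₁)
      F.i₀ F.j₀)) := F.comm_unit.map _
  by_contra hnu
  have h0 : residue A ((M' F.g₁ * M F.g₂ - M' F.g₂ * M' F.g₁) F.i₀ F.j₀) = 0 :=
    (residue_eq_zero_iff _).mpr hnu
  rw [key] at h0
  exact ((residue_eq_zero_iff _).mp h0) hu

/-- Conjugate rigid strict lifts are equal (local copy for the tangent bridge). -/
theorem tangentBridge_conj_unique (F : Frame 𝒪 ρbar) {M M' : GQ →* M2 A}
    (hs : IsStrict F M) (hr : IsRigid F M) (hs' : IsStrict F M') (hr' : IsRigid F M')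
    (g : (M2 A)ˣ) (hg : ∀ σ, (g : M2 A) * M σ = M' σ * g) : M = M' := by
  obtain ⟨a, ha, hga⟩ := scalar_of_rigid (g : M2 A) ((g⁻¹ : (M2 A)ˣ) : M2 A)
    (M F.g₁) (M F.g₂) (M' F.g₁) (M' F.g₂) (by simp)
    hr.n00 hr.n10 hr'.n00 hr'.n10 (hg F.g₁) (hg F.g₂) F.i₀ F.j₀
    (by rw [hr.n2, hr'.n2]) (tangentBridge_isUnit_comm F hs hs')
  ext σ : 1
  apply eq_of_scalar_conj ha
  rw [← hga]
  exact hg σ

end Uniq

section Bridge

/-- The residual representation of a strict lift over the dual numbers, in the exact shape used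
by `GaloisRep.TangentFinite`. -/
theorem tangentBridge_residual (F : Frame 𝒪 ρbar)
    (M : GQ →* M2 (DualNumber (ResidueField 𝒪))) (hM : MatCont M)
    (hs : letI := dualNumberAlgebra 𝒪; IsStrict F M) :
    (ofMatrix M hM).residual.IsEquiv
      (letI : Algebra (ResidueField 𝒪) (ResidueField (DualNumber (ResidueField 𝒪))) :=
        ((IsLocalRing.residue (DualNumber (ResidueField 𝒪))).comp
          (algebraMap (ResidueField 𝒪) (DualNumber (ResidueField 𝒪)))).toAlgebra
       ρbar.baseChange (ResidueField (DualNumber (ResidueField 𝒪)))) := by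
  letI := dualNumberAlgebra 𝒪
  refine ofMatrix_residual_isEquiv ρbar F.b
    ((IsLocalRing.residue (DualNumber (ResidueField 𝒪))).comp
      (algebraMap (ResidueField 𝒪) (DualNumber (ResidueField 𝒪)))) M hM ?_
  intro σ i j
  have h := hs σ i j
  have h1 : residue (DualNumber (ResidueField 𝒪)) (M σ i j) =
      residue (DualNumber (ResidueField 𝒪))
        (algebraMap 𝒪 (DualNumber (ResidueField 𝒪)) (F.lift σ i j)) := by
    rw [← sub_eq_zero, ← map_sub]
    exact (residue_eq_zero_iff _).mpr h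
  rw [h1, resMatrixHom_apply, ← F.residue_lift σ i j]
  rfl

set_option linter.unusedVariables false in
theorem finite_rigidLift_dualNumber [Finite (ResidueField 𝒪)]
    (h𝒟 : IsDeformationCondition 𝒪 𝒟) (hfin : TangentFinite 𝒪 ρbar 𝒟) (F : Frame 𝒪 ρbar) :
    letI := dualNumberAlgebra 𝒪
    Finite (RigidLift (DualNumber (ResidueField 𝒪)) F 𝒟) := by
  letI := dualNumberAlgebra 𝒪
  unfold TangentFinite at hfin
  refine @Finite.of_injective _ _ hfin
    (fun r => Quotient.mk _ ⟨ofMatrix r.M r.cont, r.isType,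
      tangentBridge_residual F r.M r.cont r.strict⟩) ?_
  intro r r' h
  have h1 := Quotient.exact h
  have h2 : (ofMatrix r.M r.cont).IsEquiv (ofMatrix r'.M r'.cont) := h1
  obtain ⟨g, hg⟩ := (ofMatrix_isEquiv_iff r.cont r'.cont).mp h2
  exact RigidLift.ext' (tangentBridge_conj_unique F r.strict r.rigid r'.strict r'.rigid g hg)

theorem exists_separating_coords [Finite (ResidueField 𝒪)]
    (h𝒟 : IsDeformationCondition 𝒪 𝒟) (hfin : TangentFinite 𝒪 ρbar 𝒟) (F : Frame 𝒪 ρbar) :
    ∃ (d : ℕ) (c : Fin d → Coord), Separates F 𝒟 c := by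
  classical
  let _ := dualNumberAlgebra 𝒪
  have : Finite (RigidLift (DualNumber (ResidueField 𝒪)) F 𝒟) :=
    finite_rigidLift_dualNumber h𝒟 hfin F
  -- pairs of distinct lifts
  let P := {p : RigidLift (DualNumber (ResidueField 𝒪)) F 𝒟 ×
      RigidLift (DualNumber (ResidueField 𝒪)) F 𝒟 // p.1.M ≠ p.2.M}
  have : Finite P := Subtype.finite
  have hex : ∀ p : P, ∃ c : Coord, entryAt p.1.1.M c ≠ entryAt p.1.2.M c := by
    intro p
    by_contra hcon
    push Not at hcon
    exact p.2 (MonoidHom.ext fun σ => Matrix.ext fun i j => hcon (σ, i, j))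
  choose c₀ hc₀ using hex
  let e := Finite.equivFin P
  refine ⟨Nat.card P, fun l => c₀ (e.symm l), ?_⟩
  intro r r' h
  by_contra hne
  have h3 := h (e ⟨(r, r'), hne⟩)
  simp only [Equiv.symm_apply_apply] at h3
  exact hc₀ ⟨(r, r'), hne⟩ h3

end Bridge

end Fermat.Agent.S53

end
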