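import Mathlib
import Fermat.Agent.S53.Core
import Fermat.Agent.S53.ProRep
import Fermat.Agent.S53.LiftOps
import Fermat.Agent.S53.LiftProd
import Fermat.Agent.S53.LocalHom
import Fermat.Agent.S53.TangentBridge

/-!
# S53: the rigid family of entries of rigid lifts

`rigidE F 𝒟` is the family of entry functions `Coord → A` of rigid lifts of type `𝒟` over `A`;
`isRigidFamily_rigidE` shows that it satisfies the axioms `IsRigidFamily` of `ProRep.lean`.
-/

set_option autoImplicit false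
set_option linter.unusedSectionVars false
set_option linter.unusedVariables false

noncomputable section

namespace Fermat.Agent.S53

open IsLocalRing GaloisRep

variable {𝒪 : Type} [CommRing 𝒪] [IsLocalRing 𝒪]
  {ρbar : ResidualGaloisRep (ResidueField 𝒪)}
  {𝒟 : ∀ ⦃A : Type⦄ [CommRing A] [IsLocalRing A] [Algebra 𝒪 A], GaloisRepAdic A → Prop}

/-- The entry functions of rigid lifts of type `𝒟` over `A`. -/
def rigidE (F : Frame 𝒪 ρbar)
    (𝒟 : ∀ ⦃A : Type⦄ [CommRing A] [IsLocalRing A] [Algebra 𝒪 A], GaloisRepAdic A → Prop) :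
    ∀ ⦃A : Type⦄ [CommRing A] [IsLocalRing A] [Algebra 𝒪 A], (Coord → A) → Prop :=
  fun A _ _ _ x => ∃ r : RigidLift A F 𝒟, ∀ p, entryAt r.M p = x p

theorem rigidE_iff (F : Frame 𝒪 ρbar) {A : Type} [CommRing A] [IsLocalRing A] [Algebra 𝒪 A]
    (x : Coord → A) :
    rigidE F 𝒟 x ↔ ∃ r : RigidLift A F 𝒟, ∀ p, entryAt r.M p = x p := Iff.rfl

/-- The entry function of a rigid lift belongs to `rigidE`. -/
theorem RigidLift.rigidE_entryAt {F : Frame 𝒪 ρbar} {A : Type} [CommRing A] [IsLocalRing A]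
    [Algebra 𝒪 A] (r : RigidLift A F 𝒟) : rigidE F 𝒟 (fun p => entryAt r.M p) :=
  ⟨r, fun _ => rfl⟩

theorem entryAt_mapMat {A B : Type} [CommRing A] [CommRing B] (φ : A →+* B)
    (M : GQ →* M2 A) (p : Coord) : entryAt (mapMat φ M) p = φ (entryAt M p) := rfl

/-- Two matrix representations with the same entry function are equal. -/
theorem eq_of_entryAt_eq {A : Type} [CommRing A] {M M' : GQ →* M2 A}
    (h : ∀ p, entryAt M p = entryAt M' p) : M = M' :=
  MonoidHom.ext fun σ => Matrix.ext fun i j => h (σ, i, j)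

/-- The family of entry functions of rigid lifts is a rigid family. -/
theorem isRigidFamily_rigidE [Finite (ResidueField 𝒪)]
    (h𝒟 : IsDeformationCondition 𝒪 𝒟)
    (hbar : 𝒟 (GaloisRepAdic.ofResidualGaloisRep ρbar))
    (hfin : TangentFinite 𝒪 ρbar 𝒟) (F : Frame 𝒪 ρbar) :
    IsRigidFamily 𝒪 Coord F.liftAt (rigidE F 𝒟) where
  strict := by
    intro A _ _ _ hA x hx i
    obtain ⟨r, hr⟩ := hx
    rw [← hr i]
    exact r.strict i.1 i.2.1 i.2.2
  map := by
    intro A B _ _ _ _ _ _ hA hB φ x hx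
    obtain ⟨r, hr⟩ := hx
    refine ⟨r.map h𝒟 hA hB φ (algHom_isLocalHom hB.residue_surjective φ), fun p => ?_⟩
    rw [RigidLift.map_M, entryAt_mapMat, hr p]
    rfl
  descent := by
    intro A B _ _ _ _ _ _ hA hB φ hinj x hx
    obtain ⟨r, hr⟩ := hx
    have hrange : ∀ σ i j, r.M σ i j ∈ Set.range φ := fun σ i j =>
      ⟨x (σ, i, j), (hr (σ, i, j)).symm⟩
    obtain ⟨r', hr'⟩ := RigidLift.exists_descend h𝒟 hA hB φ
      (algHom_isLocalHom hB.residue_surjective φ) hinj r hrange
    refine ⟨r', fun p => hinj ?_⟩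
    have h1 : φ (entryAt r'.M p) = entryAt r.M p := by
      rw [← hr']; rfl
    rw [h1, hr p]
  fibre := by
    intro A B C P _ _ _ _ _ _ _ _ _ _ _ _ hA hB hC hP f g pA pB hcomm hinj hsurj x hxA hxB
    obtain ⟨rA, hrA⟩ := hxA
    obtain ⟨rB, hrB⟩ := hxB
    have hAB : mapMat (f : A →+* C) rA.M = mapMat (g : B →+* C) rB.M := by
      apply eq_of_entryAt_eq
      intro p
      rw [entryAt_mapMat, entryAt_mapMat, hrA p, hrB p]
      exact DFunLike.congr_fun hcomm (x p)
    obtain ⟨r, hrA', hrB'⟩ := RigidLift.exists_prod h𝒟 hA hB hC hP f g pA pB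
      (algHom_isLocalHom hA.residue_surjective pA) (algHom_isLocalHom hB.residue_surjective pB)
      hcomm hinj hsurj rA rB hAB
    refine ⟨r, fun p => hinj ?_⟩
    have h1 : pA (entryAt r.M p) = entryAt rA.M p := by
      rw [← hrA']; rfl
    have h2 : pB (entryAt r.M p) = entryAt rB.M p := by
      rw [← hrB']; rfl
    show (pA (entryAt r.M p), pB (entryAt r.M p)) = (pA (x p), pB (x p))
    rw [h1, h2, hrA p, hrB p]
  base := by
    obtain ⟨r, hr⟩ := exists_rigidLift_residueField h𝒟 hbar F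
    exact ⟨r, fun p => hr p.1 p.2.1 p.2.2⟩
  finite_tangent := by
    let _ := dualNumberAlgebra 𝒪
    have : Finite (RigidLift (DualNumber (ResidueField 𝒪)) F 𝒟) :=
      finite_rigidLift_dualNumber h𝒟 hfin F
    refine (Set.finite_range
      (fun r : RigidLift (DualNumber (ResidueField 𝒪)) F 𝒟 => fun p => entryAt r.M p)).subset ?_
    rintro x ⟨r, hr⟩
    exact ⟨r, funext hr⟩

end Fermat.Agent.S53

end
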