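import Mathlib
import Fermat.Agent.S53.PowerSeriesComplete

/-!
# Evaluation of power series at topologically nilpotent elements

For an `𝒪`-algebra `A` which is adically complete for an ideal `I` and a finite family
`a : σ → A` of elements of `I`, we construct the evaluation homomorphism
`evalAt I a ha : MvPowerSeries σ 𝒪 →ₐ[𝒪] A` sending `X i` to `a i`, and prove its basic
properties (values on polynomials, uniqueness, range, locality).
-/

set_option autoImplicit false
set_option linter.unusedSectionVars false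

noncomputable section

namespace Fermat.Agent.S53

open IsLocalRing

section Eval

variable {𝒪 : Type*} [CommRing 𝒪] {σ : Type*} [Finite σ]
variable {A : Type*} [CommRing A] [Algebra 𝒪 A] (I : Ideal A)

/-- Polynomial evaluation at elements of `I` maps the `n`-th power of the ideal of variables
into `I ^ n`. -/
theorem aeval_mem_pow_of_mem_pow_idealOfVars {a : σ → A} (ha : ∀ i, a i ∈ I) (n : ℕ)
    {p : MvPolynomial σ 𝒪} (hp : p ∈ MvPolynomial.idealOfVars σ 𝒪 ^ n) :
    MvPolynomial.aeval a p ∈ I ^ n := by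
  have h1 : Ideal.map (MvPolynomial.aeval a : MvPolynomial σ 𝒪 →ₐ[𝒪] A)
      (MvPolynomial.idealOfVars σ 𝒪) ≤ I := by
    rw [MvPolynomial.idealOfVars, Ideal.map_span, Ideal.span_le]
    rintro _ ⟨_, ⟨i, rfl⟩, rfl⟩
    simpa using ha i
  have h2 := Ideal.mem_map_of_mem (MvPolynomial.aeval a : MvPolynomial σ 𝒪 →ₐ[𝒪] A) hp
  rw [Ideal.map_pow] at h2
  exact Ideal.pow_right_mono h1 n h2

/-- Evaluation of power series modulo `I ^ n`. -/
def evalMod (a : σ → A) (ha : ∀ i, a i ∈ I) (n : ℕ) :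
    MvPowerSeries σ 𝒪 →ₐ[𝒪] A ⧸ I ^ n :=
  (Ideal.Quotient.liftₐ (MvPolynomial.idealOfVars σ 𝒪 ^ n)
    ((Ideal.Quotient.mkₐ 𝒪 (I ^ n)).comp (MvPolynomial.aeval a))
    (fun p hp => by
      rw [AlgHom.comp_apply, Ideal.Quotient.mkₐ_eq_mk, Ideal.Quotient.eq_zero_iff_mem]
      exact aeval_mem_pow_of_mem_pow_idealOfVars I ha n hp)).comp
    ((MvPowerSeries.truncTotalAlgHom σ 𝒪 n).restrictScalars 𝒪)

theorem evalMod_apply (a : σ → A) (ha : ∀ i, a i ∈ I) (n : ℕ) (f : MvPowerSeries σ 𝒪) :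
    evalMod I a ha n f =
      Ideal.Quotient.mk (I ^ n) (MvPolynomial.aeval a (MvPowerSeries.truncTotal n f)) := by
  rfl

theorem evalMod_compat (a : σ → A) (ha : ∀ i, a i ∈ I) {m n : ℕ} (hle : m ≤ n) :
    (Ideal.Quotient.factorₐ 𝒪 (Ideal.pow_le_pow_right hle)).comp (evalMod I a ha n) =
      evalMod (𝒪 := 𝒪) I a ha m := by
  refine AlgHom.ext fun f => ?_
  rw [AlgHom.comp_apply, evalMod_apply, evalMod_apply]
  show Ideal.Quotient.mk (I ^ m) _ = _
  rw [Ideal.Quotient.eq, ← map_sub]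
  exact aeval_mem_pow_of_mem_pow_idealOfVars I ha m
    (MvPowerSeries.truncTotal_sub_truncTotal_mem_pow_idealOfVars hle le_rfl f)

/-- An `𝒪`-algebra homomorphism from the power series ring sending the variables into `I`
maps the `n`-th power of the ideal of variables into `I ^ n`. -/
theorem algHom_mem_pow_of_mem_pow_span_X (φ : MvPowerSeries σ 𝒪 →ₐ[𝒪] A)
    (hφ : ∀ i, φ (MvPowerSeries.X i) ∈ I) (n : ℕ) {f : MvPowerSeries σ 𝒪}
    (hf : f ∈ (Ideal.span (Set.range (MvPowerSeries.X : σ → MvPowerSeries σ 𝒪))) ^ n) :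
    φ f ∈ I ^ n := by
  have h1 : Ideal.map φ (Ideal.span (Set.range (MvPowerSeries.X : σ → MvPowerSeries σ 𝒪))) ≤ I := by
    rw [Ideal.map_span, Ideal.span_le]
    rintro _ ⟨_, ⟨i, rfl⟩, rfl⟩
    exact hφ i
  have h2 := Ideal.mem_map_of_mem φ hf
  rw [Ideal.map_pow] at h2
  exact Ideal.pow_right_mono h1 n h2

/-- The value of an algebra homomorphism on (the image of) a polynomial. -/
theorem algHom_coe_eq_aeval (φ : MvPowerSeries σ 𝒪 →ₐ[𝒪] A) (p : MvPolynomial σ 𝒪) :
    φ (p : MvPowerSeries σ 𝒪) = MvPolynomial.aeval (fun i => φ (MvPowerSeries.X i)) p := by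
  have h : φ.comp (MvPolynomial.coeToMvPowerSeries.algHom (R := 𝒪) (σ := σ) 𝒪) =
      MvPolynomial.aeval (fun i => φ (MvPowerSeries.X i)) := by
    refine MvPolynomial.algHom_ext fun i => ?_
    simp
  have h2 := congrArg (fun g => g p) h
  simpa using h2

/-- Modulo `I ^ n`, an algebra homomorphism sending the variables into `I` is polynomial
evaluation of the truncation. -/
theorem algHom_sub_aeval_truncTotal_mem (φ : MvPowerSeries σ 𝒪 →ₐ[𝒪] A)
    (hφ : ∀ i, φ (MvPowerSeries.X i) ∈ I) (n : ℕ) (f : MvPowerSeries σ 𝒪) :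
    φ f - MvPolynomial.aeval (fun i => φ (MvPowerSeries.X i)) (MvPowerSeries.truncTotal n f) ∈
      I ^ n := by
  rw [← algHom_coe_eq_aeval, ← map_sub]
  exact algHom_mem_pow_of_mem_pow_span_X I φ hφ n (sub_truncTotal_mem_pow_span_X n f)

/-- Uniqueness: two `𝒪`-algebra homomorphisms from the power series ring to an `I`-adically
separated algebra which agree on the variables, and send them into `I`, are equal. -/
theorem algHom_ext_X [IsHausdorff I A] {φ ψ : MvPowerSeries σ 𝒪 →ₐ[𝒪] A}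
    (hφ : ∀ i, φ (MvPowerSeries.X i) ∈ I)
    (h : ∀ i, φ (MvPowerSeries.X i) = ψ (MvPowerSeries.X i)) : φ = ψ := by
  refine AlgHom.ext fun f => ?_
  rw [← sub_eq_zero]
  refine IsHausdorff.haus (I := I) (M := A) inferInstance _ fun n => ?_
  rw [SModEq.zero, smul_eq_mul, Ideal.mul_top]
  have h1 := algHom_sub_aeval_truncTotal_mem I φ hφ n f
  have h2 := algHom_sub_aeval_truncTotal_mem I ψ (fun i => h i ▸ hφ i) n f
  have h3 : (fun i => φ (MvPowerSeries.X i)) = fun i => ψ (MvPowerSeries.X i) := funext h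
  rw [h3] at h1
  have := Ideal.sub_mem _ h1 h2
  simpa using this

variable [IsAdicComplete I A]

/-- Evaluation of power series at a family of elements of `I`, for `A` `I`-adically complete. -/
def evalAt (a : σ → A) (ha : ∀ i, a i ∈ I) : MvPowerSeries σ 𝒪 →ₐ[𝒪] A :=
  IsAdicComplete.liftAlgHom I (evalMod I a ha) (fun hle => evalMod_compat I a ha hle)

theorem mk_evalAt (a : σ → A) (ha : ∀ i, a i ∈ I) (n : ℕ) (f : MvPowerSeries σ 𝒪) :
    Ideal.Quotient.mk (I ^ n) (evalAt I a ha f) =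
      Ideal.Quotient.mk (I ^ n) (MvPolynomial.aeval a (MvPowerSeries.truncTotal n f)) := by
  have h := IsAdicComplete.mk_liftAlgHom I (evalMod I a ha)
    (fun hle => evalMod_compat I a ha hle) n f
  rw [evalMod_apply] at h
  exact h

theorem evalAt_sub_aeval_truncTotal_mem (a : σ → A) (ha : ∀ i, a i ∈ I) (n : ℕ)
    (f : MvPowerSeries σ 𝒪) :
    evalAt I a ha f - MvPolynomial.aeval a (MvPowerSeries.truncTotal n f) ∈ I ^ n := by
  rw [← Ideal.Quotient.eq]
  exact mk_evalAt I a ha n f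

theorem evalAt_coe (a : σ → A) (ha : ∀ i, a i ∈ I) (p : MvPolynomial σ 𝒪) :
    evalAt I a ha (p : MvPowerSeries σ 𝒪) = MvPolynomial.aeval a p := by
  rw [← sub_eq_zero]
  refine IsHausdorff.haus (I := I) (M := A) inferInstance _ fun n => ?_
  rw [SModEq.zero, smul_eq_mul, Ideal.mul_top]
  have h1 := evalAt_sub_aeval_truncTotal_mem I a ha n (p : MvPowerSeries σ 𝒪)
  have h2 : MvPolynomial.aeval a (MvPowerSeries.truncTotal n (p : MvPowerSeries σ 𝒪)) -
      MvPolynomial.aeval a p ∈ I ^ n := by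
    rw [← map_sub]
    refine aeval_mem_pow_of_mem_pow_idealOfVars I ha n ?_
    refine (MvPolynomial.mem_pow_idealOfVars_iff' ..).mpr fun x hx => ?_
    rw [MvPolynomial.coeff_sub, MvPowerSeries.coeff_truncTotal _ hx, MvPolynomial.coeff_coe,
      sub_self]
  have := Ideal.add_mem _ h1 h2
  simpa using this

@[simp]
theorem evalAt_X (a : σ → A) (ha : ∀ i, a i ∈ I) (i : σ) :
    evalAt I a ha (MvPowerSeries.X i : MvPowerSeries σ 𝒪) = a i := by
  have := evalAt_coe (𝒪 := 𝒪) I a ha (MvPolynomial.X i)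
  rwa [MvPolynomial.coe_X, MvPolynomial.aeval_X] at this

/-- Characterisation of `evalAt`. -/
theorem eq_evalAt (a : σ → A) (ha : ∀ i, a i ∈ I) (φ : MvPowerSeries σ 𝒪 →ₐ[𝒪] A)
    (h : ∀ i, φ (MvPowerSeries.X i) = a i) : φ = evalAt I a ha :=
  algHom_ext_X I (fun i => h i ▸ ha i) fun i => by rw [h i, evalAt_X]

/-- If `I ^ n = ⊥`, evaluation is polynomial evaluation of the truncation. -/
theorem evalAt_eq_aeval_truncTotal (a : σ → A) (ha : ∀ i, a i ∈ I) {n : ℕ} (hn : I ^ n = ⊥)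
    (f : MvPowerSeries σ 𝒪) :
    evalAt I a ha f = MvPolynomial.aeval a (MvPowerSeries.truncTotal n f) := by
  have h1 := evalAt_sub_aeval_truncTotal_mem I a ha n f
  rw [hn, Ideal.mem_bot, sub_eq_zero] at h1
  exact h1

/-- If `I` is nilpotent, the range of evaluation at `a` is the subalgebra generated by `a`. -/
theorem evalAt_range (a : σ → A) (ha : ∀ i, a i ∈ I) (hI : IsNilpotent I) :
    (evalAt (𝒪 := 𝒪) I a ha).range = Algebra.adjoin 𝒪 (Set.range a) := by
  obtain ⟨n, hn⟩ := hI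
  rw [Ideal.zero_eq_bot] at hn
  apply le_antisymm
  · rintro _ ⟨f, rfl⟩
    show evalAt I a ha f ∈ _
    rw [evalAt_eq_aeval_truncTotal I a ha hn f, ← MvPolynomial.aeval_range (R := 𝒪)]
    exact ⟨_, rfl⟩
  · rw [Algebra.adjoin_le_iff]
    rintro _ ⟨i, rfl⟩
    exact ⟨MvPowerSeries.X i, evalAt_X I a ha i⟩

/-- If `I` is nilpotent and `a` generates `A` as an algebra, evaluation at `a` is surjective. -/
theorem evalAt_surjective (a : σ → A) (ha : ∀ i, a i ∈ I) (hI : IsNilpotent I)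
    (hgen : Algebra.adjoin 𝒪 (Set.range a) = ⊤) :
    Function.Surjective (evalAt (𝒪 := 𝒪) I a ha) := by
  rw [← AlgHom.range_eq_top, evalAt_range I a ha hI, hgen]

/-- Evaluation is compatible with algebra homomorphisms. -/
theorem algHom_comp_evalAt {B : Type*} [CommRing B] [Algebra 𝒪 B] (J : Ideal B)
    [IsAdicComplete J B] (φ : A →ₐ[𝒪] B) (hφ : ∀ x ∈ I, φ x ∈ J)
    (a : σ → A) (ha : ∀ i, a i ∈ I) :
    φ.comp (evalAt (𝒪 := 𝒪) I a ha) = evalAt J (fun i => φ (a i)) (fun i => hφ _ (ha i)) :=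
  eq_evalAt J _ _ _ fun i => by rw [AlgHom.comp_apply, evalAt_X]

end Eval

section Local

variable {𝒪 : Type*} [CommRing 𝒪] [IsLocalRing 𝒪] {σ : Type*}

/-- The structure map `𝒪 → 𝒪⟦X⟧` is a local homomorphism. -/
theorem isLocalHom_algebraMap_mvPowerSeries :
    IsLocalHom (algebraMap 𝒪 (MvPowerSeries σ 𝒪)) := by
  refine ⟨fun o ho => ?_⟩
  have h := ho.map (MvPowerSeries.constantCoeff (σ := σ) (R := 𝒪))
  rwa [MvPowerSeries.algebraMap_apply, Algebra.algebraMap_self, RingHom.id_apply,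
    MvPowerSeries.constantCoeff_C] at h

/-- The residue field of `𝒪⟦X⟧` is a quotient of `𝒪`. -/
theorem residue_comp_algebraMap_mvPowerSeries_surjective :
    Function.Surjective (residue (MvPowerSeries σ 𝒪) ∘ algebraMap 𝒪 (MvPowerSeries σ 𝒪)) := by
  intro x
  obtain ⟨f, rfl⟩ := residue_surjective x
  refine ⟨MvPowerSeries.constantCoeff f, ?_⟩
  rw [Function.comp_apply, ← sub_eq_zero, ← map_sub, residue_eq_zero_iff,
    mem_maximalIdeal_iff_constantCoeff, map_sub, MvPowerSeries.algebraMap_apply,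
    Algebra.algebraMap_self, RingHom.id_apply, MvPowerSeries.constantCoeff_C, sub_self]
  exact Ideal.zero_mem _

/-- An algebra homomorphism between local `𝒪`-algebras, the target having residue field a
quotient of `𝒪`, is automatically local. -/
theorem algHom_isLocalHom_of_residue_surjective {R A : Type*} [CommRing R] [IsLocalRing R]
    [Algebra 𝒪 R] [CommRing A] [IsLocalRing A] [Algebra 𝒪 A]
    (hA : Function.Surjective (residue A ∘ algebraMap 𝒪 A)) (φ : R →ₐ[𝒪] A) :
    IsLocalHom (φ : R →+* A) := by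
  refine ⟨fun r hr => ?_⟩
  by_contra hnr
  have hr_mem : r ∈ maximalIdeal R := (mem_maximalIdeal r).mpr hnr
  obtain ⟨u, hu⟩ := hr
  obtain ⟨o, ho⟩ := hA (residue A ((u⁻¹ : Aˣ) : A))
  have h1 : IsUnit (1 - r * algebraMap 𝒪 R o) := by
    by_contra h
    have h2 : 1 - r * algebraMap 𝒪 R o ∈ maximalIdeal R := (mem_maximalIdeal _).mpr h
    have h3 : r * algebraMap 𝒪 R o ∈ maximalIdeal R := Ideal.mul_mem_right _ _ hr_mem
    have h4 : (1 : R) ∈ maximalIdeal R := by
      have := Ideal.add_mem _ h2 h3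
      rwa [sub_add_cancel] at this
    exact (Ideal.ne_top_iff_one _).mp (maximalIdeal.isMaximal R).ne_top h4
  have h5 : IsUnit ((φ : R →+* A) (1 - r * algebraMap 𝒪 R o)) := h1.map _
  have h6 : (φ : R →+* A) (1 - r * algebraMap 𝒪 R o) ∈ maximalIdeal A := by
    rw [← residue_eq_zero_iff]
    have h7 : (φ : R →+* A) (1 - r * algebraMap 𝒪 R o) = 1 - (u : A) * algebraMap 𝒪 A o := by
      rw [map_sub, map_mul, map_one, ← hu]
      simp
    rw [h7, map_sub, map_mul, map_one]
    have h8 : residue A (algebraMap 𝒪 A o) = residue A ((u⁻¹ : Aˣ) : A) := ho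
    rw [h8, ← map_mul, Units.mul_inv, map_one, sub_self]
  exact (mem_maximalIdeal _).mp h6 h5

variable [Finite σ] {A : Type*} [CommRing A] [IsLocalRing A] [Algebra 𝒪 A]
  [IsAdicComplete (maximalIdeal A) A]

/-- Evaluation at elements of the maximal ideal is a local homomorphism. -/
theorem isLocalHom_evalAt [IsLocalHom (algebraMap 𝒪 A)] (a : σ → A)
    (ha : ∀ i, a i ∈ maximalIdeal A) :
    IsLocalHom ((evalAt (𝒪 := 𝒪) (maximalIdeal A) a ha : MvPowerSeries σ 𝒪 →ₐ[𝒪] A) :
      MvPowerSeries σ 𝒪 →+* A) := by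
  refine ⟨fun f hf => ?_⟩
  rw [MvPowerSeries.isUnit_iff_constantCoeff]
  have h1 := evalAt_sub_aeval_truncTotal_mem (𝒪 := 𝒪) (maximalIdeal A) a ha 1 f
  rw [pow_one] at h1
  have h2 : MvPolynomial.aeval a (MvPowerSeries.truncTotal 1 f) =
      algebraMap 𝒪 A (MvPowerSeries.constantCoeff f) := by
    have h3 : MvPowerSeries.truncTotal 1 f = MvPolynomial.C (MvPowerSeries.constantCoeff f) := by
      classical
      ext α
      rw [MvPolynomial.coeff_C]
      by_cases hα : α = 0
      · subst hα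
        rw [MvPowerSeries.coeff_truncTotal _ (by simp), if_pos rfl]
        rfl
      · rw [if_neg (Ne.symm hα), MvPowerSeries.coeff_truncTotal_eq_zero]
        have : α.degree ≠ 0 := by
          rw [Ne, Finsupp.degree_eq_zero_iff]
          exact hα
        omega
    rw [h3, MvPolynomial.aeval_C]
  rw [h2] at h1
  have h4 : IsUnit (algebraMap 𝒪 A (MvPowerSeries.constantCoeff f)) := by
    by_contra h
    have h5 : algebraMap 𝒪 A (MvPowerSeries.constantCoeff f) ∈ maximalIdeal A :=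
      (mem_maximalIdeal _).mpr h
    have h6 := Ideal.add_mem _ h1 h5
    rw [sub_add_cancel] at h6
    exact (mem_maximalIdeal _).mp h6 hf
  exact IsLocalHom.map_nonunit _ h4

end Local

end Fermat.Agent.S53
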