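import Mathlib
import Fermat.Agent.S53.ProRep
import Fermat.Agent.S53.PowerSeriesEval

/-!
# Abstract pro-representability: the power series instantiation

We instantiate the coordinate ring `P` of `exists_proRep_of_coordRing` by the power series ring
`MvPowerSeries (Fin d) 𝒪`.
-/

set_option autoImplicit false
set_option linter.unusedSectionVars false
set_option linter.unusedVariables false
set_option linter.style.haveILetI false

noncomputable section

namespace Fermat.Agent.S53

open IsLocalRing GaloisRep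

/-- A ring is adically complete with respect to any nilpotent ideal. -/
theorem isAdicComplete_of_pow_eq_bot {A : Type*} [CommRing A] (J : Ideal A) {n : ℕ}
    (hn : J ^ n = ⊥) : IsAdicComplete J A := by
  have hsm : ∀ m : ℕ, (J ^ m • (⊤ : Submodule A A)) = J ^ m := fun m => by
    rw [smul_eq_mul, Ideal.mul_top]
  have hH : IsHausdorff J A := by
    constructor
    intro x hx
    have h1 := hx n
    rw [SModEq.zero, hsm, hn] at h1
    exact h1
  have hP : IsPrecomplete J A := by
    constructor
    intro f hf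
    refine ⟨f n, fun m => ?_⟩
    rcases le_total m n with hmn | hnm
    · exact hf hmn
    · have h1 := hf hnm
      rw [SModEq.sub_mem, hsm, hn, Ideal.mem_bot, sub_eq_zero] at h1
      rw [h1]
  exact { toIsHausdorff := hH, toIsPrecomplete := hP }

/-- An Artinian test algebra is complete for its maximal ideal. -/
theorem ATA_isAdicComplete {𝒪 : Type} [CommRing 𝒪] [IsLocalRing 𝒪] {A : Type} [CommRing A]
    [IsLocalRing A] [Algebra 𝒪 A] (hA : IsArtinianTestAlgebra 𝒪 A) :
    IsAdicComplete (maximalIdeal A) A := by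
  obtain ⟨n, hn⟩ := ATA_maximalIdeal_nilpotent hA
  exact isAdicComplete_of_pow_eq_bot _ hn

/-- **Abstract pro-representability.** A rigid family over a complete noetherian local ring
`𝒪` with finite residue field is pro-represented by a complete noetherian local `𝒪`-algebra
with residue field `k`. -/
theorem exists_proRep {𝒪 : Type} [CommRing 𝒪] [IsLocalRing 𝒪] [IsNoetherianRing 𝒪]
    [IsAdicComplete (maximalIdeal 𝒪) 𝒪] [Finite (ResidueField 𝒪)]
    {I : Type} {c : I → 𝒪}
    {E : ∀ ⦃A : Type⦄ [CommRing A] [IsLocalRing A] [Algebra 𝒪 A], (I → A) → Prop}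
    (h : IsRigidFamily 𝒪 I c E) :
    ∃ (R : Type) (_ : CommRing R) (_ : IsLocalRing R) (_ : IsNoetherianRing R)
      (_ : IsAdicComplete (maximalIdeal R) R) (_ : Algebra 𝒪 R)
      (_ : IsLocalHom (algebraMap 𝒪 R)),
      Function.Surjective (IsLocalRing.residue R ∘ algebraMap 𝒪 R) ∧
      ∃ xu : I → R,
        (∀ n, @E (R ⧸ maximalIdeal R ^ (n + 1)) _
            (quotient_isLocalRing _ (maximalIdeal_pow_succ_ne_top R n)) _
            (fun i => Ideal.Quotient.mk (maximalIdeal R ^ (n + 1)) (xu i))) ∧
        ∀ (A : Type) [CommRing A] [IsLocalRing A] [Algebra 𝒪 A], IsArtinianTestAlgebra 𝒪 A →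
          ∀ x : I → A, E x → ∃! φ : R →ₐ[𝒪] A, ∀ i, φ (xu i) = x i := by
  obtain ⟨d, s, hs⟩ := exists_separatesTangent h
  haveI : IsLocalHom (algebraMap 𝒪 (MvPowerSeries (Fin d) 𝒪)) :=
    isLocalHom_algebraMap_mvPowerSeries
  haveI : IsAdicComplete (maximalIdeal (MvPowerSeries (Fin d) 𝒪)) (MvPowerSeries (Fin d) 𝒪) :=
    isAdicComplete_maximalIdeal_mvPowerSeries
  refine exists_proRep_of_coordRing (P := MvPowerSeries (Fin d) 𝒪)
    (X := fun l => MvPowerSeries.X l) h hs
    residue_comp_algebraMap_mvPowerSeries_surjective (fun l => X_mem_maximalIdeal l) ?_ ?_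
  · intro A _ _ _ hA a ha
    haveI := ATA_isAdicComplete hA
    exact ⟨evalAt (maximalIdeal A) a ha, fun l => evalAt_X _ a ha l⟩
  · intro A _ _ _ hA φ ψ hφψ
    haveI := ATA_isAdicComplete hA
    have hloc : IsLocalHom ((φ : MvPowerSeries (Fin d) 𝒪 →ₐ[𝒪] A) :
        MvPowerSeries (Fin d) 𝒪 →+* A) :=
      proRep_algHom_isLocalHom hA.residue_surjective φ
    refine algHom_ext_X (maximalIdeal A) (fun i => ?_) hφψ
    by_contra hmem
    have hu : IsUnit (φ (MvPowerSeries.X i)) := by
      by_contra hnu
      exact hmem ((mem_maximalIdeal _).mpr hnu)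
    have hu' : IsUnit (MvPowerSeries.X i : MvPowerSeries (Fin d) 𝒪) :=
      hloc.map_nonunit _ hu
    exact (mem_maximalIdeal _).mp (X_mem_maximalIdeal i) hu'

end Fermat.Agent.S53

end
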