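import Mathlib
import Fermat.Agent.S53.Core
import Fermat.Agent.S53.Limit
import Fermat.Agent.S53.TestAlg
import Fermat.Agent.S53.LiftOps
import Fermat.Agent.S53.Universal
import Fermat.Agent.S53.ProRepPS

/-!
# S53: the universal rigid lift from its Artinian levels

Given a complete noetherian local `𝒪`-algebra `R` and a family `xu : Coord → R` whose reductions
modulo all powers of the maximal ideal are the entries of rigid lifts of type `𝒟`, the family
`xu` itself is the family of entries of a rigid lift of type `𝒟` over `R`.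
-/

set_option autoImplicit false
set_option linter.unusedSectionVars false
set_option linter.style.haveILetI false
set_option linter.unusedVariables false

noncomputable section

namespace Fermat.Agent.S53

open IsLocalRing GaloisRep

section UnivLift

variable {𝒪 : Type} [CommRing 𝒪] [IsLocalRing 𝒪] [Finite (ResidueField 𝒪)]
  {ρbar : ResidualGaloisRep (ResidueField 𝒪)}
  {𝒟 : ∀ ⦃A : Type⦄ [CommRing A] [IsLocalRing A] [Algebra 𝒪 A], GaloisRepAdic A → Prop}
  {R : Type} [CommRing R] [IsLocalRing R] [IsNoetherianRing R]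
  [IsAdicComplete (maximalIdeal R) R] [Algebra 𝒪 R] [IsLocalHom (algebraMap 𝒪 R)]

/-- Separatedness in terms of the levels `R ⧸ 𝔪 ^ (n + 1)`. -/
theorem univLift_eq_of_forall_mk {x y : R}
    (h : ∀ n, Ideal.Quotient.mk (maximalIdeal R ^ (n + 1)) x =
      Ideal.Quotient.mk (maximalIdeal R ^ (n + 1)) y) : x = y := by
  rw [← sub_eq_zero]
  refine IsHausdorff.haus (I := maximalIdeal R) (M := R) inferInstance _ fun n => ?_
  rw [SModEq.zero, smul_eq_mul, Ideal.mul_top]
  exact Ideal.pow_le_pow_right n.le_succ ((Ideal.Quotient.eq).mp (h n))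

/-- Membership in the maximal ideal can be tested in a proper quotient. -/
theorem univLift_mem_maximalIdeal_of_mk (I : Ideal R) (hI : I ≠ ⊤) {x : R}
    (h : Ideal.Quotient.mk I x ∈
      @maximalIdeal (R ⧸ I) _ (quotient_isLocalRing I hI)) : x ∈ maximalIdeal R := by
  letI := quotient_isLocalRing I hI
  rw [mem_maximalIdeal, mem_nonunits_iff] at h ⊢
  exact fun hx => h (hx.map (Ideal.Quotient.mk I))

/-- **The universal rigid lift from its levels.** -/
theorem rigidLift_of_levels (h𝒟 : IsDeformationCondition 𝒪 𝒟)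
    (hres : Function.Surjective (residue R ∘ algebraMap 𝒪 R))
    (F : Frame 𝒪 ρbar) (xu : Coord → R)
    (hlev : ∀ n : ℕ,
      letI := quotient_isLocalRing (maximalIdeal R ^ (n + 1)) (maximalIdeal_pow_succ_ne_top R n)
      ∃ r : RigidLift (R ⧸ maximalIdeal R ^ (n + 1)) F 𝒟,
        ∀ p, entryAt r.M p = Ideal.Quotient.mk (maximalIdeal R ^ (n + 1)) (xu p)) :
    ∃ ru : RigidLift R F 𝒟, ∀ p, entryAt ru.M p = xu p := by
  classical
  -- notation
  have hne : ∀ n, maximalIdeal R ^ (n + 1) ≠ ⊤ := maximalIdeal_pow_succ_ne_top R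
  letI instLoc : ∀ n, IsLocalRing (R ⧸ maximalIdeal R ^ (n + 1)) := fun n =>
    quotient_isLocalRing _ (hne n)
  have hATA : ∀ n, IsArtinianTestAlgebra 𝒪 (R ⧸ maximalIdeal R ^ (n + 1)) := fun n =>
    quotient_pow_ATA (𝒪 := 𝒪) hres n
  choose r hr using hlev
  have hr' : ∀ n σ i j, (r n).M σ i j = Ideal.Quotient.mk (maximalIdeal R ^ (n + 1)) (xu (σ, i, j)) :=
    fun n σ i j => hr n (σ, i, j)
  -- the matrices
  let Mf : GQ → M2 R := fun σ => Matrix.of fun i j => xu (σ, i, j)
  have hMf : ∀ n σ, (Mf σ).map (Ideal.Quotient.mk (maximalIdeal R ^ (n + 1))) = (r n).M σ := by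
    intro n σ
    ext i j
    rw [Matrix.map_apply, hr' n σ i j]
    rfl
  have hext : ∀ {X Y : M2 R}, (∀ n, X.map (Ideal.Quotient.mk (maximalIdeal R ^ (n + 1))) =
      Y.map (Ideal.Quotient.mk (maximalIdeal R ^ (n + 1)))) → X = Y := by
    intro X Y h
    ext i j
    refine univLift_eq_of_forall_mk fun n => ?_
    have := congrFun (congrFun (h n) i) j
    simpa [Matrix.map_apply] using this
  have hone : Mf 1 = 1 := by
    refine hext fun n => ?_
    rw [hMf, map_one, Matrix.map_one _ (map_zero _) (map_one _)]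
  have hmul : ∀ σ τ, Mf (σ * τ) = Mf σ * Mf τ := by
    intro σ τ
    refine hext fun n => ?_
    rw [hMf, map_mul, Matrix.map_mul, hMf, hMf]
  let Mu : GQ →* M2 R := ⟨⟨Mf, hone⟩, hmul⟩
  have hMu_apply : ∀ σ i j, Mu σ i j = xu (σ, i, j) := fun σ i j => rfl
  have hMu_map : ∀ n, mapMat (Ideal.Quotient.mk (maximalIdeal R ^ (n + 1))) Mu = (r n).M := by
    intro n
    refine MonoidHom.ext fun σ => ?_
    rw [mapMat_apply']
    exact hMf n σ
  -- continuity
  have hcont : MatCont Mu := by
    refine matCont_of_tower (isAdicTower_quotient (maximalIdeal R)) Mu fun n => ?_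
    cases n with
    | zero =>
      refine ⟨⊥, inferInstance, fun σ _ => ?_⟩
      haveI : Subsingleton (R ⧸ maximalIdeal R ^ 0) :=
        Ideal.Quotient.subsingleton_iff.mpr (by simp)
      ext i j
      exact Subsingleton.elim _ _
    | succ n =>
      have hnil : IsNilpotent (maximalIdeal (R ⧸ maximalIdeal R ^ (n + 1))) :=
        liftOps_isNilpotent_maximalIdeal (hATA n)
      obtain ⟨L, hL, hLσ⟩ := (matCont_iff_of_nilpotent hnil (r n).M).mp (r n).cont
      refine ⟨L, hL, fun σ hσ => ?_⟩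
      have := hLσ σ hσ
      rw [← hMf n σ] at this
      exact this
  -- strictness
  have hstrict : IsStrict F Mu := by
    intro σ i j
    refine univLift_mem_maximalIdeal_of_mk _ (hne 0) ?_
    have h0 := (r 0).strict σ i j
    rw [hr' 0 σ i j] at h0
    rw [map_sub]
    exact h0
  -- rigidity
  have hrigid : IsRigid F Mu := by
    refine ⟨?_, ?_, ?_⟩
    · refine univLift_eq_of_forall_mk fun n => ?_
      rw [hMu_apply, ← hr' n, (r n).rigid.n00, map_zero]
    · refine univLift_eq_of_forall_mk fun n => ?_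
      rw [hMu_apply, ← hr' n, (r n).rigid.n10, map_one]
    · refine univLift_eq_of_forall_mk fun n => ?_
      rw [hMu_apply, ← hr' n, (r n).rigid.n2]
      rfl
  -- the deformation condition
  have htype : 𝒟 (ofMatrix Mu hcont) := by
    refine (h𝒟.iff_forall_surjective inferInstance hres (ofMatrix Mu hcont)).mpr ?_
    intro B _ _ _ hB q hq hqsurj
    obtain ⟨n, hn⟩ := ATA_maximalIdeal_nilpotent hB
    -- `q` kills `𝔪 ^ (n + 1)`
    have hker : ∀ a ∈ maximalIdeal R ^ (n + 1), q a = 0 := by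
      intro a ha
      have h1 : (q : R →+* B) a ∈ maximalIdeal B ^ (n + 1) :=
        map_maximalIdeal_pow_le (q : R →+* B) hq (n + 1) ha
      have h2 : maximalIdeal B ^ (n + 1) ≤ maximalIdeal B ^ n := Ideal.pow_le_pow_right n.le_succ
      have h3 := h2 h1
      rw [hn, Ideal.mem_bot] at h3
      exact h3
    let qbar : (R ⧸ maximalIdeal R ^ (n + 1)) →ₐ[𝒪] B :=
      Ideal.Quotient.liftₐ (maximalIdeal R ^ (n + 1)) q hker
    have hqbar : ∀ a, qbar (Ideal.Quotient.mk _ a) = q a := fun a => rfl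
    have hqbar_loc : IsLocalHom (qbar : (R ⧸ maximalIdeal R ^ (n + 1)) →+* B) :=
      Universal.isLocalHom_of_residue_surjective hB.residue_surjective qbar
    let rB : RigidLift B F 𝒟 := (r n).map h𝒟 (hATA n) hB qbar hqbar_loc
    have hrB : rB.M = mapMat (q : R →+* B) Mu := by
      refine MonoidHom.ext fun σ => ?_
      ext i j
      show qbar ((r n).M σ i j) = q (Mu σ i j)
      rw [hr' n σ i j, hqbar, hMu_apply]
    have h1 : 𝒟 (ofMatrix rB.M rB.cont) := rB.isType
    have e1 : (ofMatrix rB.M rB.cont).IsEquiv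
        (ofMatrix (mapMat (q : R →+* B) Mu) (hcont.map _ hq)) :=
      Universal.ofMatrix_isEquiv_of_eq _ _ hrB
    have e2 := ofMatrix_baseChangeAlong_isEquiv (q : R →+* B) hq Mu hcont
    obtain ⟨e1⟩ := e1
    obtain ⟨e2⟩ := e2
    exact h𝒟.of_isEquiv hB ⟨e1.trans e2.symm⟩ h1
  exact ⟨⟨Mu, hcont, hstrict, hrigid, htype⟩, fun p => rfl⟩

end UnivLift

section Main

variable {𝒪 : Type} [CommRing 𝒪] [IsLocalRing 𝒪] [IsNoetherianRing 𝒪]
  [IsAdicComplete (maximalIdeal 𝒪) 𝒪] [Finite (ResidueField 𝒪)]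
  {ρbar : ResidualGaloisRep (ResidueField 𝒪)}
  {𝒟 : ∀ ⦃A : Type⦄ [CommRing A] [IsLocalRing A] [Algebra 𝒪 A], GaloisRepAdic A → Prop}

/-- **The universal rigid lift**, from the rigid-family property of the entries of rigid
lifts. -/
theorem exists_universal_rigidLift_of_family (h𝒟 : IsDeformationCondition 𝒪 𝒟)
    (F : Frame 𝒪 ρbar)
    (hfam : IsRigidFamily 𝒪 Coord F.liftAt
      (fun A _ _ _ x => ∃ r : RigidLift A F 𝒟, ∀ p, entryAt r.M p = x p)) :
    ∃ (R : Type) (_ : CommRing R) (_ : IsLocalRing R) (_ : IsNoetherianRing R)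
      (_ : IsAdicComplete (maximalIdeal R) R) (_ : Algebra 𝒪 R)
      (_ : IsLocalHom (algebraMap 𝒪 R)),
      Function.Surjective (residue R ∘ algebraMap 𝒪 R) ∧
      ∃ ru : RigidLift R F 𝒟,
        ∀ (A : Type) [CommRing A] [IsLocalRing A] [Algebra 𝒪 A],
          IsArtinianTestAlgebra 𝒪 A → ∀ r : RigidLift A F 𝒟,
            ∃! φ : R →ₐ[𝒪] A, mapMat (φ : R →+* A) ru.M = r.M := by
  obtain ⟨R, _, _, _, _, _, _, hres, xu, hlev, huniv⟩ := exists_proRep hfam
  obtain ⟨ru, hru⟩ := rigidLift_of_levels h𝒟 hres F xu hlev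
  refine ⟨R, inferInstance, inferInstance, inferInstance, inferInstance, inferInstance,
    inferInstance, hres, ru, fun A _ _ _ hA r => ?_⟩
  have hiff : ∀ φ : R →ₐ[𝒪] A,
      mapMat (φ : R →+* A) ru.M = r.M ↔ ∀ p, φ (xu p) = entryAt r.M p := by
    intro φ
    constructor
    · intro h p
      rw [← hru p, ← h]
      rfl
    · intro h
      refine MonoidHom.ext fun σ => ?_
      ext i j
      have := h (σ, i, j)
      rw [← hru (σ, i, j)] at this
      exact this
  obtain ⟨φ, hφ, hφuniq⟩ := huniv A hA (entryAt r.M) ⟨r, fun _ => rfl⟩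
  exact ⟨φ, (hiff φ).mpr hφ, fun ψ hψ => hφuniq ψ ((hiff ψ).mp hψ)⟩

end Main

end Fermat.Agent.S53
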