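import Mathlib
import Fermat.Agent.S53.MittagLeffler

/-!
# S53: a compactness lemma for directed families of open ideals

Let `P` be `m`-adically precomplete with all `P ⧸ m ^ n` finite and let `𝓘` be a nonempty
directed family of open ideals.  Then for every `n` some member of `𝓘` is contained in
`sInf 𝓘 ⊔ m ^ n`.
-/

set_option autoImplicit false

namespace Fermat.Agent.S53

/-- In a directed family of ideals every finite subfamily has a lower bound in the family. -/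
theorem exists_le_of_directed_finset {P : Type} [CommRing P] (𝓘 : Set (Ideal P))
    (hdir : ∀ I ∈ 𝓘, ∀ I' ∈ 𝓘, ∃ K ∈ 𝓘, K ≤ I ⊓ I') (I₀ : Ideal P) (h₀ : I₀ ∈ 𝓘)
    (Φ : Finset {I // I ∈ 𝓘}) : ∃ K ∈ 𝓘, K ≤ I₀ ∧ ∀ α ∈ Φ, K ≤ (α : Ideal P) := by
  classical
  induction Φ using Finset.induction_on with
  | empty => exact ⟨I₀, h₀, le_rfl, fun α hα => absurd hα (Finset.notMem_empty α)⟩
  | insert a s _ ih =>
    obtain ⟨K, hK, hK0, hKs⟩ := ih
    obtain ⟨K', hK', hle⟩ := hdir K hK a.1 a.2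
    refine ⟨K', hK', (hle.trans inf_le_left).trans hK0, fun α hα => ?_⟩
    rcases Finset.mem_insert.mp hα with rfl | hα
    · exact hle.trans inf_le_right
    · exact (hle.trans inf_le_left).trans (hKs α hα)

/-- Among the ideals `I ⊔ J` (`I ∈ 𝓘`), with `P ⧸ J` finite, there is a minimal one. -/
theorem exists_minimal_sup {P : Type} [CommRing P] (J : Ideal P) (hfin : Finite (P ⧸ J))
    (𝓘 : Set (Ideal P)) (hne : 𝓘.Nonempty) :
    ∃ I₀ ∈ 𝓘, ∀ K ∈ 𝓘, K ≤ I₀ → I₀ ≤ K ⊔ J := by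
  classical
  -- measure: the cardinality of the image of `I` in `P ⧸ J`
  let μ : Ideal P → ℕ := fun I => Nat.card (I.map (Ideal.Quotient.mk J) : Set (P ⧸ J))
  obtain ⟨I₀, h₀, hmin⟩ : ∃ I₀ ∈ 𝓘, ∀ K ∈ 𝓘, μ I₀ ≤ μ K := by
    obtain ⟨I₁, h₁⟩ := hne
    have hex : ∃ k, ∃ I ∈ 𝓘, μ I = k := ⟨μ I₁, I₁, h₁, rfl⟩
    obtain ⟨I₀, h₀, hI₀⟩ := Nat.find_spec hex
    refine ⟨I₀, h₀, fun K hK => ?_⟩
    rw [hI₀]
    exact Nat.find_min' hex ⟨K, hK, rfl⟩
  refine ⟨I₀, h₀, fun K hK hle => ?_⟩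
  have hsub : (K.map (Ideal.Quotient.mk J) : Set (P ⧸ J)) ⊆
      (I₀.map (Ideal.Quotient.mk J) : Set (P ⧸ J)) := Ideal.map_mono hle
  have hfinI : (I₀.map (Ideal.Quotient.mk J) : Set (P ⧸ J)).Finite := Set.toFinite _
  have hcard : Nat.card (I₀.map (Ideal.Quotient.mk J) : Set (P ⧸ J)) ≤
      Nat.card (K.map (Ideal.Quotient.mk J) : Set (P ⧸ J)) := hmin K hK
  have heq : (K.map (Ideal.Quotient.mk J) : Set (P ⧸ J)) =
      (I₀.map (Ideal.Quotient.mk J) : Set (P ⧸ J)) := by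
    apply Set.eq_of_subset_of_ncard_le hsub _ hfinI
    rw [← Nat.card_coe_set_eq, ← Nat.card_coe_set_eq]
    exact hcard
  have heq' : K.map (Ideal.Quotient.mk J) = I₀.map (Ideal.Quotient.mk J) :=
    SetLike.coe_injective heq
  intro x hx
  have hxm : Ideal.Quotient.mk J x ∈ K.map (Ideal.Quotient.mk J) := by
    rw [heq']
    exact Ideal.mem_map_of_mem _ hx
  have := Ideal.mem_comap.mpr hxm
  rw [Ideal.comap_map_of_surjective _ Ideal.Quotient.mk_surjective, ← RingHom.ker_eq_comap_bot,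
    Ideal.mk_ker] at this
  exact this

/-- **Compactness.** For a nonempty directed family `𝓘` of open ideals of a precomplete ring
with finite quotients `P ⧸ m ^ n`, every `sInf 𝓘 ⊔ m ^ n` contains a member of `𝓘`. -/
theorem exists_le_sInf_sup_pow {P : Type} [CommRing P] (m : Ideal P) [IsPrecomplete m P]
    (hfin : ∀ n, Finite (P ⧸ m ^ n)) (𝓘 : Set (Ideal P)) (hne : 𝓘.Nonempty)
    (hopen : ∀ I ∈ 𝓘, ∃ n, m ^ n ≤ I)
    (hdir : ∀ I ∈ 𝓘, ∀ I' ∈ 𝓘, ∃ K ∈ 𝓘, K ≤ I ⊓ I') (n : ℕ) :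
    ∃ I ∈ 𝓘, I ≤ sInf 𝓘 ⊔ m ^ n := by
  classical
  obtain ⟨I₀, h₀, hmin⟩ := exists_minimal_sup (m ^ n) (hfin n) 𝓘 hne
  refine ⟨I₀, h₀, fun x hx => ?_⟩
  -- the family of congruences: `y ≡ x mod m ^ n`, `y ≡ 0 mod α` for all `α ∈ 𝓘`
  let Ifam : Option {I // I ∈ 𝓘} → Ideal P := fun o => o.elim (m ^ n) (fun α => (α : Ideal P))
  let cfam : Option {I // I ∈ 𝓘} → P := fun o => o.elim x (fun _ => 0)
  have hopen' : ∀ o, ∃ k, m ^ k ≤ Ifam o := by
    intro o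
    cases o with
    | none => exact ⟨n, le_rfl⟩
    | some α => exact hopen α.1 α.2
  have hfip : ∀ Φ : Finset (Option {I // I ∈ 𝓘}), ∃ y : P, ∀ o ∈ Φ, y - cfam o ∈ Ifam o := by
    intro Φ
    obtain ⟨K, hK, hK0, hKΦ⟩ := exists_le_of_directed_finset 𝓘 hdir I₀ h₀
      (Φ.eraseNone)
    have hxK : x ∈ K ⊔ m ^ n := hmin K hK hK0 hx
    obtain ⟨y, hy, z, hz, hyz⟩ := Submodule.mem_sup.mp hxK
    refine ⟨y, fun o ho => ?_⟩
    cases o with
    | none =>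
      show y - x ∈ m ^ n
      have : y - x = -z := by rw [← hyz]; ring
      rw [this]
      exact (m ^ n).neg_mem hz
    | some α =>
      show y - 0 ∈ (α : Ideal P)
      rw [sub_zero]
      exact hKΦ α (Finset.mem_eraseNone.mpr ho) hy
  obtain ⟨y, hy⟩ := exists_mem_of_fip m hfin Ifam cfam hopen' hfip
  have hyJ : y ∈ sInf 𝓘 := by
    rw [Ideal.mem_sInf]
    intro α hα
    have := hy (some ⟨α, hα⟩)
    simpa [Ifam, cfam] using this
  have hyx : y - x ∈ m ^ n := hy none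
  have : x = y + -(y - x) := by ring
  rw [this]
  exact Submodule.add_mem_sup hyJ ((m ^ n).neg_mem hyx)

end Fermat.Agent.S53
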