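import Mathlib
import Fermat.Agent.S53.Core
import Fermat.Agent.S53.Limit
import Fermat.Agent.S53.LocalHom

/-!
# S53: rigid lifts over a complete ring from compatible levels

`R` is a complete noetherian local `𝒪`-algebra and `q n : R →ₐ[𝒪] B n` is a cofinal system of
surjections onto Artinian test algebras (surjective, decreasing kernels, kernels cofinal among
the powers of the maximal ideal).  A compatible family of rigid lifts `r n` over the `B n` is the
family of reductions of a unique rigid lift over `R` (`RigidLift.exists_ofLevels`,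
`RigidLift.eq_of_levels`).
-/

set_option autoImplicit false
set_option linter.unusedSectionVars false
set_option linter.unusedVariables false
set_option linter.style.haveILetI false

noncomputable section

namespace Fermat.Agent.S53

open IsLocalRing GaloisRep

namespace Complete

section Cofinal

universe u v w

variable {R : Type u} [CommRing R] {B : ℕ → Type v} [∀ n, CommRing (B n)]

/-- A cofinal system of quotients of `R` for the `I`-adic topology: surjections `q n : R → B n`
with decreasing open kernels which are cofinal among the powers of `I`. -/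
structure IsCofinalSystem (I : Ideal R) (q : ∀ n, R →+* B n) : Prop where
  surj : ∀ n, Function.Surjective (q n)
  mono : ∀ n, RingHom.ker (q (n + 1)) ≤ RingHom.ker (q n)
  cofinal : ∀ m, ∃ n, RingHom.ker (q n) ≤ I ^ m
  isOpen : ∀ n, ∃ m, I ^ m ≤ RingHom.ker (q n)

variable {I : Ideal R} {q : ∀ n, R →+* B n}

theorem IsCofinalSystem.ker_le_of_le (h : IsCofinalSystem I q) {m n : ℕ} (hmn : m ≤ n) :
    RingHom.ker (q n) ≤ RingHom.ker (q m) := by
  induction n, hmn using Nat.le_induction with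
  | base => exact le_rfl
  | succ n hmn ih => exact (h.mono n).trans ih

theorem q_eq_iff_sub_mem_ker (q : ∀ n, R →+* B n) (n : ℕ) (x y : R) :
    q n x = q n y ↔ x - y ∈ RingHom.ker (q n) := by
  rw [RingHom.mem_ker, map_sub, sub_eq_zero]

/-- Two elements with the same images in all `B n` are equal. -/
theorem IsCofinalSystem.ext_of_forall_q [IsHausdorff I R] (h : IsCofinalSystem I q) {x y : R}
    (hxy : ∀ n, q n x = q n y) : x = y := by
  rw [← sub_eq_zero]
  refine IsHausdorff.haus (I := I) (M := R) inferInstance (x - y) fun m => ?_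
  rw [SModEq.zero, smul_eq_mul, Ideal.mul_top]
  obtain ⟨n, hn⟩ := h.cofinal m
  exact hn ((q_eq_iff_sub_mem_ker q n x y).mp (hxy n))

/-- A compatible family of elements has a limit. -/
theorem IsCofinalSystem.exists_limit [IsPrecomplete I R] (h : IsCofinalSystem I q)
    (a : ∀ n, B n) (ha : ∀ n, ∃ x : R, q n x = a n ∧ q (n + 1) x = a (n + 1)) :
    ∃ x : R, ∀ n, q n x = a n := by
  choose x hx using fun n => h.surj n (a n)
  have hstep : ∀ n, x (n + 1) - x n ∈ RingHom.ker (q n) := fun n => by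
    obtain ⟨y, hy, hy'⟩ := ha n
    have h1 : x (n + 1) - y ∈ RingHom.ker (q n) :=
      h.mono n ((q_eq_iff_sub_mem_ker q (n + 1) _ _).mp ((hx (n + 1)).trans hy'.symm))
    have h2 : y - x n ∈ RingHom.ker (q n) :=
      (q_eq_iff_sub_mem_ker q n _ _).mp (hy.trans (hx n).symm)
    have := Ideal.add_mem _ h1 h2
    rwa [sub_add_sub_cancel] at this
  have hle : ∀ {m n : ℕ}, m ≤ n → x n - x m ∈ RingHom.ker (q m) := by
    intro m n hmn
    induction n, hmn using Nat.le_induction with
    | base => rw [sub_self]; exact Ideal.zero_mem _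
    | succ n hmn ih =>
      have := Ideal.add_mem _ (h.ker_le_of_le hmn (hstep n)) ih
      rwa [sub_add_sub_cancel] at this
  choose idx hidx using h.cofinal
  -- a monotone reindexing `g` with `m ≤ g m` and `idx m ≤ g m`
  let g : ℕ → ℕ := fun m => m + (Finset.range (m + 1)).sup idx
  have hg_ge : ∀ m, m ≤ g m := fun m => Nat.le_add_right _ _
  have hg_idx : ∀ m, idx m ≤ g m := fun m =>
    (Finset.le_sup (f := idx) (Finset.mem_range.mpr (Nat.lt_succ_self m))).trans
      (Nat.le_add_left _ _)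
  have hg_mono : ∀ {m n : ℕ}, m ≤ n → g m ≤ g n := fun {m n} hmn =>
    Nat.add_le_add hmn (Finset.sup_mono (Finset.range_mono (Nat.succ_le_succ hmn)))
  have hker_g : ∀ m, RingHom.ker (q (g m)) ≤ I ^ m := fun m =>
    (h.ker_le_of_le (hg_idx m)).trans (hidx m)
  have hcauchy : ∀ {m n : ℕ}, m ≤ n →
      x (g m) ≡ x (g n) [SMOD (I ^ m • ⊤ : Submodule R R)] := by
    intro m n hmn
    rw [SModEq.sub_mem, smul_eq_mul, Ideal.mul_top]
    have h1 : x (g n) - x (g m) ∈ I ^ m := hker_g m (hle (hg_mono hmn))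
    have : x (g m) - x (g n) = -(x (g n) - x (g m)) := by ring
    rw [this]
    exact (I ^ m).neg_mem h1
  obtain ⟨L, hL⟩ := IsPrecomplete.prec (I := I) (M := R) inferInstance
    (f := fun m => x (g m)) hcauchy
  refine ⟨L, fun n => ?_⟩
  rw [← hx n]
  obtain ⟨m0, hm0⟩ := h.isOpen n
  have hk : x (g (max m0 n)) - L ∈ RingHom.ker (q n) := by
    have := hL (max m0 n)
    rw [SModEq.sub_mem, smul_eq_mul, Ideal.mul_top] at this
    exact hm0 (Ideal.pow_le_pow_right (le_max_left m0 n) this)
  have hk' : x (g (max m0 n)) - x n ∈ RingHom.ker (q n) :=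
    hle ((le_max_right m0 n).trans (hg_ge _))
  have h3 : L - x n ∈ RingHom.ker (q n) := by
    have := Ideal.sub_mem _ hk' hk
    rwa [sub_sub_sub_cancel_left] at this
  exact (q_eq_iff_sub_mem_ker q n _ _).mpr h3

/-- Matrices with the same images in all `B n` are equal. -/
theorem IsCofinalSystem.matrix_ext_of_forall_q [IsHausdorff I R] (h : IsCofinalSystem I q)
    {ι κ : Type w} {X Y : Matrix ι κ R}
    (hXY : ∀ n, X.map (q n) = Y.map (q n)) : X = Y := by
  ext i j
  refine h.ext_of_forall_q fun n => ?_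
  have := congrFun (congrFun (hXY n) i) j
  simpa using this

/-- A compatible family of matrix valued monoid homomorphisms has a unique limit. -/
theorem IsCofinalSystem.existsUnique_limit_matHom [IsAdicComplete I R]
    (h : IsCofinalSystem I q)
    {G : Type*} [Monoid G] {ι : Type w} [Fintype ι] [DecidableEq ι]
    (M : ∀ n, G →* Matrix ι ι (B n))
    (hM : ∀ n g i j, ∃ x : R, q n x = M n g i j ∧ q (n + 1) x = M (n + 1) g i j) :
    ∃! N : G →* Matrix ι ι R, ∀ n g, (N g).map (q n) = M n g := by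
  have hex : ∀ g i j, ∃ x : R, ∀ n, q n x = M n g i j := fun g i j =>
    h.exists_limit (fun n => M n g i j) fun n => hM n g i j
  choose Y hY using hex
  have hY' : ∀ g n, (Matrix.of (Y g)).map (q n) = M n g := fun g n => by
    ext i j
    simp [hY g i j n]
  have hone : Matrix.of (Y 1) = 1 := by
    refine h.matrix_ext_of_forall_q fun n => ?_
    rw [hY' 1 n, map_one, Matrix.map_one (q n) (map_zero _) (map_one _)]
  have hmul : ∀ g g', Matrix.of (Y (g * g')) = Matrix.of (Y g) * Matrix.of (Y g') :=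
    fun g g' => by
      refine h.matrix_ext_of_forall_q fun n => ?_
      rw [hY' (g * g') n, map_mul, Matrix.map_mul, hY' g n, hY' g' n]
  refine ⟨⟨⟨fun g => Matrix.of (Y g), hone⟩, hmul⟩, fun n g => hY' g n, fun N hN => ?_⟩
  refine MonoidHom.ext fun g => ?_
  refine h.matrix_ext_of_forall_q fun n => ?_
  rw [hN n g]
  exact (hY' g n).symm

end Cofinal

end Complete

section Levels

variable {𝒪 : Type} [CommRing 𝒪] [IsLocalRing 𝒪]
  {ρbar : ResidualGaloisRep (ResidueField 𝒪)}
  {𝒟 : ∀ ⦃A : Type⦄ [CommRing A] [IsLocalRing A] [Algebra 𝒪 A], GaloisRepAdic A → Prop}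
  {F : Frame 𝒪 ρbar}
  {R : Type} [CommRing R] [IsLocalRing R] [IsNoetherianRing R]
  [IsAdicComplete (maximalIdeal R) R] [Algebra 𝒪 R] [IsLocalHom (algebraMap 𝒪 R)]
  {B : ℕ → Type} [∀ n, CommRing (B n)] [∀ n, IsLocalRing (B n)] [∀ n, Algebra 𝒪 (B n)]

namespace Complete

/-- A local homomorphism to a local ring with nilpotent maximal ideal has open kernel. -/
theorem exists_pow_le_ker {C : Type} [CommRing C] [IsLocalRing C]
    (hnil : ∃ n : ℕ, maximalIdeal C ^ n = ⊥) (p : R →+* C) (hp : IsLocalHom p) :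
    ∃ m, maximalIdeal R ^ m ≤ RingHom.ker p := by
  obtain ⟨m, hm⟩ := hnil
  refine ⟨m, fun x hx => ?_⟩
  have h1 : p x ∈ Ideal.map p (maximalIdeal R ^ m) := Ideal.mem_map_of_mem p hx
  rw [Ideal.map_pow] at h1
  have h2 : Ideal.map p (maximalIdeal R) ≤ maximalIdeal C :=
    Ideal.map_le_iff_le_comap.mpr fun y hy => by
      rw [Ideal.mem_comap]
      exact map_nonunit p y hy
  have h3 := Ideal.pow_right_mono h2 m h1
  rw [hm, Ideal.mem_bot] at h3
  exact h3

/-- The system of levels is a cofinal system. -/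
theorem isCofinalSystem (hB : ∀ n, IsArtinianTestAlgebra 𝒪 (B n))
    (q : ∀ n, R →ₐ[𝒪] B n) (hq : ∀ n, Function.Surjective (q n))
    (hmono : ∀ n, RingHom.ker (q (n + 1) : R →+* B (n + 1)) ≤ RingHom.ker (q n : R →+* B n))
    (hcof : ∀ m, ∃ n, RingHom.ker (q n : R →+* B n) ≤ maximalIdeal R ^ m) :
    IsCofinalSystem (maximalIdeal R) (fun n => (q n : R →+* B n)) where
  surj := hq
  mono := hmono
  cofinal := hcof
  isOpen n := exists_pow_le_ker (ATA_maximalIdeal_nilpotent (hB n)) _
    (algHom_isLocalHom (hB n).residue_surjective (q n))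

end Complete

/-- Uniqueness in (U2): two matrix lifts over `R` with the same reductions to all levels are
equal. -/
theorem eq_of_levels (hB : ∀ n, IsArtinianTestAlgebra 𝒪 (B n))
    (q : ∀ n, R →ₐ[𝒪] B n) (hq : ∀ n, Function.Surjective (q n))
    (hmono : ∀ n, RingHom.ker (q (n + 1) : R →+* B (n + 1)) ≤ RingHom.ker (q n : R →+* B n))
    (hcof : ∀ m, ∃ n, RingHom.ker (q n : R →+* B n) ≤ maximalIdeal R ^ m)
    {M M' : GQ →* M2 R}
    (h : ∀ n, mapMat (q n : R →+* B n) M = mapMat (q n : R →+* B n) M') : M = M' := by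
  have hsys := Complete.isCofinalSystem hB q hq hmono hcof
  refine MonoidHom.ext fun σ => ?_
  refine hsys.matrix_ext_of_forall_q fun n => ?_
  exact DFunLike.congr_fun (h n) σ

/-- Uniqueness in (U2): two rigid lifts over `R` with the same reductions to all levels are
equal. -/
theorem RigidLift.eq_of_levels (hB : ∀ n, IsArtinianTestAlgebra 𝒪 (B n))
    (q : ∀ n, R →ₐ[𝒪] B n) (hq : ∀ n, Function.Surjective (q n))
    (hmono : ∀ n, RingHom.ker (q (n + 1) : R →+* B (n + 1)) ≤ RingHom.ker (q n : R →+* B n))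
    (hcof : ∀ m, ∃ n, RingHom.ker (q n : R →+* B n) ≤ maximalIdeal R ^ m)
    {ru ru' : RigidLift R F 𝒟}
    (h : ∀ n, mapMat (q n : R →+* B n) ru.M = mapMat (q n : R →+* B n) ru'.M) : ru = ru' :=
  RigidLift.ext' (Fermat.Agent.S53.eq_of_levels hB q hq hmono hcof h)

/-- **(U2)** A compatible family of rigid lifts over a cofinal system of Artinian quotients of
a complete noetherian local `𝒪`-algebra `R` is the family of reductions of a rigid lift over
`R`. -/
theorem RigidLift.exists_ofLevels (h𝒟 : IsDeformationCondition 𝒪 𝒟)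
    (hres : Function.Surjective (residue R ∘ algebraMap 𝒪 R))
    (hB : ∀ n, IsArtinianTestAlgebra 𝒪 (B n))
    (q : ∀ n, R →ₐ[𝒪] B n) (hq : ∀ n, Function.Surjective (q n))
    (hmono : ∀ n, RingHom.ker (q (n + 1) : R →+* B (n + 1)) ≤ RingHom.ker (q n : R →+* B n))
    (hcof : ∀ m, ∃ n, RingHom.ker (q n : R →+* B n) ≤ maximalIdeal R ^ m)
    (r : ∀ n, RigidLift (B n) F 𝒟)
    (hcompat : ∀ n σ i j, ∃ x : R, q n x = (r n).M σ i j ∧ q (n + 1) x = (r (n + 1)).M σ i j) :
    ∃ ru : RigidLift R F 𝒟, ∀ n, mapMat (q n : R →+* B n) ru.M = (r n).M := by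
  classical
  have hsys := Complete.isCofinalSystem hB q hq hmono hcof
  have hloc : ∀ n, IsLocalHom (q n : R →+* B n) := fun n =>
    algHom_isLocalHom (hB n).residue_surjective (q n)
  obtain ⟨N, hN, -⟩ := hsys.existsUnique_limit_matHom (fun n => (r n).M) hcompat
  have hNq : ∀ n, mapMat (q n : R →+* B n) N = (r n).M := fun n =>
    MonoidHom.ext fun σ => hN n σ
  have hNe : ∀ n σ i j, q n (N σ i j) = (r n).M σ i j := fun n σ i j =>
    congrFun (congrFun (hN n σ) i) j
  -- continuity
  have hcont : MatCont N := by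
    intro m
    obtain ⟨n, hn⟩ := hcof m
    have hnil : IsNilpotent (maximalIdeal (B n)) := by
      obtain ⟨k, hk⟩ := ATA_maximalIdeal_nilpotent (hB n)
      exact ⟨k, by rw [hk, Ideal.zero_eq_bot]⟩
    obtain ⟨L, hL, hσ⟩ := (matCont_iff_of_nilpotent hnil (r n).M).mp (r n).cont
    refine ⟨L, hL, fun σ hfix i j => hn ?_⟩
    rw [RingHom.mem_ker, Matrix.sub_apply, map_sub]
    have h1 : (q n : R →+* B n) (N σ i j) = (1 : M2 (B n)) i j := by
      rw [← hσ σ hfix]
      exact hNe n σ i j
    rw [h1, Matrix.one_apply, Matrix.one_apply]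
    split_ifs <;> simp
  -- strictness
  have hstrict : IsStrict F N := by
    intro σ i j
    rw [IsLocalRing.mem_maximalIdeal, mem_nonunits_iff]
    intro hu
    have h1 : IsUnit (q 0 (N σ i j - algebraMap 𝒪 R (F.lift σ i j))) := hu.map (q 0)
    rw [map_sub, hNe 0 σ i j, AlgHom.commutes] at h1
    exact (IsLocalRing.mem_maximalIdeal _).mp ((r 0).strict σ i j) h1
  -- rigidity
  have hrigid : IsRigid F N :=
    { n00 := hsys.ext_of_forall_q fun n => by
        show q n (N F.g₁ 0 0) = q n 0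
        rw [hNe, (r n).rigid.n00, map_zero]
      n10 := hsys.ext_of_forall_q fun n => by
        show q n (N F.g₁ 1 0) = q n 1
        rw [hNe, (r n).rigid.n10, map_one]
      n2 := hsys.ext_of_forall_q fun n => by
        show q n (N F.g₂ F.i₀ F.j₀) = q n (algebraMap 𝒪 R (F.lift F.g₂ F.i₀ F.j₀))
        rw [hNe, (r n).rigid.n2, AlgHom.commutes] }
  -- the deformation condition
  have htype : 𝒟 (ofMatrix N hcont) := by
    refine (h𝒟.iff_forall_surjective inferInstance hres (ofMatrix N hcont)).mpr ?_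
    intro C _ _ _ hC p hp hps
    obtain ⟨m, hm⟩ := Complete.exists_pow_le_ker (ATA_maximalIdeal_nilpotent hC)
      (p : R →+* C) hp
    obtain ⟨n, hn⟩ := hcof m
    have hker : RingHom.ker (q n).toRingHom ≤ RingHom.ker p.toRingHom := hn.trans hm
    let p' : B n →ₐ[𝒪] C := AlgHom.liftOfSurjective (q n) (hq n) p hker
    have hp' : IsLocalHom (p' : B n →+* C) := algHom_isLocalHom hC.residue_surjective p'
    have hp'q : ∀ x, p' (q n x) = p x := fun x =>
      AlgHom.liftOfSurjective_apply (q n) (hq n) p hker x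
    have h1 : 𝒟 ((ofMatrix (r n).M (r n).cont).baseChangeAlong (p' : B n →+* C) hp') :=
      h𝒟.baseChangeAlong (hB n) hC p' hp' (r n).isType
    have h2 : mapMat (p' : B n →+* C) (r n).M = mapMat (p : R →+* C) N := by
      ext σ i j
      simp only [mapMat_apply, RingHom.coe_coe]
      rw [← hNe n σ i j, hp'q]
    obtain ⟨e1⟩ := ofMatrix_baseChangeAlong_isEquiv (p' : B n →+* C) hp' (r n).M (r n).cont
    obtain ⟨e2⟩ := ofMatrix_baseChangeAlong_isEquiv (p : R →+* C) hp N hcont
    have e3 : (ofMatrix (mapMat (p' : B n →+* C) (r n).M) ((r n).cont.map _ hp')).IsEquiv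
        (ofMatrix (mapMat (p : R →+* C) N) (hcont.map _ hp)) := by
      have : ∀ (M M' : GQ →* M2 C) (hM : MatCont M) (hM' : MatCont M'), M = M' →
          (ofMatrix M hM).IsEquiv (ofMatrix M' hM') := by
        intro M M' hM hM' hMM'
        subst hMM'
        exact ⟨GaloisRepAdic.Equiv.refl _⟩
      exact this _ _ _ _ h2
    obtain ⟨e3⟩ := e3
    exact h𝒟.of_isEquiv hC ⟨(e1.trans e3).trans e2.symm⟩ h1
  exact ⟨⟨N, hcont, hstrict, hrigid, htype⟩, hNq⟩

/-- **(U2), tower form**: the same with transition maps `t n : B (n + 1) → B n`. -/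
theorem RigidLift.exists_ofTower (h𝒟 : IsDeformationCondition 𝒪 𝒟)
    (hres : Function.Surjective (residue R ∘ algebraMap 𝒪 R))
    (hB : ∀ n, IsArtinianTestAlgebra 𝒪 (B n))
    (q : ∀ n, R →ₐ[𝒪] B n) (hq : ∀ n, Function.Surjective (q n))
    (t : ∀ n, B (n + 1) →ₐ[𝒪] B n) (htq : ∀ n, (t n).comp (q (n + 1)) = q n)
    (hcof : ∀ m, ∃ n, RingHom.ker (q n : R →+* B n) ≤ maximalIdeal R ^ m)
    (r : ∀ n, RigidLift (B n) F 𝒟)
    (hr : ∀ n, mapMat (t n : B (n + 1) →+* B n) (r (n + 1)).M = (r n).M) :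
    ∃ ru : RigidLift R F 𝒟, ∀ n, mapMat (q n : R →+* B n) ru.M = (r n).M := by
  have htq' : ∀ n x, t n (q (n + 1) x) = q n x := fun n x => DFunLike.congr_fun (htq n) x
  refine RigidLift.exists_ofLevels h𝒟 hres hB q hq (fun n x hx => ?_) hcof r
    (fun n σ i j => ?_)
  · rw [RingHom.mem_ker] at hx ⊢
    have : q n x = t n (q (n + 1) x) := (htq' n x).symm
    rw [RingHom.coe_coe] at hx ⊢
    rw [this, hx, map_zero]
  · obtain ⟨x, hx⟩ := hq (n + 1) ((r (n + 1)).M σ i j)
    refine ⟨x, ?_, hx⟩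
    have h1 := congrFun (congrFun (DFunLike.congr_fun (hr n) σ) i) j
    simp only [mapMat_apply, RingHom.coe_coe] at h1
    rw [← h1, ← hx, htq']

/-- **(U2), coordinate form** (the shape of the output of `exists_proRep`): if the reductions
of a family `xu : Coord → R` modulo all powers `𝔪 ^ (n + 1)` are the entries of rigid lifts, then
`xu` is the family of entries of a rigid lift over `R`. -/
theorem RigidLift.exists_of_entries [Finite (ResidueField 𝒪)] (h𝒟 : IsDeformationCondition 𝒪 𝒟)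
    (hres : Function.Surjective (residue R ∘ algebraMap 𝒪 R)) (xu : Coord → R)
    (hlev : ∀ n,
      letI := quotient_isLocalRing (maximalIdeal R ^ (n + 1)) (maximalIdeal_pow_succ_ne_top R n)
      ∃ r : RigidLift (R ⧸ maximalIdeal R ^ (n + 1)) F 𝒟,
        ∀ p, entryAt r.M p = Ideal.Quotient.mk (maximalIdeal R ^ (n + 1)) (xu p)) :
    ∃ ru : RigidLift R F 𝒟, ∀ p, entryAt ru.M p = xu p := by
  letI : ∀ n, IsLocalRing (R ⧸ maximalIdeal R ^ (n + 1)) := fun n =>
    quotient_isLocalRing _ (maximalIdeal_pow_succ_ne_top R n)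
  choose r hr using hlev
  have hB : ∀ n, IsArtinianTestAlgebra 𝒪 (R ⧸ maximalIdeal R ^ (n + 1)) := fun n =>
    quotient_pow_ATA hres n
  let q : ∀ n, R →ₐ[𝒪] R ⧸ maximalIdeal R ^ (n + 1) := fun n => Ideal.Quotient.mkₐ 𝒪 _
  have hq : ∀ n, Function.Surjective (q n) := fun n => Ideal.Quotient.mkₐ_surjective 𝒪 _
  have hker : ∀ n, RingHom.ker (q n : R →+* R ⧸ maximalIdeal R ^ (n + 1)) =
      maximalIdeal R ^ (n + 1) := fun n => Ideal.mk_ker
  have hmono : ∀ n, RingHom.ker (q (n + 1) : R →+* R ⧸ maximalIdeal R ^ (n + 1 + 1)) ≤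
      RingHom.ker (q n : R →+* R ⧸ maximalIdeal R ^ (n + 1)) := fun n => by
    rw [hker, hker]
    exact Ideal.pow_le_pow_right (Nat.le_succ _)
  have hcof : ∀ m, ∃ n, RingHom.ker (q n : R →+* R ⧸ maximalIdeal R ^ (n + 1)) ≤
      maximalIdeal R ^ m := fun m => ⟨m, by
    rw [hker]
    exact Ideal.pow_le_pow_right (Nat.le_succ _)⟩
  obtain ⟨ru, hru⟩ := RigidLift.exists_ofLevels h𝒟 hres hB q hq hmono hcof r
    (fun n σ i j => ⟨xu (σ, i, j), (hr n (σ, i, j)).symm, (hr (n + 1) (σ, i, j)).symm⟩)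
  have hsys := Complete.isCofinalSystem hB q hq hmono hcof
  refine ⟨ru, fun p => hsys.ext_of_forall_q fun n => ?_⟩
  have h1 := congrFun (congrFun (DFunLike.congr_fun (hru n) p.1) p.2.1) p.2.2
  simp only [mapMat_apply] at h1
  exact h1.trans (hr n p)

end Levels

end Fermat.Agent.S53

end
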