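import Mathlib
import Fermat.Agent.S53.Core
import Fermat.Agent.S53.TestAlg
import Fermat.Agent.S53.LiftOps
import Fermat.Agent.S53.LiftProd

/-!
# S53: the generation lemma and uniqueness from coordinates

* `exists_trivial_rigidLift_dualNumber`: the constant rigid lift over the dual numbers.
* `adjoin_coord_eq_top`: if the entries of a rigid lift over an Artinian test algebra generate
  the algebra, then so do the separating coordinates.
* `entry_mem_adjoin_coord` (GENERATION): every matrix entry of a rigid lift over an Artinian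
  test algebra lies in the subalgebra generated by the separating coordinates.
* `RigidLift.eq_of_coord_eq` (UNIQ): a rigid lift over an Artinian test algebra is determined
  by its separating coordinates.
-/

set_option autoImplicit false
set_option linter.unusedSectionVars false
set_option linter.unusedVariables false
set_option linter.style.haveILetI false

noncomputable section

namespace Fermat.Agent.S53

open IsLocalRing GaloisRep

variable {𝒪 : Type} [CommRing 𝒪] [IsLocalRing 𝒪]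
  {ρbar : ResidualGaloisRep (ResidueField 𝒪)}
  {𝒟 : ∀ ⦃A : Type⦄ [CommRing A] [IsLocalRing A] [Algebra 𝒪 A], GaloisRepAdic A → Prop}

section Generation
variable {F : Frame 𝒪 ρbar}
variable {A : Type} [CommRing A] [IsLocalRing A] [Algebra 𝒪 A]

variable (𝒪) in
/-- The inclusion `k → k[ε]` as an `𝒪`-algebra homomorphism. -/
def dualNumberInl :
    letI := dualNumberAlgebra 𝒪
    ResidueField 𝒪 →ₐ[𝒪] DualNumber (ResidueField 𝒪) :=
  letI := dualNumberAlgebra 𝒪
  { algebraMap (ResidueField 𝒪) (DualNumber (ResidueField 𝒪)) with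
    commutes' := fun _ => rfl }

theorem dualNumberInl_apply (x : ResidueField 𝒪) :
    dualNumberInl 𝒪 x = TrivSqZeroExt.inl x := rfl

theorem dualNumberInl_isLocalHom :
    letI := dualNumberAlgebra 𝒪
    IsLocalHom (dualNumberInl 𝒪 : ResidueField 𝒪 →+* DualNumber (ResidueField 𝒪)) := by
  letI := dualNumberAlgebra 𝒪
  refine ⟨fun x hx => ?_⟩
  have h : IsUnit (TrivSqZeroExt.inl x : DualNumber (ResidueField 𝒪)) := hx
  rw [isUnit_dualNumber_iff, TrivSqZeroExt.fst_inl] at h
  exact isUnit_iff_ne_zero.2 h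

/-- The constant rigid lift over the dual numbers. -/
theorem exists_trivial_rigidLift_dualNumber (h𝒟 : IsDeformationCondition 𝒪 𝒟)
    (hbar : 𝒟 (GaloisRepAdic.ofResidualGaloisRep ρbar)) (F : Frame 𝒪 ρbar) :
    letI := dualNumberAlgebra 𝒪
    ∃ r : RigidLift (DualNumber (ResidueField 𝒪)) F 𝒟,
      ∀ σ i j, r.M σ i j = algebraMap 𝒪 (DualNumber (ResidueField 𝒪)) (F.lift σ i j) := by
  letI := dualNumberAlgebra 𝒪
  obtain ⟨rk, hrk⟩ := exists_rigidLift_residueField h𝒟 hbar F
  refine ⟨rk.map h𝒟 residueField_ATA dualNumber_ATA (dualNumberInl 𝒪)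
    dualNumberInl_isLocalHom, fun σ i j => ?_⟩
  rw [RigidLift.map_M, mapMat_apply, hrk]
  rfl

/-- If the entries of a rigid lift over an Artinian test algebra generate the algebra, then so
do the separating coordinates. -/
theorem adjoin_coord_eq_top [Finite (ResidueField 𝒪)] (h𝒟 : IsDeformationCondition 𝒪 𝒟)
    (hbar : 𝒟 (GaloisRepAdic.ofResidualGaloisRep ρbar))
    {d : ℕ} {c : Fin d → Coord} (hsep : Separates F 𝒟 c)
    (hA : IsArtinianTestAlgebra 𝒪 A) (r : RigidLift A F 𝒟)
    (hgen : Algebra.adjoin 𝒪 (Set.range fun p : Coord => entryAt r.M p) = ⊤) :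
    Algebra.adjoin 𝒪 (Set.range fun l => r.coord (c l)) = ⊤ := by
  letI := dualNumberAlgebra 𝒪
  by_contra hne
  obtain ⟨π, hπsurj, hπloc, hπS⟩ := exists_algHom_dualNumber_of_ne_top hA _ hne
  obtain ⟨r₀, hr₀⟩ := exists_trivial_rigidLift_dualNumber h𝒟 hbar F
  have hcoord : ∀ l, π (r.coord (c l)) = 0 := by
    intro l
    have h1 : TrivSqZeroExt.snd (π (r.coord (c l))) = 0 :=
      hπS _ (Algebra.subset_adjoin ⟨l, rfl⟩)
    have h2 : (π : A →+* DualNumber (ResidueField 𝒪)) (r.coord (c l)) ∈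
        maximalIdeal (DualNumber (ResidueField 𝒪)) :=
      map_nonunit (π : A →+* DualNumber (ResidueField 𝒪)) _ (r.coord_mem (c l))
    have h3 : TrivSqZeroExt.fst (π (r.coord (c l))) = 0 := by
      rw [IsLocalRing.mem_maximalIdeal, mem_nonunits_iff, isUnit_dualNumber_iff, not_not] at h2
      exact h2
    exact TrivSqZeroExt.ext h3 h1
  have hent : ∀ l, entryAt (r.map h𝒟 hA dualNumber_ATA π hπloc).M (c l) =
      entryAt r₀.M (c l) := by
    intro l
    have h1 : entryAt (r.map h𝒟 hA dualNumber_ATA π hπloc).M (c l) =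
        π (entryAt r.M (c l)) := rfl
    have h2 : entryAt r.M (c l) = r.coord (c l) + algebraMap 𝒪 A (F.liftAt (c l)) := by
      simp [RigidLift.coord]
    rw [h1, h2, map_add, hcoord, zero_add, AlgHom.commutes]
    exact (hr₀ _ _ _).symm
  have hM : (r.map h𝒟 hA dualNumber_ATA π hπloc).M = r₀.M := hsep _ r₀ hent
  have hle : Algebra.adjoin 𝒪 (Set.range fun p : Coord => entryAt r.M p) ≤
      Subalgebra.comap π ⊥ := by
    rw [Algebra.adjoin_le_iff]
    rintro _ ⟨p, rfl⟩
    show π (entryAt r.M p) ∈ (⊥ : Subalgebra 𝒪 (DualNumber (ResidueField 𝒪)))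
    have h1 : π (entryAt r.M p) = (r.map h𝒟 hA dualNumber_ATA π hπloc).M p.1 p.2.1 p.2.2 := rfl
    rw [h1, hM, hr₀]
    exact Subalgebra.algebraMap_mem _ _
  rw [hgen, top_le_iff] at hle
  obtain ⟨a, ha⟩ := hπsurj DualNumber.eps
  have h1 : π a ∈ (⊥ : Subalgebra 𝒪 (DualNumber (ResidueField 𝒪))) := by
    have h2 : a ∈ Subalgebra.comap π ⊥ := by rw [hle]; exact Algebra.mem_top
    exact h2
  rw [ha, Algebra.mem_bot] at h1
  obtain ⟨o, ho⟩ := h1
  have h := congrArg TrivSqZeroExt.snd ho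
  rw [dualNumberAlgebra_algebraMap_apply] at h
  simp at h

/-- GENERATION LEMMA: over an Artinian test algebra, the subalgebra generated by the
normalised coordinates `r.coord (c l)` contains every matrix entry of `r`. -/
theorem entry_mem_adjoin_coord [Finite (ResidueField 𝒪)] (h𝒟 : IsDeformationCondition 𝒪 𝒟)
    (hbar : 𝒟 (GaloisRepAdic.ofResidualGaloisRep ρbar))
    {d : ℕ} {c : Fin d → Coord} (hsep : Separates F 𝒟 c)
    (hA : IsArtinianTestAlgebra 𝒪 A) (r : RigidLift A F 𝒟) (σ : GQ) (i j : Fin 2) :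
    r.M σ i j ∈ Algebra.adjoin 𝒪 (Set.range fun l => r.coord (c l)) := by
  haveI := ATA_finite hA
  set A₁ : Subalgebra 𝒪 A := Algebra.adjoin 𝒪 (Set.range fun p : Coord => entryAt r.M p)
    with hA₁def
  letI : IsLocalRing A₁ := subalgebra_isLocalRing A₁
  have hA₁ : IsArtinianTestAlgebra 𝒪 A₁ := subalgebra_ATA hA A₁
  have hval : IsLocalHom (A₁.val : A₁ →+* A) := subalgebra_val_isLocalHom A₁
  obtain ⟨r₁, hr₁⟩ := RigidLift.exists_descend h𝒟 hA₁ hA A₁.val hval Subtype.val_injective r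
    (fun σ i j => ⟨⟨r.M σ i j, Algebra.subset_adjoin ⟨(σ, i, j), rfl⟩⟩, rfl⟩)
  have hent : ∀ σ i j, ((r₁.M σ i j : A₁) : A) = r.M σ i j := fun σ i j => by
    rw [← hr₁]; rfl
  have hcoordval : ∀ p, ((r₁.coord p : A₁) : A) = r.coord p := fun p => by
    simp only [RigidLift.coord, entryAt]
    rw [Subalgebra.coe_sub, hent]
    rfl
  have hgen : Algebra.adjoin 𝒪 (Set.range fun p : Coord => entryAt r₁.M p) = ⊤ := by
    have h1 : (Set.range fun p : Coord => entryAt r₁.M p) =
        ((↑) : A₁ → A) ⁻¹' (Set.range fun p : Coord => entryAt r.M p) := by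
      ext x
      constructor
      · rintro ⟨p, rfl⟩
        exact ⟨p, (hent p.1 p.2.1 p.2.2).symm⟩
      · rintro ⟨p, hp⟩
        refine ⟨p, Subtype.ext ?_⟩
        rw [← hp]
        exact hent p.1 p.2.1 p.2.2
    rw [h1]
    exact Algebra.adjoin_adjoin_coe_preimage
  have htop := adjoin_coord_eq_top h𝒟 hbar hsep hA₁ r₁ hgen
  have hmem : r₁.M σ i j ∈ Algebra.adjoin 𝒪 (Set.range fun l => r₁.coord (c l)) := by
    rw [htop]; exact Algebra.mem_top
  have hmap : (Algebra.adjoin 𝒪 (Set.range fun l => r₁.coord (c l))).map A₁.val =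
      Algebra.adjoin 𝒪 (Set.range fun l => r.coord (c l)) := by
    rw [AlgHom.map_adjoin]
    congr 1
    ext x
    constructor
    · rintro ⟨_, ⟨l, rfl⟩, rfl⟩
      exact ⟨l, (hcoordval (c l)).symm⟩
    · rintro ⟨l, rfl⟩
      exact ⟨r₁.coord (c l), ⟨l, rfl⟩, hcoordval (c l)⟩
  rw [← hmap, ← hent]
  exact ⟨_, hmem, rfl⟩

/-- A rigid lift over an Artinian test algebra is determined by its coordinates. -/
theorem RigidLift.eq_of_coord_eq [Finite (ResidueField 𝒪)] (h𝒟 : IsDeformationCondition 𝒪 𝒟)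
    (hbar : 𝒟 (GaloisRepAdic.ofResidualGaloisRep ρbar))
    {d : ℕ} {c : Fin d → Coord} (hsep : Separates F 𝒟 c)
    (hA : IsArtinianTestAlgebra 𝒪 A) (r r' : RigidLift A F 𝒟)
    (h : ∀ l, r.coord (c l) = r'.coord (c l)) : r = r' := by
  letI := fibreProd_isLocalRing hA hA
  obtain ⟨rP, h1, h2⟩ := RigidLift.exists_fibreProd h𝒟 hA hA r r'
  have hP : IsArtinianTestAlgebra 𝒪 (fibreProd hA hA) := fibreProd_ATA hA hA
  have hfst : ∀ σ i j, fibreProdFst hA hA (rP.M σ i j) = r.M σ i j := fun σ i j => by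
    rw [← h1]; rfl
  have hsnd : ∀ σ i j, fibreProdSnd hA hA (rP.M σ i j) = r'.M σ i j := fun σ i j => by
    rw [← h2]; rfl
  have hle : Algebra.adjoin 𝒪 (Set.range fun l => rP.coord (c l)) ≤
      AlgHom.equalizer (fibreProdFst hA hA) (fibreProdSnd hA hA) := by
    rw [Algebra.adjoin_le_iff]
    rintro _ ⟨l, rfl⟩
    show fibreProdFst hA hA (rP.coord (c l)) = fibreProdSnd hA hA (rP.coord (c l))
    have e1 : fibreProdFst hA hA (rP.coord (c l)) = r.coord (c l) := by
      simp only [RigidLift.coord, entryAt, map_sub, AlgHom.commutes, hfst]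
    have e2 : fibreProdSnd hA hA (rP.coord (c l)) = r'.coord (c l) := by
      simp only [RigidLift.coord, entryAt, map_sub, AlgHom.commutes, hsnd]
    rw [e1, e2, h]
  apply RigidLift.ext'
  ext σ i j
  have hmem := hle (entry_mem_adjoin_coord h𝒟 hbar hsep hP rP σ i j)
  have heq : fibreProdFst hA hA (rP.M σ i j) = fibreProdSnd hA hA (rP.M σ i j) := hmem
  rw [hfst, hsnd] at heq
  exact heq

end Generation

end Fermat.Agent.S53

end
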