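import Mathlib
import Fermat.Agent.S53.Burnside

set_option autoImplicit false

namespace Fermat.Agent.S53

/-- Matrix form: in any basis, some pair of Galois elements has non-commuting matrices. -/
theorem exists_toMatrix_not_commute {k : Type} [Field k]
    (rb : ResidualGaloisRep k) (habs : rb.IsAbsolutelyIrreducible)
    (b : Module.Basis (Fin 2) k rb.V) :
    ∃ g₀ g₁ : (AlgebraicClosure ℚ ≃ₐ[ℚ] AlgebraicClosure ℚ),
      LinearMap.toMatrix b b (rb.ρ g₀) * LinearMap.toMatrix b b (rb.ρ g₁) ≠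
        LinearMap.toMatrix b b (rb.ρ g₁) * LinearMap.toMatrix b b (rb.ρ g₀) := by
  obtain ⟨g₀, g₁, h⟩ := exists_not_commute_of_isAbsolutelyIrreducible rb habs
  refine ⟨g₀, g₁, fun hc => h ?_⟩
  apply (LinearMap.toMatrix b b).injective
  rw [LinearMap.toMatrix_mul, LinearMap.toMatrix_mul]
  exact hc

end Fermat.Agent.S53
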