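import Mathlib
import Fermat.Prelude.Thm_IsLocalRing_isAdicComplete_of_module_finite
import Fermat.Agent.S53.TestAlg
import Fermat.Agent.S53.PowerSeriesComplete

/-!
# S53: quotients of complete noetherian local algebras

For a noetherian local `𝒪`-algebra `P`, complete for its maximal ideal, and an ideal `J ≠ ⊤`,
the quotient `P ⧸ J` (with the local ring structure `quotient_isLocalRing J hJ`) is again
noetherian, local, complete, with local structure map and the same residue field; its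
maximal ideal and its powers are the images of those of `P`.

All statements take an arbitrary instance `[IsLocalRing (P ⧸ J)]`, to be supplied by
`haveI := quotient_isLocalRing J hJ`.
-/

set_option autoImplicit false
set_option linter.unusedSectionVars false

namespace Fermat.Agent.S53

open IsLocalRing

section

variable {𝒪 : Type} [CommRing 𝒪] [IsLocalRing 𝒪]
  {P : Type} [CommRing P] [IsLocalRing P] [Algebra 𝒪 P]

/-- The quotient map onto a local quotient is a local homomorphism. -/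
theorem quot_mk_isLocalHom (J : Ideal P) [IsLocalRing (P ⧸ J)] :
    IsLocalHom (Ideal.Quotient.mk J) :=
  IsLocalHom.of_surjective _ Ideal.Quotient.mk_surjective

/-- The algebra map `P → P ⧸ J` onto a local quotient is a local homomorphism. -/
theorem quot_algebraMap_self_isLocalHom (J : Ideal P) [IsLocalRing (P ⧸ J)] :
    IsLocalHom (algebraMap P (P ⧸ J)) :=
  quot_mk_isLocalHom J

/-- The structure map `𝒪 → P ⧸ J` is local if `𝒪 → P` is. -/
theorem quot_algebraMap_isLocalHom [IsLocalHom (algebraMap 𝒪 P)] (J : Ideal P)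
    [IsLocalRing (P ⧸ J)] : IsLocalHom (algebraMap 𝒪 (P ⧸ J)) := by
  have := quot_mk_isLocalHom J
  refine ⟨fun o ho => ?_⟩
  have h1 : IsUnit (algebraMap 𝒪 P o) := isUnit_of_map_unit (Ideal.Quotient.mk J) _ ho
  exact isUnit_of_map_unit (algebraMap 𝒪 P) o h1

/-- The maximal ideal of a local quotient is the image of the maximal ideal. -/
theorem quot_maximalIdeal_eq_map (J : Ideal P) [IsLocalRing (P ⧸ J)] :
    maximalIdeal (P ⧸ J) = (maximalIdeal P).map (Ideal.Quotient.mk J) := by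
  have := quot_mk_isLocalHom J
  apply le_antisymm
  · intro x hx
    obtain ⟨a, rfl⟩ := Ideal.Quotient.mk_surjective x
    apply Ideal.mem_map_of_mem
    rw [mem_maximalIdeal, mem_nonunits_iff] at hx ⊢
    exact fun ha => hx (ha.map _)
  · rw [Ideal.map_le_iff_le_comap]
    intro a ha
    rw [Ideal.mem_comap, mem_maximalIdeal, mem_nonunits_iff]
    rw [mem_maximalIdeal, mem_nonunits_iff] at ha
    exact fun h => ha (isUnit_of_map_unit (Ideal.Quotient.mk J) a h)

/-- Powers of the maximal ideal of a local quotient. -/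
theorem quot_maximalIdeal_pow_eq_map (J : Ideal P) [IsLocalRing (P ⧸ J)] (n : ℕ) :
    maximalIdeal (P ⧸ J) ^ n = (maximalIdeal P ^ n).map (Ideal.Quotient.mk J) := by
  rw [quot_maximalIdeal_eq_map, Ideal.map_pow]

/-- The preimage in `P` of a power of the maximal ideal of `P ⧸ J`. -/
theorem quot_comap_maximalIdeal_pow (J : Ideal P) [IsLocalRing (P ⧸ J)] (n : ℕ) :
    (maximalIdeal (P ⧸ J) ^ n).comap (Ideal.Quotient.mk J) = J ⊔ maximalIdeal P ^ n := by
  rw [quot_maximalIdeal_pow_eq_map, Ideal.comap_map_of_surjective _ Ideal.Quotient.mk_surjective,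
    ← RingHom.ker_eq_comap_bot, Ideal.mk_ker, sup_comm]

/-- Membership in a power of the maximal ideal of `P ⧸ J`. -/
theorem quot_mk_mem_maximalIdeal_pow_iff (J : Ideal P) [IsLocalRing (P ⧸ J)] (n : ℕ) (x : P) :
    Ideal.Quotient.mk J x ∈ maximalIdeal (P ⧸ J) ^ n ↔ x ∈ J ⊔ maximalIdeal P ^ n := by
  rw [← quot_comap_maximalIdeal_pow, Ideal.mem_comap]

/-- The residue field of `P ⧸ J` is still a quotient of `𝒪`. -/
theorem quot_residue_surjective
    (hres : Function.Surjective (residue P ∘ algebraMap 𝒪 P)) (J : Ideal P)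
    [IsLocalRing (P ⧸ J)] : Function.Surjective (residue (P ⧸ J) ∘ algebraMap 𝒪 (P ⧸ J)) := by
  have := quot_mk_isLocalHom J
  intro x
  obtain ⟨y, rfl⟩ := residue_surjective x
  obtain ⟨a, rfl⟩ := Ideal.Quotient.mk_surjective y
  obtain ⟨o, ho⟩ := hres (residue P a)
  refine ⟨o, ?_⟩
  have h1 : algebraMap 𝒪 P o - a ∈ maximalIdeal P := by
    rw [← residue_eq_zero_iff, map_sub, sub_eq_zero]
    exact ho
  have h2 : Ideal.Quotient.mk J (algebraMap 𝒪 P o - a) ∈ maximalIdeal (P ⧸ J) := by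
    rw [quot_maximalIdeal_eq_map]
    exact Ideal.mem_map_of_mem _ h1
  rw [Function.comp_apply, ← sub_eq_zero, ← map_sub, residue_eq_zero_iff]
  have e : algebraMap 𝒪 (P ⧸ J) o - Ideal.Quotient.mk J a =
      Ideal.Quotient.mk J (algebraMap 𝒪 P o - a) := by
    rw [map_sub]
    rfl
  rw [e]
  exact h2

/-- A local quotient of a complete noetherian local ring is complete. -/
theorem quot_isAdicComplete [IsNoetherianRing P] [IsAdicComplete (maximalIdeal P) P]
    (J : Ideal P) [IsLocalRing (P ⧸ J)] :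
    IsAdicComplete (maximalIdeal (P ⧸ J)) (P ⧸ J) := by
  have := quot_algebraMap_self_isLocalHom J
  exact IsLocalRing.isAdicComplete_of_module_finite (𝒪 := P) (T := P ⧸ J)

/-- The quotients of a local ring by the powers of its maximal ideal are finite as soon as
the ring is noetherian with finite residue field. -/
theorem finite_quot_maximalIdeal_pow [IsNoetherianRing P] [Finite (ResidueField P)] (n : ℕ) :
    Finite (P ⧸ maximalIdeal P ^ n) :=
  IsLocalRing.finite_quotient_iff.2 ⟨n, le_rfl⟩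

end

section Levels

variable {𝒪 : Type} [CommRing 𝒪] {P : Type} [CommRing P] [Algebra 𝒪 P]

/-- The canonical map `P ⧸ I → (P ⧸ J) ⧸ K` when `I` is contained in the preimage of `K`. -/
noncomputable def quotQuotMap (I J : Ideal P) (K : Ideal (P ⧸ J))
    (h : I ≤ K.comap (Ideal.Quotient.mk J)) : (P ⧸ I) →ₐ[𝒪] ((P ⧸ J) ⧸ K) :=
  Ideal.Quotient.liftₐ I ((Ideal.Quotient.mkₐ 𝒪 K).comp (Ideal.Quotient.mkₐ 𝒪 J))
    (fun a ha => by
      have := h ha
      rw [Ideal.mem_comap] at this
      rw [AlgHom.comp_apply, Ideal.Quotient.mkₐ_eq_mk, Ideal.Quotient.mkₐ_eq_mk]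
      exact Ideal.Quotient.eq_zero_iff_mem.mpr this)

@[simp] theorem quotQuotMap_mk (I J : Ideal P) (K : Ideal (P ⧸ J))
    (h : I ≤ K.comap (Ideal.Quotient.mk J)) (x : P) :
    quotQuotMap (𝒪 := 𝒪) I J K h (Ideal.Quotient.mk I x) =
      Ideal.Quotient.mk K (Ideal.Quotient.mk J x) := rfl

theorem quotQuotMap_surjective (I J : Ideal P) (K : Ideal (P ⧸ J))
    (h : I ≤ K.comap (Ideal.Quotient.mk J)) :
    Function.Surjective (quotQuotMap (𝒪 := 𝒪) I J K h) := by
  intro y
  obtain ⟨z, rfl⟩ := Ideal.Quotient.mk_surjective y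
  obtain ⟨x, rfl⟩ := Ideal.Quotient.mk_surjective z
  exact ⟨Ideal.Quotient.mk I x, rfl⟩

end Levels

section PowerSeries

open MvPowerSeries

variable {𝒪 : Type} [CommRing 𝒪] [IsLocalRing 𝒪] {σ : Type}

/-- The structure map `𝒪 → 𝒪⟦X⟧` is a local homomorphism. -/
theorem mvPS_algebraMap_isLocalHom : IsLocalHom (algebraMap 𝒪 (MvPowerSeries σ 𝒪)) := by
  refine ⟨fun o ho => ?_⟩
  have h : IsUnit (constantCoeff (R := 𝒪) (σ := σ) (algebraMap 𝒪 (MvPowerSeries σ 𝒪) o)) :=
    ho.map _
  have e : constantCoeff (R := 𝒪) (σ := σ) (algebraMap 𝒪 (MvPowerSeries σ 𝒪) o) = o :=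
    constantCoeff_C o
  rwa [e] at h

/-- Every power series is congruent to its constant coefficient modulo the maximal ideal. -/
theorem mvPS_sub_C_constantCoeff_mem (f : MvPowerSeries σ 𝒪) :
    f - C (constantCoeff f) ∈ maximalIdeal (MvPowerSeries σ 𝒪) := by
  rw [mem_maximalIdeal_iff_constantCoeff, map_sub, constantCoeff_C, sub_self]
  exact zero_mem _

/-- The residue field of `𝒪⟦X⟧` is a quotient of `𝒪`. -/
theorem mvPS_residue_surjective :
    Function.Surjective (residue (MvPowerSeries σ 𝒪) ∘ algebraMap 𝒪 (MvPowerSeries σ 𝒪)) := by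
  intro x
  obtain ⟨f, rfl⟩ := residue_surjective x
  refine ⟨constantCoeff f, ?_⟩
  rw [Function.comp_apply, eq_comm, ← sub_eq_zero, ← map_sub, residue_eq_zero_iff]
  exact mvPS_sub_C_constantCoeff_mem f

theorem mvPS_finite_residueField [Finite (ResidueField 𝒪)] :
    Finite (ResidueField (MvPowerSeries σ 𝒪)) :=
  haveI := mvPS_algebraMap_isLocalHom (𝒪 := 𝒪) (σ := σ)
  residueField_finite_of_surjective mvPS_residue_surjective

theorem mvPS_finite_quot_pow [IsNoetherianRing 𝒪] [Finite σ] [Finite (ResidueField 𝒪)] (n : ℕ) :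
    Finite (MvPowerSeries σ 𝒪 ⧸ maximalIdeal (MvPowerSeries σ 𝒪) ^ n) :=
  haveI := mvPS_finite_residueField (𝒪 := 𝒪) (σ := σ)
  finite_quot_maximalIdeal_pow n

/-- Summary for `R = 𝒪⟦X⟧ ⧸ J`, `J ≠ ⊤`: all the structure required of a deformation ring. -/
theorem mvPS_quot_summary [IsNoetherianRing 𝒪] [IsAdicComplete (maximalIdeal 𝒪) 𝒪] [Finite σ]
    (J : Ideal (MvPowerSeries σ 𝒪)) [IsLocalRing (MvPowerSeries σ 𝒪 ⧸ J)] :
    IsNoetherianRing (MvPowerSeries σ 𝒪 ⧸ J) ∧
    IsAdicComplete (maximalIdeal (MvPowerSeries σ 𝒪 ⧸ J)) (MvPowerSeries σ 𝒪 ⧸ J) ∧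
    IsLocalHom (algebraMap 𝒪 (MvPowerSeries σ 𝒪 ⧸ J)) ∧
    Function.Surjective (residue (MvPowerSeries σ 𝒪 ⧸ J) ∘
      algebraMap 𝒪 (MvPowerSeries σ 𝒪 ⧸ J)) := by
  have := mvPS_algebraMap_isLocalHom (𝒪 := 𝒪) (σ := σ)
  have : IsAdicComplete (maximalIdeal (MvPowerSeries σ 𝒪)) (MvPowerSeries σ 𝒪) :=
    isAdicComplete_maximalIdeal_mvPowerSeries
  exact ⟨inferInstance, quot_isAdicComplete J, quot_algebraMap_isLocalHom J,
    quot_residue_surjective mvPS_residue_surjective J⟩

end PowerSeries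

end Fermat.Agent.S53
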